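import Mathlib.GroupTheory.Index

/-!
Index identity behind the triviality of the Herbrand quotient: if `f`, `g` are endomorphisms of
an abelian group `A` and `B` is a finite index subgroup on which `(f, g)` has trivial homology,
then `[ker f : range g] = [ker g : range f]`.
-/

set_option autoImplicit false

namespace Fermat.Agent.CFT.Local

variable {A : Type*} [CommGroup A]

lemma relIndex_map_mul_relIndex_ker (f : A →* A) (B : Subgroup A) :
    (B.map f).relIndex f.range * B.relIndex f.ker = B.index := by
  have h1 : (B.map f).relIndex f.range = (B ⊔ f.ker).index := by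
    rw [MonoidHom.range_eq_map, Subgroup.relIndex_map_map, top_sup_eq, Subgroup.relIndex_top_right]
  have h2 : B.relIndex f.ker = B.relIndex (B ⊔ f.ker) := (Subgroup.relIndex_sup_left (H := f.ker) (K := B)).symm
  rw [h1, h2, mul_comm, Subgroup.relIndex_mul_index le_sup_left]

/-- If the pair `(f, g)` has trivial homology on a finite index subgroup `B`, the two homology
groups of `A` have the same order. -/
theorem relIndex_range_ker_eq (f g : A →* A) (B : Subgroup A) [B.FiniteIndex]
    (hfg : g.range ≤ f.ker) (hgf : f.range ≤ g.ker)
    (hf : f.ker ⊓ B = B.map g) (hg : g.ker ⊓ B = B.map f) :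
    g.range.relIndex f.ker = f.range.relIndex g.ker := by
  have h0 : B.index ≠ 0 := Subgroup.FiniteIndex.index_ne_zero
  have e1 := relIndex_map_mul_relIndex_ker f B
  have e2 := relIndex_map_mul_relIndex_ker g B
  have a1 : (B.map g).relIndex g.range * g.range.relIndex f.ker = B.relIndex f.ker := by
    rw [Subgroup.relIndex_mul_relIndex _ _ _ (Subgroup.map_le_range g B) hfg, ← hf,
      inf_comm, Subgroup.inf_relIndex_right]
  have a2 : (B.map f).relIndex f.range * f.range.relIndex g.ker = B.relIndex g.ker := by
    rw [Subgroup.relIndex_mul_relIndex _ _ _ (Subgroup.map_le_range f B) hgf, ← hg,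
      inf_comm, Subgroup.inf_relIndex_right]
  rw [← a1] at e1
  rw [← a2] at e2
  rw [← e1] at e2 h0
  simp only [mul_ne_zero_iff] at h0
  refine Nat.eq_of_mul_eq_mul_left (Nat.pos_of_ne_zero (mul_ne_zero h0.1 h0.2.1)) ?_
  calc (B.map f).relIndex f.range * (B.map g).relIndex g.range * g.range.relIndex f.ker
      = (B.map f).relIndex f.range * ((B.map g).relIndex g.range * g.range.relIndex f.ker) :=
        mul_assoc _ _ _
    _ = (B.map g).relIndex g.range * ((B.map f).relIndex f.range * f.range.relIndex g.ker) :=
        e2.symm
    _ = _ := by ac_rfl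

end Fermat.Agent.CFT.Local
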