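import Mathlib.Analysis.Normed.Field.Ultra
import Mathlib.Analysis.Normed.Group.Ultra
import Mathlib.Topology.MetricSpace.ProperSpace
import Mathlib.GroupTheory.Index

/-!
Normalised valuation on a proper ultrametric field.
-/

set_option autoImplicit false

namespace Fermat.Agent.CFT.Local

open Metric

variable (K : Type*) [NontriviallyNormedField K] [IsUltrametricDist K] [ProperSpace K]

theorem exists_uniformizer :
    ∃ π : K, π ≠ 0 ∧ ‖π‖ < 1 ∧ ∀ x : K, ‖x‖ < 1 → ‖x‖ ≤ ‖π‖ := by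
  obtain ⟨c, hc0, hc1⟩ := NormedField.exists_norm_lt_one K
  have hcomp : IsCompact (ball (0 : K) 1) :=
    (isCompact_closedBall (0 : K) 1).of_isClosed_subset
      (IsUltrametricDist.isClosed_ball 0 1) ball_subset_closedBall
  obtain ⟨π, hπ, hmax⟩ := hcomp.exists_isMaxOn ⟨0, mem_ball_self one_pos⟩ continuous_norm.continuousOn
  rw [mem_ball_zero_iff] at hπ
  have hc : ‖c‖ ≤ ‖π‖ := hmax (mem_ball_zero_iff.2 hc1)
  refine ⟨π, fun h => ?_, hπ, fun x hx => hmax (mem_ball_zero_iff.2 hx)⟩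
  rw [h, norm_zero] at hc
  exact absurd hc (not_le.2 hc0)

/-- A chosen uniformizer. -/
noncomputable def unif : K := (exists_uniformizer K).choose

lemma unif_ne_zero : unif K ≠ 0 := (exists_uniformizer K).choose_spec.1

lemma norm_unif_lt_one : ‖unif K‖ < 1 := (exists_uniformizer K).choose_spec.2.1

lemma norm_unif_pos : 0 < ‖unif K‖ := norm_pos_iff.2 (unif_ne_zero K)

variable {K}

lemma norm_le_unif {x : K} (hx : ‖x‖ < 1) : ‖x‖ ≤ ‖unif K‖ :=
  (exists_uniformizer K).choose_spec.2.2 x hx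

lemma exists_norm_eq_zpow {x : K} (hx : x ≠ 0) : ∃ n : ℤ, ‖x‖ = ‖unif K‖ ^ n := by
  have h1 := norm_unif_pos K
  obtain ⟨n, hn, hn'⟩ := exists_mem_Ico_zpow (norm_pos_iff.2 hx)
    (one_lt_inv_iff₀.2 ⟨h1, norm_unif_lt_one K⟩)
  refine ⟨-n, ?_⟩
  rw [zpow_neg, ← inv_zpow]
  have hp : (0 : ℝ) < ‖unif K‖⁻¹ ^ (n + 1) := zpow_pos (inv_pos.2 h1) _
  set y : K := x * unif K ^ (n + 1) with hy
  have hy' : ‖y‖ = ‖x‖ / ‖unif K‖⁻¹ ^ (n + 1) := by
    rw [hy, norm_mul, norm_zpow, inv_zpow, div_inv_eq_mul]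
  have := norm_le_unif (x := y) (by rw [hy', div_lt_one hp]; exact hn')
  rw [hy', div_le_iff₀ hp, zpow_add_one₀ (inv_ne_zero h1.ne'), mul_comm _ ‖unif K‖⁻¹,
    ← mul_assoc, mul_inv_cancel₀ h1.ne', one_mul] at this
  exact le_antisymm this hn

open Classical in
/-- Normalised valuation (junk value `0` at `0`). -/
noncomputable def ord (x : K) : ℤ :=
  if hx : x ≠ 0 then (exists_norm_eq_zpow hx).choose else 0

lemma norm_eq_zpow_ord {x : K} (hx : x ≠ 0) : ‖x‖ = ‖unif K‖ ^ ord x := by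
  rw [ord, dif_pos hx]
  exact (exists_norm_eq_zpow hx).choose_spec

lemma zpow_unif_injective : Function.Injective fun n : ℤ => ‖unif K‖ ^ n :=
  zpow_right_injective₀ (norm_unif_pos K) (norm_unif_lt_one K).ne

lemma ord_eq_of_norm {x : K} {n : ℤ} (h : ‖x‖ = ‖unif K‖ ^ n) : ord x = n := by
  have hx : x ≠ 0 := by
    rintro rfl
    rw [norm_zero] at h
    exact (zpow_pos (norm_unif_pos K) n).ne h
  exact zpow_unif_injective ((norm_eq_zpow_ord hx).symm.trans h)

@[simp] lemma ord_unif : ord (unif K) = 1 := ord_eq_of_norm (by simp)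

lemma ord_zpow_unif (n : ℤ) : ord (unif K ^ n) = n := ord_eq_of_norm (norm_zpow _ _)

lemma ord_mul {x y : K} (hx : x ≠ 0) (hy : y ≠ 0) : ord (x * y) = ord x + ord y :=
  ord_eq_of_norm (by rw [norm_mul, norm_eq_zpow_ord hx, norm_eq_zpow_ord hy,
    ← zpow_add₀ (norm_unif_pos K).ne'])

lemma ord_eq_zero_iff {x : K} (hx : x ≠ 0) : ord x = 0 ↔ ‖x‖ = 1 := by
  refine ⟨fun h => by rw [norm_eq_zpow_ord hx, h, zpow_zero], fun h => ord_eq_of_norm (by simpa)⟩

variable (K)

/-- The valuation as a homomorphism. -/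
noncomputable def ordHom : Kˣ →* Multiplicative ℤ where
  toFun x := Multiplicative.ofAdd (ord (x : K))
  map_one' := by simp [ord_eq_of_norm (x := (1 : K)) (n := 0) (by simp)]
  map_mul' x y := by simp [ord_mul x.ne_zero y.ne_zero, ofAdd_add]

lemma ordHom_surjective : Function.Surjective (ordHom K) := fun n =>
  ⟨Units.mk0 (unif K ^ n.toAdd) (zpow_ne_zero _ (unif_ne_zero K)), by simp [ordHom, ord_zpow_unif]⟩

/-- The unit group: elements of norm one. -/
noncomputable def unitSubgroup : Subgroup Kˣ := (ordHom K).ker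

variable {K}

lemma mem_unitSubgroup {x : Kˣ} : x ∈ unitSubgroup K ↔ ‖(x : K)‖ = 1 := by
  simp [unitSubgroup, ordHom, MonoidHom.mem_ker, ← ord_eq_zero_iff x.ne_zero]

end Fermat.Agent.CFT.Local
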