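import Mathlib.FieldTheory.Galois.NormalBasis
import Mathlib.Analysis.Normed.Module.FiniteDimension
import Mathlib.Topology.MetricSpace.Ultra.Pi
import Fermat.Agent.CFT.Local.Basic

/-!
For a cyclic extension `L/K` of proper ultrametric fields we construct a small open subgroup of
units with trivial cohomology, from a lattice spanned by a normal basis.
-/

set_option autoImplicit false

namespace Fermat.Agent.CFT.Local

open Metric Finset

variable (K L : Type*) [NontriviallyNormedField K] [IsUltrametricDist K] [ProperSpace K]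
  [NontriviallyNormedField L] [IsUltrametricDist L] [NormedAlgebra K L]
  [FiniteDimensional K L] [IsGalois K L]

/-- Coordinates in a normal basis. -/
noncomputable def coord : L ≃L[K] (Gal(L/K) → K) :=
  (IsGalois.normalBasis K L).equivFun.toContinuousLinearEquiv

variable {K L}

lemma coord_galois (τ : Gal(L/K)) (x : L) (g : Gal(L/K)) :
    coord K L (τ x) g = coord K L x (τ⁻¹ * g) := by
  classical
  set b := IsGalois.normalBasis K L with hb
  have key : τ x = ∑ h, coord K L x (τ⁻¹ * h) • b h := by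
    conv_lhs => rw [← b.sum_equivFun x, map_sum]
    refine Fintype.sum_equiv (Equiv.mulLeft τ) _ _ fun h => ?_
    simp only [Equiv.coe_mulLeft, inv_mul_cancel_left, map_smul]
    rw [IsGalois.normalBasis_apply h, IsGalois.normalBasis_apply (τ * h), AlgEquiv.mul_apply]
    rfl
  show b.equivFun (τ x) g = _
  rw [key, b.equivFun_apply, b.repr_sum_self]

lemma coord_galois_norm (τ : Gal(L/K)) (x : L) : ‖coord K L (τ x)‖ = ‖coord K L x‖ := by
  refine le_antisymm ?_ ?_ <;> refine (pi_norm_le_iff_of_nonneg (norm_nonneg _)).2 fun g => ?_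
  · rw [coord_galois]
    exact norm_le_pi_norm _ _
  · have := norm_le_pi_norm (coord K L (τ x)) (τ * g)
    rwa [coord_galois, inv_mul_cancel_left] at this

lemma coord_trace (x : L) (g : Gal(L/K)) :
    coord K L (∑ τ : Gal(L/K), τ x) g = ∑ h, coord K L x h := by
  simp only [map_sum, Finset.sum_apply, coord_galois]
  exact Fintype.sum_equiv ((Equiv.inv _).trans (Equiv.mulRight g)) _ _ fun τ => by simp

variable (K L)

/-- Bounds governing the lattice: `C` controls multiplication, `r` is the radius. -/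
structure LatticeData where
  C : ℝ
  r : ℝ
  C_nonneg : 0 ≤ C
  r_pos : 0 < r
  mul_le : ∀ x y : L, ‖coord K L (x * y)‖ ≤ C * (‖coord K L x‖ * ‖coord K L y‖)
  Cr_lt : C * r < 1
  small : ∀ x : L, ‖coord K L x‖ ≤ r → ‖x‖ < 1

theorem nonempty_latticeData : Nonempty (LatticeData K L) := by
  set a := ‖(coord K L : L →L[K] (Gal(L/K) → K))‖
  set b := ‖((coord K L).symm : (Gal(L/K) → K) →L[K] L)‖
  have hb : ∀ x : L, ‖x‖ ≤ b * ‖coord K L x‖ := fun x => by
    simpa using ((coord K L).symm : (Gal(L/K) → K) →L[K] L).le_opNorm (coord K L x)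
  have hpos : 0 < a * b ^ 2 + b + 1 := by positivity
  refine ⟨⟨a * b ^ 2, (a * b ^ 2 + b + 1)⁻¹, by positivity, inv_pos.2 hpos, fun x y => ?_, ?_,
    fun x hx => ?_⟩⟩
  · calc ‖coord K L (x * y)‖ ≤ a * ‖x * y‖ :=
          (coord K L : L →L[K] (Gal(L/K) → K)).le_opNorm _
      _ ≤ a * ((b * ‖coord K L x‖) * (b * ‖coord K L y‖)) := by
          rw [norm_mul]; gcongr <;> exact hb _
      _ = _ := by ring
  · rw [← div_eq_mul_inv, div_lt_one hpos]
    nlinarith [norm_nonneg ((coord K L).symm : (Gal(L/K) → K) →L[K] L)]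
  · refine (hb x).trans_lt ?_
    refine (mul_le_mul_of_nonneg_left hx (norm_nonneg _)).trans_lt ?_
    rw [← div_eq_mul_inv, div_lt_one hpos]
    nlinarith [mul_nonneg (norm_nonneg (coord K L : L →L[K] (Gal(L/K) → K))) (sq_nonneg b)]

variable {K L}

namespace LatticeData

variable (D : LatticeData K L)

/-- The set `1 + lattice`. -/
def V : Set L := {x | ‖coord K L (x - 1)‖ ≤ D.r}

lemma isCompact_V : IsCompact D.V := by
  have : D.V = (fun c => 1 + (coord K L).symm c) '' closedBall 0 D.r := by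
    ext x
    constructor
    · intro hx
      exact ⟨coord K L (x - 1), mem_closedBall_zero_iff.2 hx, by simp⟩
    · rintro ⟨c, hc, rfl⟩
      simpa [V] using mem_closedBall_zero_iff.1 hc
  rw [this]
  exact (isCompact_closedBall _ _).image (by fun_prop)

lemma one_mem : (1 : L) ∈ D.V := by simp [V, D.r_pos.le]

lemma norm_eq_one {x : L} (hx : x ∈ D.V) : ‖x‖ = 1 := by
  have := D.small _ hx
  have h := IsUltrametricDist.norm_add_eq_max_of_norm_ne_norm (x := x - 1) (y := (1 : L))
    (by simpa using this.ne)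
  simpa [max_eq_right this.le] using h

lemma ne_zero {x : L} (hx : x ∈ D.V) : x ≠ 0 := fun h => by
  simpa [h] using D.norm_eq_one hx

lemma galois_mem (τ : Gal(L/K)) {x : L} (hx : x ∈ D.V) : τ x ∈ D.V := by
  show ‖coord K L (τ x - 1)‖ ≤ D.r
  rw [← map_one τ, ← map_sub, coord_galois_norm]
  exact hx

lemma mul_small {x y : L} {t : ℝ} (hx : ‖coord K L x‖ ≤ t) (hy : y ∈ D.V) :
    ‖coord K L (x * y)‖ ≤ t := by
  have : x * y = x + x * (y - 1) := by ring
  rw [this, map_add]
  refine (IsUltrametricDist.norm_add_le_max _ _).trans (max_le hx ((D.mul_le _ _).trans ?_))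
  have ht : 0 ≤ t := (norm_nonneg _).trans hx
  calc D.C * (‖coord K L x‖ * ‖coord K L (y - 1)‖) ≤ D.C * (t * D.r) :=
        mul_le_mul_of_nonneg_left (mul_le_mul hx hy (norm_nonneg _) ht) D.C_nonneg
    _ = (D.C * D.r) * t := by ring
    _ ≤ 1 * t := mul_le_mul_of_nonneg_right D.Cr_lt.le ht
    _ = t := one_mul t

lemma mul_mem {x y : L} (hx : x ∈ D.V) (hy : y ∈ D.V) : x * y ∈ D.V := by
  show ‖coord K L (x * y - 1)‖ ≤ D.r
  have : x * y - 1 = (x - 1) * y + (y - 1) := by ring
  rw [this, map_add]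
  exact (IsUltrametricDist.norm_add_le_max _ _).trans (max_le (D.mul_small hx hy) hy)

lemma inv_mem {x : L} (hx : x ∈ D.V) : x⁻¹ ∈ D.V := by
  show ‖coord K L (x⁻¹ - 1)‖ ≤ D.r
  have h : x⁻¹ - 1 = -(x - 1) + -((x - 1) * (x⁻¹ - 1)) := by
    field_simp [D.ne_zero hx]
    ring
  by_contra hlt
  push Not at hlt
  set n := ‖coord K L (x⁻¹ - 1)‖
  have hn : 0 < n := D.r_pos.trans hlt
  have hle : n ≤ max D.r ((D.C * D.r) * n) := by
    calc n = ‖coord K L (-(x - 1) + -((x - 1) * (x⁻¹ - 1)))‖ := by rw [← h]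
      _ ≤ max ‖coord K L (x - 1)‖ ‖coord K L ((x - 1) * (x⁻¹ - 1))‖ := by
          rw [map_add, map_neg, map_neg, ← norm_neg (coord K L (x - 1)),
            ← norm_neg (coord K L ((x - 1) * (x⁻¹ - 1)))]
          exact IsUltrametricDist.norm_add_le_max _ _
      _ ≤ _ := max_le_max hx ((D.mul_le _ _).trans (by
          rw [← mul_assoc]
          exact mul_le_mul_of_nonneg_right (mul_le_mul_of_nonneg_left hx D.C_nonneg) hn.le))
  rcases le_max_iff.1 hle with h' | h'
  · exact absurd h' (not_le.2 hlt)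
  · exact absurd h' (not_le.2 (mul_lt_of_lt_one_left hn D.Cr_lt))

lemma div_sub_one_le {v w : L} (hw : w ∈ D.V) {t : ℝ} (h : ‖coord K L (v - w)‖ ≤ t) :
    ‖coord K L (v / w - 1)‖ ≤ t := by
  have : v / w - 1 = (v - w) * w⁻¹ := by field_simp [D.ne_zero hw]
  rw [this]
  exact D.mul_small h (D.inv_mem hw)

lemma prod_mem {ι : Type*} (s : Finset ι) (x : ι → L) (hx : ∀ i ∈ s, x i ∈ D.V) :
    ∏ i ∈ s, x i ∈ D.V := Finset.prod_induction _ (· ∈ D.V) (fun _ _ => D.mul_mem) D.one_mem hx

lemma prod_one_add {ι : Type*} (u : Finset ι) (a : ι → L) {s : ℝ} (hs : 0 ≤ s) (hsr : s ≤ D.r)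
    (ha : ∀ i ∈ u, ‖coord K L (a i)‖ ≤ s) :
    ‖coord K L (∏ i ∈ u, (1 + a i) - 1 - ∑ i ∈ u, a i)‖ ≤ D.C * (s * s) := by
  classical
  have hCs : D.C * (s * s) ≤ s := by
    calc D.C * (s * s) ≤ D.C * (D.r * s) := by
          exact mul_le_mul_of_nonneg_left (mul_le_mul_of_nonneg_right hsr hs) D.C_nonneg
      _ = (D.C * D.r) * s := by ring
      _ ≤ 1 * s := mul_le_mul_of_nonneg_right D.Cr_lt.le hs
      _ = s := one_mul s
  induction u using Finset.induction with
  | empty => simp [mul_nonneg D.C_nonneg (mul_self_nonneg s)]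
  | @insert i u hi ih =>
    rw [Finset.prod_insert hi, Finset.sum_insert hi]
    have ha' := fun j hj => ha j (Finset.mem_insert_of_mem hj)
    have hi' := ha i (Finset.mem_insert_self _ _)
    set E := ∏ j ∈ u, (1 + a j) - 1 - ∑ j ∈ u, a j with hE
    have hS : ‖coord K L (∑ j ∈ u, a j + E)‖ ≤ s := by
      rw [map_add]
      refine (IsUltrametricDist.norm_add_le_max _ _).trans (max_le ?_ ((ih ha').trans hCs))
      rw [map_sum]
      exact IsUltrametricDist.norm_sum_le_of_forall_le_of_nonneg hs ha'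
    have : (1 + a i) * ∏ j ∈ u, (1 + a j) - 1 - (a i + ∑ j ∈ u, a j)
        = E + a i * (∑ j ∈ u, a j + E) := by rw [hE]; ring
    rw [this, map_add]
    refine (IsUltrametricDist.norm_add_le_max _ _).trans (max_le (ih ha') ((D.mul_le _ _).trans ?_))
    exact mul_le_mul_of_nonneg_left (mul_le_mul hi' hS (norm_nonneg _) hs) D.C_nonneg

lemma C_sq_le {s : ℝ} (hs : 0 ≤ s) (hsr : s ≤ D.r) : D.C * (s * s) ≤ (D.C * D.r) * s := by
  rw [mul_assoc]
  exact mul_le_mul_of_nonneg_left (mul_le_mul_of_nonneg_right hsr hs) D.C_nonneg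

/-- Successive approximation. -/
theorem mem_image_of_approx (P : L → Prop) (Φ : L → L) (hΦc : ContinuousOn Φ D.V) (hΦ1 : Φ 1 = 1)
    (hΦm : ∀ x ∈ D.V, ∀ y ∈ D.V, Φ (x * y) = Φ x * Φ y)
    (step : ∀ v ∈ D.V, P v → ∃ w ∈ D.V, P (v / Φ w) ∧
      ‖coord K L (v / Φ w - 1)‖ ≤ (D.C * D.r) * ‖coord K L (v - 1)‖)
    {v : L} (hv : v ∈ D.V) (hP : P v) : ∃ w ∈ D.V, Φ w = v := by
  set ρ := D.C * D.r
  have hρ : 0 ≤ ρ := mul_nonneg D.C_nonneg D.r_pos.le
  have key : ∀ k : ℕ, ∃ w ∈ D.V, P (v / Φ w) ∧ ‖coord K L (v / Φ w - 1)‖ ≤ ρ ^ k * D.r := by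
    intro k
    induction k with
    | zero => exact ⟨1, D.one_mem, by simpa [hΦ1], by rw [hΦ1, div_one, pow_zero, one_mul]; exact hv⟩
    | succ k ih =>
      obtain ⟨w, hw, hwP, hwn⟩ := ih
      have hmem : v / Φ w ∈ D.V := hwn.trans
        (mul_le_of_le_one_left D.r_pos.le (pow_le_one₀ hρ D.Cr_lt.le))
      obtain ⟨w', hw', hwP', hwn'⟩ := step _ hmem hwP
      refine ⟨w * w', D.mul_mem hw hw', ?_, ?_⟩ <;> rw [hΦm w hw w' hw', ← div_div]
      · exact hwP'
      · calc _ ≤ ρ * (ρ ^ k * D.r) := hwn'.trans (mul_le_mul_of_nonneg_left hwn hρ)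
          _ = _ := by ring
  choose w hw _ hwn using key
  have hclosed : IsClosed (Φ '' D.V) := (D.isCompact_V.image_of_continuousOn hΦc).isClosed
  have h0 : Filter.Tendsto (fun k => v / Φ (w k)) Filter.atTop (nhds 1) := by
    have : Filter.Tendsto (fun k => coord K L (v / Φ (w k) - 1)) Filter.atTop (nhds 0) :=
      squeeze_zero_norm hwn (by
        simpa using (tendsto_pow_atTop_nhds_zero_of_lt_one hρ D.Cr_lt).mul_const D.r)
    have h := (((coord K L).symm.continuous.tendsto 0).comp this).add_const (1 : L)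
    simpa [Function.comp_def] using h
  have hv0 := D.ne_zero hv
  have hne : ∀ k, Φ (w k) ≠ 0 := fun k h => by
    have : v / Φ (w k) ∈ D.V := (hwn k).trans
      (mul_le_of_le_one_left D.r_pos.le (pow_le_one₀ hρ D.Cr_lt.le))
    exact D.ne_zero this (by simp [h])
  have h1 : Filter.Tendsto (fun k => Φ (w k)) Filter.atTop (nhds v) := by
    have h := (h0.inv₀ one_ne_zero).const_mul v
    simp only [inv_one, mul_one] at h
    refine h.congr fun k => ?_
    have := hne k
    field_simp
  exact hclosed.mem_of_tendsto h1 (Filter.Eventually.of_forall fun k => ⟨w k, hw k, rfl⟩)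

/-- Every Galois-fixed element of `V` is a norm from `V`. -/
theorem exists_norm_eq {v : L} (hv : v ∈ D.V) (hfix : ∀ τ : Gal(L/K), τ v = v) :
    ∃ w ∈ D.V, ∏ τ : Gal(L/K), τ w = v := by
  classical
  refine D.mem_image_of_approx (fun x => ∀ τ : Gal(L/K), τ x = x)
    (fun x => ∏ τ : Gal(L/K), τ x) ?_ (by simp)
    (fun x _ y _ => by simp [Finset.prod_mul_distrib]) ?_ hv hfix
  · exact (continuous_finsetProd _ fun τ _ =>
      (τ.toLinearMap.continuous_of_finiteDimensional)).continuousOn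
  intro v hv hfix
  set m := v - 1 with hm
  have hconst : ∀ g, coord K L m g = coord K L m 1 := fun g => by
    have := congrArg (fun x => coord K L x g) (show g m = m by rw [hm, map_sub, map_one, hfix])
    simpa [coord_galois] using this.symm
  set m' := (coord K L).symm (Pi.single 1 (coord K L m 1)) with hm'
  have htr : ∑ τ : Gal(L/K), τ m' = m := by
    apply (coord K L).injective
    ext g
    rw [coord_trace, hm', ContinuousLinearEquiv.apply_symm_apply, hconst g]
    simp
  have hs : ‖coord K L m'‖ ≤ ‖coord K L m‖ := by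
    rw [hm', ContinuousLinearEquiv.apply_symm_apply, Pi.norm_single]
    exact norm_le_pi_norm _ _
  have hw : 1 + m' ∈ D.V := by
    show ‖coord K L (1 + m' - 1)‖ ≤ D.r
    rw [add_sub_cancel_left]
    exact hs.trans hv
  refine ⟨1 + m', hw, fun τ => ?_, ?_⟩
  · rw [map_div₀, hfix, map_prod]
    congr 1
    exact Fintype.prod_equiv (Equiv.mulLeft τ) _ _ fun g => rfl
  refine D.div_sub_one_le (D.prod_mem _ _ fun τ _ => D.galois_mem τ hw) ?_
  refine le_trans ?_ (D.C_sq_le (norm_nonneg _) hv)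
  have hbd := D.prod_one_add (univ : Finset (Gal(L/K))) (fun τ => τ m') (norm_nonneg _) hv
    (fun τ _ => (coord_galois_norm τ m').trans_le hs)
  simp only [map_add, map_one]
  rw [htr] at hbd
  rw [show v - ∏ τ : Gal(L/K), (1 + τ m') = -(∏ τ : Gal(L/K), (1 + τ m') - 1 - m) by rw [hm]; ring,
    map_neg, norm_neg]
  exact hbd

/-- For a cyclic group, every element of norm one in `V` is of the form `σ w / w` with `w ∈ V`. -/
theorem exists_quotient_eq (σ : Gal(L/K)) (hσ : ∀ τ : Gal(L/K), τ ∈ Subgroup.zpowers σ) {v : L}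
    (hv : v ∈ D.V) (hN : ∏ τ : Gal(L/K), τ v = 1) : ∃ w ∈ D.V, σ w / w = v := by
  classical
  refine D.mem_image_of_approx (fun x => ∏ τ : Gal(L/K), τ x = 1) (fun x => σ x / x) ?_ (by simp)
    (fun x _ y _ => by simp [mul_div_mul_comm]) ?_ hv hN
  · exact ContinuousOn.div σ.toLinearMap.continuous_of_finiteDimensional.continuousOn
      continuousOn_id fun x hx => D.ne_zero hx
  intro v hv hN
  set m := v - 1 with hm
  set s := ‖coord K L m‖
  have hs : 0 ≤ s := norm_nonneg _
  set t := ∑ g, coord K L m g with ht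
  have htr : ‖t‖ ≤ D.C * (s * s) := by
    have h := D.prod_one_add (univ : Finset (Gal(L/K))) (fun τ => τ m) hs hv
      (fun τ _ => (coord_galois_norm τ m).le)
    rw [Finset.prod_congr rfl (g := fun τ => τ v) (fun τ _ => by simp [hm]), hN,
      sub_self, zero_sub, map_neg, norm_neg] at h
    refine le_trans (le_of_eq_of_le ?_ (norm_le_pi_norm _ 1)) h
    rw [coord_trace]
  set t' := (coord K L).symm (Pi.single 1 t) with ht'
  have ht'le : ‖coord K L t'‖ ≤ D.C * (s * s) := by
    rw [ht', ContinuousLinearEquiv.apply_symm_apply, Pi.norm_single]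
    exact htr
  set e : Gal(L/K) → K := coord K L m - Pi.single 1 t with he
  have he0 : ∑ g, e g = 0 := by
    simp [he, Finset.sum_sub_distrib, ← ht]
  have hCs : D.C * (s * s) ≤ s :=
    (D.C_sq_le hs hv).trans (mul_le_of_le_one_left hs D.Cr_lt.le)
  have hes : ∀ g, ‖e g‖ ≤ s := fun g => by
    rw [he, Pi.sub_apply, sub_eq_add_neg]
    refine (IsUltrametricDist.norm_add_le_max _ _).trans (max_le (norm_le_pi_norm _ _) ?_)
    rw [norm_neg]
    refine le_trans ?_ (htr.trans hCs)
    by_cases hg : g = 1 <;> simp [hg]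
  -- a periodic antiderivative of `e`
  set n := orderOf σ
  have hn : 0 < n := (isOfFinOrder_of_finite σ).orderOf_pos
  have hsum : ∀ i, ∑ j ∈ range n, e (σ ^ (i + j)) = 0 := fun i => by
    rw [← he0]
    refine Finset.sum_bij (fun j _ => σ ^ (i + j)) (fun _ _ => mem_univ _) ?_ ?_ (fun _ _ => rfl)
    · intro a ha b hb hab
      rw [pow_add, pow_add, mul_left_cancel_iff] at hab
      exact pow_injOn_Iio_orderOf (by simpa using ha) (by simpa using hb) hab
    · intro g _
      obtain ⟨k, hk, hk'⟩ := Finset.mem_image.1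
        ((isOfFinOrder_of_finite σ).mem_zpowers_iff_mem_range_orderOf.1 (hσ ((σ ^ i)⁻¹ * g)))
      exact ⟨k, hk, by rw [pow_add, hk', mul_inv_cancel_left]⟩
  let A : ℕ → K := fun i => -∑ j ∈ range (i + 1), e (σ ^ j)
  have hA : ∀ i, A (i + n) = A i := fun i => by
    show -_ = -_
    rw [show i + n + 1 = i + 1 + n by ring, Finset.sum_range_add _ (i + 1) n, hsum, add_zero]
  have hA' : ∀ i, A i = A (i % n) := fun i => (Function.Periodic.map_mod_nat hA i).symm
  have hex : ∀ g, ∃ i, σ ^ i = g := fun g =>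
    ((isOfFinOrder_of_finite σ).mem_powers_iff_mem_zpowers.2 (hσ g))
  choose idx hidx using hex
  let a : Gal(L/K) → K := fun g => A (idx g)
  have haA : ∀ i, a (σ ^ i) = A i := fun i => by
    show A (idx (σ ^ i)) = A i
    rw [hA' i, hA', show idx (σ ^ i) % n = i % n from
      (pow_eq_pow_iff_modEq.1 (hidx (σ ^ i)))]
  have hstep : ∀ g, a (σ⁻¹ * g) - a g = e g := fun g => by
    have h2 : σ⁻¹ * g = σ ^ (idx g + (n - 1)) := by
      rw [inv_mul_eq_iff_eq_mul, ← pow_succ', add_assoc, Nat.sub_add_cancel hn, pow_add,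
        pow_orderOf_eq_one, mul_one, hidx]
    have h3 : a g = A (idx g + (n - 1) + 1) := by
      rw [add_assoc, Nat.sub_add_cancel hn, hA]
    have h4 : e g = e (σ ^ (idx g + (n - 1) + 1)) := by
      rw [add_assoc, Nat.sub_add_cancel hn, pow_add, pow_orderOf_eq_one, mul_one, hidx]
    rw [h2, haA, h3, h4]
    simp only [A, Finset.sum_range_succ _ (idx g + (n - 1) + 1)]
    ring
  set m' := (coord K L).symm a with hm'
  have hm's : ‖coord K L m'‖ ≤ s := by
    rw [hm', ContinuousLinearEquiv.apply_symm_apply]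
    refine (pi_norm_le_iff_of_nonneg hs).2 fun g => ?_
    show ‖-∑ j ∈ range (idx g + 1), e (σ ^ j)‖ ≤ s
    rw [norm_neg]
    exact IsUltrametricDist.norm_sum_le_of_forall_le_of_nonneg hs fun j _ => hes _
  have heq : m = σ m' - m' + t' := by
    apply (coord K L).injective
    ext g
    simp only [map_add, map_sub, Pi.add_apply, Pi.sub_apply, coord_galois, hm', ht',
      ContinuousLinearEquiv.apply_symm_apply]
    rw [hstep]
    simp [he]
  have hw : 1 + m' ∈ D.V := by
    show ‖coord K L (1 + m' - 1)‖ ≤ D.r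
    rw [add_sub_cancel_left]
    exact hm's.trans hv
  have hΦ : σ (1 + m') / (1 + m') ∈ D.V := by
    rw [div_eq_mul_inv]
    exact D.mul_mem (D.galois_mem σ hw) (D.inv_mem hw)
  refine ⟨1 + m', hw, ?_, ?_⟩
  · simp only [map_div₀, Finset.prod_div_distrib, hN]
    have h : ∏ τ : Gal(L/K), τ (σ (1 + m')) = ∏ τ : Gal(L/K), τ (1 + m') :=
      Fintype.prod_equiv (Equiv.mulRight σ) _ _ fun g => rfl
    have h0 : ∏ τ : Gal(L/K), τ (1 + m') ≠ 0 :=
      Finset.prod_ne_zero_iff.2 fun τ _ => D.ne_zero (D.galois_mem τ hw)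
    rw [h, div_self h0, div_one]
  refine D.div_sub_one_le hΦ ?_
  refine le_trans ?_ (D.C_sq_le hs hv)
  have hcalc : v - σ (1 + m') / (1 + m') = (t' + m * m') * (1 + m')⁻¹ := by
    have := D.ne_zero hw
    rw [map_add, map_one, show v = 1 + m by rw [hm]; ring]
    field_simp
    rw [heq]
    ring
  rw [hcalc]
  refine D.mul_small ?_ (D.inv_mem hw)
  rw [map_add]
  exact (IsUltrametricDist.norm_add_le_max _ _).trans (max_le ht'le ((D.mul_le _ _).trans
    (mul_le_mul_of_nonneg_left (mul_le_mul_of_nonneg_left hm's hs) D.C_nonneg)))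

end LatticeData

end Fermat.Agent.CFT.Local
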