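import Mathlib.Analysis.Normed.Unbundled.SpectralNorm
import Mathlib.Data.ZMod.QuotientGroup
import Mathlib.RepresentationTheory.Homological.GroupCohomology.Hilbert90
import Fermat.Agent.CFT.Local.Index
import Fermat.Agent.CFT.Local.Lattice

/-!
Norm index of cyclic extensions of local fields: `[Kˣ : N Lˣ] = [L : K]`, and units are norms when
the extension is unramified.
-/

set_option autoImplicit false

namespace Fermat.Agent.CFT.Local

open Finset

variable (K L : Type) [NontriviallyNormedField K] [IsUltrametricDist K] [ProperSpace K]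
  [NontriviallyNormedField L] [NormedAlgebra K L] [FiniteDimensional K L]

lemma norm_galois (τ : Gal(L/K)) (x : L) : ‖τ x‖ = ‖x‖ := by
  rw [NormedAlgebra.norm_eq_spectralNorm K (τ x), NormedAlgebra.norm_eq_spectralNorm K x]
  exact (spectralNorm_eq_of_equiv τ x).symm

/-- The group of norms. -/
noncomputable def normGroup : Subgroup Kˣ :=
  (Units.map (Algebra.norm K : L →* K)).range

variable [IsUltrametricDist L] [ProperSpace L]

/-- Ramification index. -/
noncomputable def ramIdx : ℕ := (ord (algebraMap K L (unif K))).natAbs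

omit [FiniteDimensional K L] in
lemma ord_algebraMap_unif_pos : 0 < ord (algebraMap K L (unif K)) := by
  have h0 : algebraMap K L (unif K) ≠ 0 := by simpa using unif_ne_zero K
  have h : ‖algebraMap K L (unif K)‖ < 1 := by
    rw [norm_algebraMap']; exact norm_unif_lt_one K
  rw [norm_eq_zpow_ord h0] at h
  by_contra hle
  push Not at hle
  exact absurd h (not_lt.2 (one_le_zpow_of_nonpos₀ (norm_unif_pos L) (norm_unif_lt_one L).le hle))

lemma ramIdx_pos : 0 < ramIdx K L :=
  Int.natAbs_pos.2 (ord_algebraMap_unif_pos K L).ne'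

lemma ord_algebraMap {x : K} (hx : x ≠ 0) :
    ord (algebraMap K L x) = (ramIdx K L : ℤ) * ord x := by
  have h0 : algebraMap K L (unif K) ≠ 0 := by simpa using unif_ne_zero K
  refine ord_eq_of_norm ?_
  rw [norm_algebraMap', norm_eq_zpow_ord hx, zpow_mul, ramIdx,
    Int.natAbs_of_nonneg (ord_algebraMap_unif_pos K L).le, ← norm_eq_zpow_ord h0, norm_algebraMap']

variable [IsGalois K L]

omit [IsUltrametricDist L] [ProperSpace L] in
lemma norm_algebraNorm_eq (x : L) :
    ‖Algebra.norm K x‖ = ‖x‖ ^ Nat.card Gal(L/K) := by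
  rw [← norm_algebraMap' L, Algebra.norm_eq_prod_automorphisms, norm_prod]
  simp [norm_galois, Nat.card_eq_fintype_card]

lemma ramIdx_mul_ord_norm {x : L} (hx : x ≠ 0) :
    (ramIdx K L : ℤ) * ord (Algebra.norm K x) = (Module.finrank K L : ℤ) * ord x := by
  rw [← IsGalois.card_aut_eq_finrank K L, ← ord_algebraMap K L (Algebra.norm_ne_zero_iff.2 hx)]
  refine ord_eq_of_norm ?_
  rw [norm_algebraMap', norm_algebraNorm_eq, mul_comm, zpow_mul, zpow_natCast,
    ← norm_eq_zpow_ord hx]

lemma ramIdx_dvd : ramIdx K L ∣ Module.finrank K L := by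
  have h := ramIdx_mul_ord_norm K L (unif_ne_zero L)
  rw [ord_unif, mul_one] at h
  exact Int.natCast_dvd_natCast.1 ⟨_, h.symm⟩

/-- The residue degree, defined as `[L : K] / e`. -/
noncomputable def resDeg : ℕ := Module.finrank K L / ramIdx K L

lemma ramIdx_mul_resDeg : ramIdx K L * resDeg K L = Module.finrank K L :=
  Nat.mul_div_cancel' (ramIdx_dvd K L)

lemma ord_norm {x : L} (hx : x ≠ 0) : ord (Algebra.norm K x) = (resDeg K L : ℤ) * ord x := by
  have h := ramIdx_mul_ord_norm K L hx
  rw [← ramIdx_mul_resDeg K L, Nat.cast_mul, mul_assoc] at h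
  exact mul_left_cancel₀ (by exact_mod_cast (ramIdx_pos K L).ne') h

/-- `[Kˣ : N Lˣ] = f · [U_K : N U_L]`. -/
lemma normGroup_index_eq :
    (normGroup K L).index =
      ((unitSubgroup L).map (Units.map (Algebra.norm K : L →* K))).relIndex (unitSubgroup K)
        * resDeg K L := by
  set N : Lˣ →* Kˣ := Units.map (Algebra.norm K : L →* K)
  have hmap : (normGroup K L).map (ordHom K)
      = AddSubgroup.toSubgroup (AddSubgroup.zmultiples (resDeg K L : ℤ)) := by
    ext z
    constructor
    · rintro ⟨_, ⟨y, rfl⟩, rfl⟩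
      refine ⟨ord (y : L), ?_⟩
      show (ord (y : L)) • (resDeg K L : ℤ) = ord (Algebra.norm K (y : L))
      rw [ord_norm K L y.ne_zero, smul_eq_mul, mul_comm]
    · rintro ⟨m, hm⟩
      refine ⟨N (Units.mk0 (unif L ^ m) (zpow_ne_zero _ (unif_ne_zero L))), ⟨_, rfl⟩, ?_⟩
      show Multiplicative.ofAdd (ord (Algebra.norm K (unif L ^ m))) = z
      rw [ord_norm K L (zpow_ne_zero _ (unif_ne_zero L)), ord_zpow_unif]
      simp only [smul_eq_mul] at hm
      rw [mul_comm, hm]
      rfl
  have hidx : (normGroup K L ⊔ unitSubgroup K).index = resDeg K L := by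
    have h := Subgroup.index_map_eq
      (H := normGroup K L ⊔ unitSubgroup K) (f := ordHom K) (ordHom_surjective K) le_sup_right
    rw [← h, Subgroup.map_sup, unitSubgroup, (Subgroup.map_eq_bot_iff _).2 le_rfl, sup_bot_eq,
      hmap, AddSubgroup.index_toSubgroup, Int.index_zmultiples, Int.natAbs_natCast]
  have hinf : normGroup K L ⊓ unitSubgroup K = (unitSubgroup L).map N := by
    ext z
    constructor
    · rintro ⟨⟨y, rfl⟩, hz⟩
      refine ⟨y, ?_, rfl⟩
      replace hz : ‖Algebra.norm K (y : L)‖ = 1 := mem_unitSubgroup.1 hz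
      rw [SetLike.mem_coe, mem_unitSubgroup]
      rw [norm_algebraNorm_eq] at hz
      exact (pow_eq_one_iff_of_nonneg (norm_nonneg _) Nat.card_pos.ne').1 hz
    · rintro ⟨y, hy, rfl⟩
      refine ⟨⟨y, rfl⟩, mem_unitSubgroup.2 ?_⟩
      rw [SetLike.mem_coe, mem_unitSubgroup] at hy
      show ‖Algebra.norm K (y : L)‖ = 1
      rw [norm_algebraNorm_eq, hy, one_pow]
  rw [← Subgroup.relIndex_mul_index (le_sup_left (b := unitSubgroup K)), hidx,
    Subgroup.relIndex_sup_left, ← Subgroup.inf_relIndex_right, hinf]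

variable (σ : Gal(L/K)) (hσ : ∀ τ : Gal(L/K), τ ∈ Subgroup.zpowers σ)

include hσ in
/-- `[U_K : N U_L] = e` for cyclic extensions. -/
theorem norm_units_relIndex :
    ((unitSubgroup L).map (Units.map (Algebra.norm K : L →* K))).relIndex (unitSubgroup K)
      = ramIdx K L := by
  classical
  obtain ⟨D⟩ := nonempty_latticeData K L
  set N : Lˣ →* Kˣ := Units.map (Algebra.norm K : L →* K)
  set ι : Kˣ →* Lˣ := Units.map (algebraMap K L : K →* L)
  have hι : Function.Injective ι := Units.map_injective (algebraMap K L).injective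
  set d : Lˣ →* Lˣ :=
    { toFun := fun x => Units.map (σ : L →* L) x / x
      map_one' := by simp
      map_mul' := fun x y => by rw [map_mul, mul_div_mul_comm] }
  set nm : Lˣ →* Lˣ := ι.comp N
  have hd : ∀ x : Lˣ, (d x : L) = σ (x : L) / x := fun x => by
    simp [d]
  have hnm : ∀ x : Lˣ, (nm x : L) = ∏ τ : Gal(L/K), τ (x : L) := fun x =>
    Algebra.norm_eq_prod_automorphisms K (x : L)
  set U := unitSubgroup L
  have hdU : ∀ x : Lˣ, d x ∈ U := fun x => by
    rw [mem_unitSubgroup, hd, norm_div, norm_galois,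
      div_self (norm_ne_zero_iff.2 x.ne_zero)]
  have hnU : ∀ x ∈ U, nm x ∈ U := fun x hx => by
    rw [mem_unitSubgroup] at hx ⊢
    rw [hnm, norm_prod]
    simp [norm_galois, hx]
  let f : U →* U := (d.comp U.subtype).codRestrict U fun x => hdU x
  let g : U →* U := (nm.comp U.subtype).codRestrict U fun x => hnU x x.2
  have hfval : ∀ x : U, ((f x : Lˣ) : L) = σ ((x : Lˣ) : L) / ((x : Lˣ) : L) := fun x => hd x
  have hgval : ∀ x : U, ((g x : Lˣ) : L) = ∏ τ : Gal(L/K), τ ((x : Lˣ) : L) := fun x => hnm x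
  let B : Subgroup U :=
    { carrier := {x | ((x : Lˣ) : L) ∈ D.V}
      one_mem' := D.one_mem
      mul_mem' := fun hx hy => by simpa using D.mul_mem hx hy
      inv_mem' := fun hx => by simpa using D.inv_mem hx }
  have hne : ∀ x : U, ((x : Lˣ) : L) ≠ 0 := fun x => (x : Lˣ).ne_zero
  have hfix : ∀ x : L, σ x = x → ∀ τ : Gal(L/K), τ x = x := fun x hx τ => by
    have : Subgroup.zpowers σ ≤ MulAction.stabilizer Gal(L/K) x := Subgroup.zpowers_le.2 hx
    exact this (hσ τ)
  have hfker : ∀ x : U, x ∈ f.ker ↔ σ ((x : Lˣ) : L) = ((x : Lˣ) : L) := fun x => by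
    rw [MonoidHom.mem_ker, Subtype.ext_iff, Units.ext_iff, hfval]
    exact div_eq_one_iff_eq (hne x)
  have hgker : ∀ x : U, x ∈ g.ker ↔ ∏ τ : Gal(L/K), τ ((x : Lˣ) : L) = 1 := fun x => by
    rw [MonoidHom.mem_ker, Subtype.ext_iff, Units.ext_iff, hgval]
    rfl
  have hfg : g.range ≤ f.ker := by
    rintro _ ⟨x, rfl⟩
    rw [hfker, hgval, map_prod]
    exact Fintype.prod_equiv (Equiv.mulLeft σ) _ _ fun τ => rfl
  have hgf : f.range ≤ g.ker := by
    rintro _ ⟨x, rfl⟩
    rw [hgker, hfval]
    simp only [map_div₀, prod_div_distrib]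
    have h : ∏ τ : Gal(L/K), τ (σ ((x : Lˣ) : L)) = ∏ τ : Gal(L/K), τ ((x : Lˣ) : L) :=
      Fintype.prod_equiv (Equiv.mulRight σ) _ _ fun τ => rfl
    rw [h, div_self (prod_ne_zero_iff.2 fun τ _ => by simp [hne x])]
  have hfB : f.ker ⊓ B = B.map g := by
    refine le_antisymm ?_ ?_
    · rintro x ⟨hx1, hx2⟩
      obtain ⟨w, hw, hwe⟩ := D.exists_norm_eq hx2 (hfix _ ((hfker x).1 hx1))
      refine ⟨⟨Units.mk0 w (D.ne_zero hw), mem_unitSubgroup.2 (D.norm_eq_one hw)⟩, hw, ?_⟩
      exact Subtype.ext (Units.ext ((hgval _).trans hwe))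
    · rintro _ ⟨x, hx, rfl⟩
      refine ⟨hfg ⟨x, rfl⟩, ?_⟩
      show ((g x : Lˣ) : L) ∈ D.V
      rw [hgval]
      exact D.prod_mem _ _ fun τ _ => D.galois_mem τ hx
  have hgB : g.ker ⊓ B = B.map f := by
    refine le_antisymm ?_ ?_
    · rintro x ⟨hx1, hx2⟩
      obtain ⟨w, hw, hwe⟩ := D.exists_quotient_eq σ hσ hx2 ((hgker x).1 hx1)
      refine ⟨⟨Units.mk0 w (D.ne_zero hw), mem_unitSubgroup.2 (D.norm_eq_one hw)⟩, hw, ?_⟩
      exact Subtype.ext (Units.ext ((hfval _).trans hwe))
    · rintro _ ⟨x, hx, rfl⟩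
      refine ⟨hgf ⟨x, rfl⟩, ?_⟩
      show ((f x : Lˣ) : L) ∈ D.V
      rw [hfval, div_eq_mul_inv]
      exact D.mul_mem (D.galois_mem σ hx) (D.inv_mem hx)
  have : B.FiniteIndex := by
    -- a small ball lies in `V`
    obtain ⟨δ, hδ, hball⟩ : ∃ δ > 0, ∀ z : L, ‖z - 1‖ < δ → z ∈ D.V := by
      obtain ⟨δ, hδ, h⟩ := Metric.continuousAt_iff.1
        ((coord K L).continuous.continuousAt (x := 0)) D.r D.r_pos
      refine ⟨δ, hδ, fun z hz => ?_⟩
      have := h (x := z - 1) (by simpa using hz)
      rw [map_zero, dist_zero_right] at this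
      exact this.le
    have hcomp : IsCompact (Metric.sphere (0 : L) 1) := isCompact_sphere 0 1
    obtain ⟨t, hts, htf, hcov⟩ := Metric.finite_approx_of_totallyBounded hcomp.totallyBounded δ hδ
    have := htf.to_subtype
    have hnorm : ∀ u : U, ‖((u : Lˣ) : L)‖ = 1 := fun u => mem_unitSubgroup.1 u.2
    let φ : t → U ⧸ B := fun c => QuotientGroup.mk
      (⟨Units.mk0 (c : L) (fun h => by have := hts c.2; simp [h] at this),
        mem_unitSubgroup.2 (by simpa using hts c.2)⟩ : U)
    have : Finite (U ⧸ B) := Finite.of_surjective φ fun q => by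
      induction q using QuotientGroup.induction_on with
      | H u =>
        have := hcov (show ((u : Lˣ) : L) ∈ Metric.sphere (0 : L) 1 by simpa using hnorm u)
        simp only [Set.mem_iUnion, Metric.mem_ball, dist_eq_norm] at this
        obtain ⟨c, hc, hlt⟩ := this
        refine ⟨⟨c, hc⟩, QuotientGroup.eq.2 ?_⟩
        refine hball _ ?_
        have hc1 : ‖c‖ = 1 := by simpa using hts hc
        simp only [Subgroup.coe_mul, Subgroup.coe_inv, Units.val_mul, Units.val_inv_eq_inv_val,
          Units.val_mk0]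
        rw [show c⁻¹ * ((u : Lˣ) : L) - 1 = c⁻¹ * (((u : Lˣ) : L) - c) by
          field_simp [norm_ne_zero_iff.1 (hc1.trans_ne one_ne_zero)], norm_mul, norm_inv, hc1,
          inv_one, one_mul]
        exact hlt
    exact Subgroup.finiteIndex_of_finite_quotient
  have key := relIndex_range_ker_eq f g B hfg hgf hfB hgB
  -- identify both sides inside `Lˣ`
  have hsub : Function.Injective U.subtype := Subtype.val_injective
  have hkerf : f.ker.map U.subtype = (unitSubgroup K).map ι := by
    ext z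
    constructor
    · rintro ⟨x, hx, rfl⟩
      obtain ⟨c, hc⟩ := IntermediateField.mem_bot.1
        ((IsGalois.mem_bot_iff_fixed _).2 (hfix _ ((hfker x).1 hx)))
      have hc0 : c ≠ 0 := fun h => hne x (by rw [← hc, h, map_zero])
      refine ⟨Units.mk0 c hc0, ?_, Units.ext hc⟩
      rw [SetLike.mem_coe, mem_unitSubgroup, Units.val_mk0, ← norm_algebraMap' L, hc]
      exact mem_unitSubgroup.1 x.2
    · rintro ⟨c, hc, rfl⟩
      have : ι c ∈ U := by
        rw [SetLike.mem_coe, mem_unitSubgroup] at hc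
        rw [mem_unitSubgroup]
        show ‖algebraMap K L c‖ = 1
        rw [norm_algebraMap', hc]
      exact ⟨⟨ι c, this⟩, (hfker _).2 (σ.commutes c), rfl⟩
  have hrg : g.range.map U.subtype = ((unitSubgroup L).map N).map ι := by
    rw [MonoidHom.map_range, Subgroup.map_map]
    conv_rhs => rw [← Subgroup.range_subtype (unitSubgroup L), MonoidHom.map_range]
    rfl
  have hrf : f.range.map U.subtype = U.map d := by
    rw [MonoidHom.map_range]
    conv_rhs => rw [← Subgroup.range_subtype U, MonoidHom.map_range]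
    rfl
  have hkerg : g.ker.map U.subtype = d.range := by
    ext z
    constructor
    · rintro ⟨x, hx, rfl⟩
      have : IsCyclic Gal(L/K) := ⟨σ, hσ⟩
      have hNx : Algebra.norm K ((x : Lˣ) : L) = 1 := (algebraMap K L).injective (by
        rw [map_one, Algebra.norm_eq_prod_automorphisms]; exact (hgker x).1 hx)
      obtain ⟨y, hy⟩ := groupCohomology.exists_div_of_norm_eq_one hσ hNx
      exact ⟨y⁻¹, Units.ext ((hd _).trans (by
        rw [Units.val_inv_eq_inv_val, map_inv₀, inv_div_inv, hy]; rfl))⟩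
    · rintro ⟨y, rfl⟩
      refine ⟨⟨d y, hdU y⟩, (hgker _).2 ?_, rfl⟩
      show ∏ τ : Gal(L/K), τ (d y : L) = 1
      rw [hd]
      simp only [map_div₀, prod_div_distrib]
      rw [Fintype.prod_equiv (Equiv.mulRight σ) (fun τ => τ (σ (y : L))) (fun τ => τ (y : L))
        fun τ => rfl, div_self (prod_ne_zero_iff.2 fun τ _ => by simp)]
  have lhs : g.range.relIndex f.ker
      = ((unitSubgroup L).map N).relIndex (unitSubgroup K) := by
    rw [← Subgroup.relIndex_map_map_of_injective _ _ hsub, hrg, hkerf,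
      Subgroup.relIndex_map_map_of_injective _ _ hι]
  have rhs : f.range.relIndex g.ker = ramIdx K L := by
    rw [← Subgroup.relIndex_map_map_of_injective _ _ hsub, hrf, hkerg, MonoidHom.range_eq_map,
      Subgroup.relIndex_map_map, top_sup_eq, Subgroup.relIndex_top_right,
      ← Subgroup.index_map_eq (H := U ⊔ d.ker) (f := ordHom L) (ordHom_surjective L)
        le_sup_left, Subgroup.map_sup]
    have hU : U.map (ordHom L) = ⊥ := (Subgroup.map_eq_bot_iff _).2 le_rfl
    rw [hU, bot_sup_eq]
    have hker : d.ker.map (ordHom L)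
        = AddSubgroup.toSubgroup (AddSubgroup.zmultiples (ramIdx K L : ℤ)) := by
      ext z
      constructor
      · rintro ⟨y, hy, rfl⟩
        have hy' : σ (y : L) = y := by
          have h1 : (d y : L) = 1 := by rw [show d y = 1 from hy]; rfl
          rw [hd] at h1
          exact (div_eq_one_iff_eq y.ne_zero).1 h1
        obtain ⟨c, hc⟩ := IntermediateField.mem_bot.1
          ((IsGalois.mem_bot_iff_fixed _).2 (hfix _ hy'))
        have hc0 : c ≠ 0 := fun h => y.ne_zero (by rw [← hc, h, map_zero])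
        refine ⟨ord c, ?_⟩
        show ord c • (ramIdx K L : ℤ) = ord (y : L)
        rw [← hc, ord_algebraMap K L hc0, smul_eq_mul, mul_comm]
      · rintro ⟨m, hm⟩
        refine ⟨ι (Units.mk0 (unif K ^ m) (zpow_ne_zero _ (unif_ne_zero K))), ?_, ?_⟩
        · show d _ = 1
          refine Units.ext ?_
          rw [hd]
          show σ (algebraMap K L _) / algebraMap K L _ = 1
          rw [σ.commutes]
          exact div_self ((map_ne_zero _).2 (zpow_ne_zero m (unif_ne_zero K)))
        · show Multiplicative.ofAdd (ord (algebraMap K L (unif K ^ m))) = z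
          rw [ord_algebraMap K L (zpow_ne_zero _ (unif_ne_zero K)), ord_zpow_unif]
          simp only [smul_eq_mul] at hm
          rw [mul_comm, hm]
          rfl
    rw [hker, AddSubgroup.index_toSubgroup, Int.index_zmultiples, Int.natAbs_natCast]
  rw [← lhs, key, rhs]

include hσ in
/-- Local norm index of a cyclic extension. -/
theorem normGroup_index : (normGroup K L).index = Module.finrank K L := by
  rw [normGroup_index_eq, norm_units_relIndex K L σ hσ, ramIdx_mul_resDeg]

include hσ in
/-- In an unramified cyclic extension the units are norms of units. -/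
theorem unit_norm_of_unramified (he : ramIdx K L = 1) {x : K} (hx : ‖x‖ = 1) :
    ∃ y : L, ‖y‖ = 1 ∧ Algebra.norm K y = x := by
  have h := norm_units_relIndex K L σ hσ
  rw [he, Subgroup.relIndex_eq_one] at h
  obtain ⟨y, hy, hxy⟩ := h
    (show Units.mk0 x (fun h0 => by simp [h0] at hx) ∈ unitSubgroup K from mem_unitSubgroup.2 hx)
  exact ⟨y, mem_unitSubgroup.1 hy, congrArg Units.val hxy⟩

end Fermat.Agent.CFT.Local
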