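import Mathlib.FieldTheory.Galois.Infinite
import Mathlib.RepresentationTheory.Homological.GroupCohomology.Hilbert90
import Fermat.Agent.CFT.Class.Carry

/-!
The second cohomology of the absolute Galois group with values in the multiplicative group, with
cochains that are constant modulo a finite level (the cohomological Brauer group), and its relation
with finite levels: inflation is injective, restriction-trivial classes are inflated.
-/

set_option autoImplicit false
set_option linter.unusedSectionVars false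

namespace Fermat.Agent.CFT.Local

open groupCohomology Fermat.Agent.CFT.Class

noncomputable section

variable (k Ω : Type) [Field k] [Field Ω] [Algebra k Ω]

/-- Functions on the Galois group constant modulo a finite level. -/
def IsSm1 {X : Type} (f : Gal(Ω/k) → X) : Prop :=
  ∃ M : IntermediateField k Ω, FiniteDimensional k M ∧ ∀ g, ∀ s ∈ M.fixingSubgroup, f (g * s) = f g

/-- Functions of two variables constant modulo a finite level. -/
def IsSm2 {X : Type} (f : Gal(Ω/k) × Gal(Ω/k) → X) : Prop :=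
  ∃ M : IntermediateField k Ω, FiniteDimensional k M ∧
    ∀ g h, ∀ s ∈ M.fixingSubgroup, ∀ t ∈ M.fixingSubgroup, f (g * s, h * t) = f (g, h)

variable {k Ω}

lemma IsSm1.comp {X Y : Type} {f : Gal(Ω/k) → X} (hf : IsSm1 k Ω f) (φ : X → Y) :
    IsSm1 k Ω (φ ∘ f) := by
  obtain ⟨M, hM, h⟩ := hf
  exact ⟨M, hM, fun g s hs => congrArg φ (h g s hs)⟩

lemma isSm1_const {X : Type} (x : X) : IsSm1 k Ω (fun _ => x) :=
  ⟨⊥, inferInstance, fun _ _ _ => rfl⟩

lemma isSm2_const {X : Type} (x : X) : IsSm2 k Ω (fun _ => x) :=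
  ⟨⊥, inferInstance, fun _ _ _ _ _ _ => rfl⟩

lemma IsSm1.combine {X Y Z : Type} {f : Gal(Ω/k) → X} {f' : Gal(Ω/k) → Y} (hf : IsSm1 k Ω f)
    (hf' : IsSm1 k Ω f') (φ : X → Y → Z) : IsSm1 k Ω (fun g => φ (f g) (f' g)) := by
  obtain ⟨M, hM, h⟩ := hf
  obtain ⟨M', hM', h'⟩ := hf'
  refine ⟨M ⊔ M', IntermediateField.finiteDimensional_sup M M', fun g s hs => ?_⟩
  show φ (f (g * s)) (f' (g * s)) = _
  rw [h g s (IntermediateField.fixingSubgroup_antitone le_sup_left hs),
    h' g s (IntermediateField.fixingSubgroup_antitone le_sup_right hs)]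

lemma IsSm2.combine {X Y Z : Type} {f : Gal(Ω/k) × Gal(Ω/k) → X} {f' : Gal(Ω/k) × Gal(Ω/k) → Y}
    (hf : IsSm2 k Ω f) (hf' : IsSm2 k Ω f') (φ : X → Y → Z) :
    IsSm2 k Ω (fun g => φ (f g) (f' g)) := by
  obtain ⟨M, hM, h⟩ := hf
  obtain ⟨M', hM', h'⟩ := hf'
  refine ⟨M ⊔ M', IntermediateField.finiteDimensional_sup M M', fun g g' s hs t ht => ?_⟩
  show φ (f _) (f' _) = _
  rw [h g g' s (IntermediateField.fixingSubgroup_antitone le_sup_left hs) t
      (IntermediateField.fixingSubgroup_antitone le_sup_left ht),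
    h' g g' s (IntermediateField.fixingSubgroup_antitone le_sup_right hs) t
      (IntermediateField.fixingSubgroup_antitone le_sup_right ht)]

variable (k Ω)

/-- Smooth 1-cochains. -/
def smC1 : Subgroup (Gal(Ω/k) → Ωˣ) where
  carrier := {f | IsSm1 k Ω f}
  one_mem' := isSm1_const 1
  mul_mem' hf hf' := hf.combine hf' (· * ·)
  inv_mem' hf := hf.comp (·⁻¹)

/-- Smooth 2-cocycles. -/
def smZ2 : Subgroup (Z2 Gal(Ω/k) Ωˣ) where
  carrier := {f | IsSm2 k Ω (f : Gal(Ω/k) × Gal(Ω/k) → Ωˣ)}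
  one_mem' := isSm2_const 1
  mul_mem' hf hf' := hf.combine hf' (· * ·)
  inv_mem' {f} hf := by
    obtain ⟨M, hM, h⟩ := hf
    exact ⟨M, hM, fun g g' s hs t ht => congrArg (·⁻¹) (h g g' s hs t ht)⟩

/-- Coboundaries of smooth cochains, inside the smooth cocycles. -/
def smB2 : Subgroup (smZ2 k Ω) :=
  ((smC1 k Ω).map (delta1 Gal(Ω/k) Ωˣ)).comap
    ((Z2 Gal(Ω/k) Ωˣ).subtype.comp (smZ2 k Ω).subtype)

/-- The cohomological Brauer group. -/
abbrev Br := smZ2 k Ω ⧸ smB2 k Ω

variable {k Ω}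

/-- The class of a smooth cocycle. -/
abbrev brCls (f : smZ2 k Ω) : Br k Ω := QuotientGroup.mk f

lemma brCls_eq_one_iff (f : smZ2 k Ω) :
    brCls f = 1 ↔ ∃ x, IsSm1 k Ω x ∧
      delta1 Gal(Ω/k) Ωˣ x = ((f : Z2 Gal(Ω/k) Ωˣ) : Gal(Ω/k) × Gal(Ω/k) → Ωˣ) := by
  rw [QuotientGroup.eq_one_iff]
  rfl

lemma brCls_eq_iff (f f' : smZ2 k Ω) :
    brCls f = brCls f' ↔ ∃ x, IsSm1 k Ω x ∧ ∀ g h : Gal(Ω/k),
      ((f : Z2 Gal(Ω/k) Ωˣ) : Gal(Ω/k) × Gal(Ω/k) → Ωˣ) (g, h)
        = ((f' : Z2 Gal(Ω/k) Ωˣ) : Gal(Ω/k) × Gal(Ω/k) → Ωˣ) (g, h) * delta1 Gal(Ω/k) Ωˣ x (g, h) := by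
  rw [← div_eq_one, ← QuotientGroup.mk_div, brCls_eq_one_iff]
  refine exists_congr fun x => and_congr_right fun _ => ⟨fun e g h => ?_, fun e => ?_⟩
  · rw [e]; simp
  · funext p
    obtain ⟨g, h⟩ := p
    simp [e g h]

/-! ### Finite levels -/

variable [IsGalois k Ω]

lemma exists_level (M₀ : IntermediateField k Ω) [FiniteDimensional k M₀] (S : Set Ω) (hS : S.Finite) :
    ∃ M : IntermediateField k Ω, FiniteDimensional k M ∧ Normal k M ∧ M₀ ≤ M ∧ S ⊆ M := by
  have : Finite S := hS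
  have : FiniteDimensional k (IntermediateField.adjoin k S) :=
    IntermediateField.finiteDimensional_adjoin fun x _ => Algebra.IsIntegral.isIntegral x
  refine ⟨IntermediateField.normalClosure k (M₀ ⊔ IntermediateField.adjoin k S : IntermediateField k Ω) Ω,
    inferInstance, inferInstance, le_sup_left.trans (IntermediateField.le_normalClosure _), ?_⟩
  exact (IntermediateField.subset_adjoin k S).trans (SetLike.coe_subset_coe.2
    (le_sup_right.trans (IntermediateField.le_normalClosure (M₀ ⊔ IntermediateField.adjoin k S))))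

variable (M : IntermediateField k Ω) [Normal k M]

lemma coe_restrict (g : Gal(Ω/k)) (x : M) :
    ((AlgEquiv.restrictNormalHom M g x : M) : Ω) = g x :=
  AlgEquiv.restrictNormal_commutes g M x

lemma restrict_eq_one_iff (g : Gal(Ω/k)) :
    AlgEquiv.restrictNormalHom M g = 1 ↔ g ∈ M.fixingSubgroup := by
  rw [← MonoidHom.mem_ker, IntermediateField.restrictNormalHom_ker]

lemma restrict_mul_of_mem (g : Gal(Ω/k)) {s : Gal(Ω/k)} (hs : s ∈ M.fixingSubgroup) :
    AlgEquiv.restrictNormalHom M (g * s) = AlgEquiv.restrictNormalHom M g := by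
  rw [map_mul, (restrict_eq_one_iff M s).2 hs, mul_one]

/-- The inclusion of units. -/
def unitIncl : Mˣ →* Ωˣ := Units.map (M.val : M →* Ω)

omit [Normal k M] in
@[simp] lemma coe_unitIncl (x : Mˣ) : (unitIncl M x : Ω) = ((x : M) : Ω) := rfl

omit [Normal k M] in
lemma unitIncl_injective : Function.Injective (unitIncl M) :=
  Units.map_injective Subtype.val_injective

lemma unitIncl_smul (g : Gal(Ω/k)) (x : Mˣ) :
    unitIncl M (AlgEquiv.restrictNormalHom M g • x) = g • unitIncl M x := by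
  ext
  exact coe_restrict M g x

/-- Inflation of cocycles from a finite level. -/
def inflSm [FiniteDimensional k M] : Z2 Gal(M/k) Mˣ →* smZ2 k Ω :=
  (Class.mapZ2 (AlgEquiv.restrictNormalHom M) (unitIncl M) (unitIncl_smul M)).codRestrict _
    fun f => ⟨M, inferInstance, fun g h s hs t ht => by
      show unitIncl M _ = unitIncl M _
      simp only [restrict_mul_of_mem M _ hs, restrict_mul_of_mem M _ ht]⟩

@[simp] lemma inflSm_apply [FiniteDimensional k M] (f : Z2 Gal(M/k) Mˣ) (g h : Gal(Ω/k)) :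
    ((inflSm M f : Z2 Gal(Ω/k) Ωˣ) : Gal(Ω/k) × Gal(Ω/k) → Ωˣ) (g, h)
      = unitIncl M ((f : Gal(M/k) × Gal(M/k) → Mˣ)
          (AlgEquiv.restrictNormalHom M g, AlgEquiv.restrictNormalHom M h)) := rfl

lemma delta1_infl (x : Gal(M/k) → Mˣ) (g h : Gal(Ω/k)) :
    delta1 Gal(Ω/k) Ωˣ (fun σ => unitIncl M (x (AlgEquiv.restrictNormalHom M σ))) (g, h)
      = unitIncl M (delta1 Gal(M/k) Mˣ x
          (AlgEquiv.restrictNormalHom M g, AlgEquiv.restrictNormalHom M h)) := by
  simp only [delta1_apply, map_mul, map_div, unitIncl_smul]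

/-- Inflation from a finite level to the Brauer group. -/
def inflBr [FiniteDimensional k M] : H2M Gal(M/k) Mˣ →* Br k Ω :=
  QuotientGroup.map _ _ (inflSm M) fun f hf => by
    obtain ⟨x, hx⟩ := hf
    refine ⟨fun σ => unitIncl M (x (AlgEquiv.restrictNormalHom M σ)),
      ⟨M, inferInstance, fun g s hs => by simp only [restrict_mul_of_mem M _ hs]⟩,
      funext fun p => ?_⟩
    obtain ⟨g, h⟩ := p
    rw [delta1_infl, hx]
    rfl

lemma inflBr_cls [FiniteDimensional k M] (f : Z2 Gal(M/k) Mˣ) :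
    inflBr M (cls f) = brCls (inflSm M f) := rfl

lemma restrictHom_surjective : Function.Surjective (AlgEquiv.restrictNormalHom (F := k) (K₁ := Ω) M) :=
  AlgEquiv.restrictNormalHom_surjective Ω

/-- Hilbert 90 for a subgroup of a finite Galois group. -/
lemma h1Triv_subgroup {L : Type} [Field L] [Algebra k L] [FiniteDimensional k L]
    (U : Subgroup Gal(L/k)) : H1Triv U Lˣ := by
  intro b hb
  set F := IntermediateField.fixedField U
  have hF : F.fixingSubgroup = U := IntermediateField.fixingSubgroup_fixedField U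
  let e : Gal(L/F) → U := fun τ => ⟨τ.restrictScalars k, by
    rw [← hF, IntermediateField.mem_fixingSubgroup_iff]
    exact fun x hx => τ.commutes ⟨x, hx⟩⟩
  obtain ⟨β, hβ⟩ := isMulCoboundary₁_of_isMulCocycle₁_of_aut_to_units (fun τ => b (e τ))
    (fun σ τ => hb (e σ) (e τ))
  refine ⟨β, fun u => ?_⟩
  have hu : (u : Gal(L/k)) ∈ F.fixingSubgroup := hF.symm ▸ u.2
  exact hβ (IntermediateField.fixingSubgroupEquiv F ⟨u, hu⟩)

/-- A cocycle that is constant modulo `M` with values in `M` comes from `M`. -/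
lemma exists_deflate (f : Z2 Gal(Ω/k) Ωˣ) [FiniteDimensional k M]
    (hf : ∀ g h, ∀ s ∈ M.fixingSubgroup, ∀ t ∈ M.fixingSubgroup,
      (f : Gal(Ω/k) × Gal(Ω/k) → Ωˣ) (g * s, h * t) = (f : Gal(Ω/k) × Gal(Ω/k) → Ωˣ) (g, h))
    (hv : ∀ g h, (((f : Gal(Ω/k) × Gal(Ω/k) → Ωˣ) (g, h) : Ωˣ) : Ω) ∈ M) :
    ∃ f' : Z2 Gal(M/k) Mˣ, (inflSm M f' : Z2 Gal(Ω/k) Ωˣ) = f := by
  choose s hs using restrictHom_surjective M
  let v : Gal(M/k) → Gal(M/k) → Mˣ := fun a b =>
    Units.mk0 ⟨_, hv (s a) (s b)⟩ fun h => ((f : Gal(Ω/k) × Gal(Ω/k) → Ωˣ) (s a, s b)).ne_zero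
      (congrArg Subtype.val h)
  have key : ∀ g h, unitIncl M (v (AlgEquiv.restrictNormalHom M g) (AlgEquiv.restrictNormalHom M h))
      = (f : Gal(Ω/k) × Gal(Ω/k) → Ωˣ) (g, h) := by
    intro g h
    have hm : ∀ x, x⁻¹ * s (AlgEquiv.restrictNormalHom M x) ∈ M.fixingSubgroup := fun x => by
      rw [← restrict_eq_one_iff, map_mul, map_inv, hs, inv_mul_cancel]
    have := hf g h _ (hm g) _ (hm h)
    rw [mul_inv_cancel_left, mul_inv_cancel_left] at this
    rw [← this]
    ext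
    rfl
  have hcocycle : IsMulCocycle₂ (fun p : Gal(M/k) × Gal(M/k) => v p.1 p.2) := by
    intro a b c
    apply unitIncl_injective M
    rw [← hs a, ← hs b, ← hs c]
    simp only [map_mul (unitIncl M), unitIncl_smul, ← map_mul (AlgEquiv.restrictNormalHom M), key]
    exact f.2 _ _ _
  exact ⟨⟨fun p : Gal(M/k) × Gal(M/k) => v p.1 p.2, hcocycle⟩,
    Subtype.ext (funext fun p => key p.1 p.2)⟩

lemma exists_inflated_eq (f : smZ2 k Ω) (M₀ : IntermediateField k Ω) [FiniteDimensional k M₀] :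
    ∃ (M : IntermediateField k Ω) (_ : FiniteDimensional k M) (_ : Normal k M), M₀ ≤ M ∧
      ∃ f' : Z2 Gal(M/k) Mˣ, inflSm M f' = f := by
  obtain ⟨L, hL, hc⟩ := f.2
  obtain ⟨L₁, hL₁, hL₁n, hle₁, -⟩ := exists_level L ∅ Set.finite_empty
  choose s hs using restrictHom_surjective L₁
  set S := Set.range fun p : Gal(L₁/k) × Gal(L₁/k) =>
    ((((f : Z2 Gal(Ω/k) Ωˣ) : Gal(Ω/k) × Gal(Ω/k) → Ωˣ) (s p.1, s p.2) : Ωˣ) : Ω) with hS
  obtain ⟨M, hM, hMn, hle, hSM⟩ := exists_level (L₁ ⊔ M₀) S (Set.finite_range _)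
  have hcL : ∀ g h, ∀ a ∈ L₁.fixingSubgroup, ∀ b ∈ L₁.fixingSubgroup,
      ((f : Z2 Gal(Ω/k) Ωˣ) : Gal(Ω/k) × Gal(Ω/k) → Ωˣ) (g * a, h * b)
        = ((f : Z2 Gal(Ω/k) Ωˣ) : Gal(Ω/k) × Gal(Ω/k) → Ωˣ) (g, h) := fun g h a ha b hb =>
    hc g h a (IntermediateField.fixingSubgroup_antitone hle₁ ha) b
      (IntermediateField.fixingSubgroup_antitone hle₁ hb)
  refine ⟨M, hM, hMn, le_sup_right.trans hle, ?_⟩
  obtain ⟨f', hf'⟩ := exists_deflate M (f : Z2 Gal(Ω/k) Ωˣ)
    (fun g h a ha b hb => hcL g h a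
      (IntermediateField.fixingSubgroup_antitone (le_sup_left.trans hle) ha) b
      (IntermediateField.fixingSubgroup_antitone (le_sup_left.trans hle) hb)) (fun g h => by
      have hm : ∀ x, x⁻¹ * s (AlgEquiv.restrictNormalHom L₁ x) ∈ L₁.fixingSubgroup := fun x => by
        rw [← restrict_eq_one_iff, map_mul, map_inv, hs, inv_mul_cancel]
      have := hcL g h _ (hm g) _ (hm h)
      rw [mul_inv_cancel_left, mul_inv_cancel_left] at this
      rw [← this]
      exact hSM ⟨(_, _), rfl⟩)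
  exact ⟨f', Subtype.ext hf'⟩

/-- Every class is inflated from a finite level above any given one. -/
theorem exists_inflBr_eq (x : Br k Ω) (M₀ : IntermediateField k Ω) [FiniteDimensional k M₀] :
    ∃ (M : IntermediateField k Ω) (_ : FiniteDimensional k M) (_ : Normal k M), M₀ ≤ M ∧
      ∃ y, inflBr M y = x := by
  induction x using QuotientGroup.induction_on with | H f => ?_
  obtain ⟨M, hM, hMn, hle, f', rfl⟩ := exists_inflated_eq f M₀
  exact ⟨M, hM, hMn, hle, cls f', rfl⟩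

/-- Inflation from a finite level is injective. -/
theorem inflBr_injective [FiniteDimensional k M] : Function.Injective (inflBr M) := by
  rw [injective_iff_map_eq_one]
  intro y hy
  induction y using QuotientGroup.induction_on with | H f => ?_
  rw [show (QuotientGroup.mk f : H2M _ _) = cls f from rfl, inflBr_cls, brCls_eq_one_iff] at hy
  obtain ⟨x, ⟨N, hN, hNc⟩, hx⟩ := hy
  obtain ⟨N₁, hN₁, hN₁n, hle₁, -⟩ := exists_level N ∅ Set.finite_empty
  choose s₁ hs₁ using restrictHom_surjective N₁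
  set S := Set.range fun a => ((x (s₁ a) : Ωˣ) : Ω)
  obtain ⟨N₂, hN₂, hN₂n, hle, hSN⟩ := exists_level (M ⊔ N₁) S (Set.finite_range _)
  choose s₂ hs₂ using restrictHom_surjective N₂
  have hxc : ∀ g, ∀ a ∈ N₁.fixingSubgroup, x (g * a) = x g := fun g a ha =>
    hNc g a (IntermediateField.fixingSubgroup_antitone hle₁ ha)
  have hxv : ∀ g, ((x g : Ωˣ) : Ω) ∈ N₂ := fun g => by
    have hm : g⁻¹ * s₁ (AlgEquiv.restrictNormalHom N₁ g) ∈ N₁.fixingSubgroup := by
      rw [← restrict_eq_one_iff, map_mul, map_inv, hs₁, inv_mul_cancel]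
    have := hxc g _ hm
    rw [mul_inv_cancel_left] at this
    rw [← this]
    exact hSN ⟨_, rfl⟩
  let b : Gal(N₂/k) → N₂ˣ := fun a => Units.mk0 ⟨_, hxv (s₂ a)⟩ fun h =>
    (x (s₂ a)).ne_zero (congrArg Subtype.val h)
  have hb : ∀ g, unitIncl N₂ (b (AlgEquiv.restrictNormalHom N₂ g)) = x g := fun g => by
    have hm : g⁻¹ * s₂ (AlgEquiv.restrictNormalHom N₂ g) ∈ N₁.fixingSubgroup :=
      IntermediateField.fixingSubgroup_antitone (le_sup_right.trans hle) (by
        rw [← restrict_eq_one_iff, map_mul, map_inv, hs₂, inv_mul_cancel])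
    have := hxc g _ hm
    rw [mul_inv_cancel_left] at this
    rw [← this]
    ext
    rfl
  -- descend from `N₂` to `M`
  set U : Subgroup Gal(N₂/k) := M.fixingSubgroup.map (AlgEquiv.restrictNormalHom N₂)
  have hMn : M.fixingSubgroup.Normal := by
    rw [← IntermediateField.restrictNormalHom_ker]; exact MonoidHom.normal_ker _
  have : U.Normal := hMn.map _ (restrictHom_surjective N₂)
  let d : Gal(N₂/k) × Gal(N₂/k) → N₂ˣ := delta1 Gal(N₂/k) N₂ˣ b
  have hd : ∀ g h, unitIncl N₂ (d (AlgEquiv.restrictNormalHom N₂ g, AlgEquiv.restrictNormalHom N₂ h))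
      = unitIncl M ((f : Gal(M/k) × Gal(M/k) → Mˣ)
          (AlgEquiv.restrictNormalHom M g, AlgEquiv.restrictNormalHom M h)) := fun g h => by
    rw [← inflSm_apply, ← hx]
    simp only [d, ← delta1_infl, hb]
  have hf11 : ∀ a b, (f : Gal(M/k) × Gal(M/k) → Mˣ) (a, 1) = a • (f : Gal(M/k) × Gal(M/k) → Mˣ) (1, b) := by
    intro a b
    have := f.2 a 1 b
    rw [mul_one, one_mul, mul_comm] at this
    exact mul_right_cancel this
  set c := (f : Gal(M/k) × Gal(M/k) → Mˣ) (1, 1)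
  -- normalise
  let f₀ : Gal(M/k) × Gal(M/k) → Mˣ := fun p => (f : Gal(M/k) × Gal(M/k) → Mˣ) p / (p.1 • c)
  let b₀ : Gal(N₂/k) → N₂ˣ := fun a => b a / b 1
  have hc : ∀ g : Gal(Ω/k), g • unitIncl M c
      = unitIncl M (AlgEquiv.restrictNormalHom M g • c) := fun g => (unitIncl_smul M g c).symm
  have hb1 : unitIncl N₂ (b 1) = unitIncl M c := by
    have := hd 1 1
    simpa [d, delta1_apply] using this
  have hd₀ : ∀ g h : Gal(Ω/k), unitIncl N₂ (delta1 Gal(N₂/k) N₂ˣ b₀
      (AlgEquiv.restrictNormalHom N₂ g, AlgEquiv.restrictNormalHom N₂ h))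
      = unitIncl M (f₀ (AlgEquiv.restrictNormalHom M g, AlgEquiv.restrictNormalHom M h)) := by
    intro g h
    have h0 := hd g h
    simp only [d, delta1_apply, map_mul (unitIncl N₂), map_div (unitIncl N₂), unitIncl_smul,
      f₀, b₀, map_div (unitIncl M), smul_div', hb1] at h0 ⊢
    rw [← h0]
    apply Additive.ofMul.injective
    simp only [ofMul_mul, ofMul_div]
    abel
  have hU : ∀ u ∈ U, ∀ a, delta1 Gal(N₂/k) N₂ˣ b₀ (a, u) = 1 ∧ delta1 Gal(N₂/k) N₂ˣ b₀ (u, a) = 1 := by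
    rintro _ ⟨u, hu, rfl⟩ a
    rw [← hs₂ a]
    constructor <;> apply unitIncl_injective N₂ <;>
      rw [hd₀, map_one, (restrict_eq_one_iff M u).2 hu] <;> simp only [f₀, map_div]
    · rw [hf11 _ (1 : Gal(M/k)), div_self']
    · rw [one_smul, show (f : Gal(M/k) × Gal(M/k) → Mˣ) (1, _) = c from by
        have := hf11 1 (AlgEquiv.restrictNormalHom M (s₂ a))
        rw [one_smul] at this
        exact this.symm, div_self']
  obtain ⟨b', hb', hb'r, hb'f⟩ := exists_inflated1 (h1Triv_subgroup (k := k) U).kill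
    (fun g u hu => (hU u hu g).1) (fun g u hu => (hU u hu g).2) rfl
  rw [pow_one] at hb'
  have hval : ∀ a, (((b' a : N₂ˣ) : N₂) : Ω) ∈ M := fun a => by
    rw [← InfiniteGalois.fixedField_fixingSubgroup M, IntermediateField.mem_fixedField_iff]
    intro u hu
    rw [← coe_restrict N₂ u]
    exact congrArg Subtype.val (congrArg Units.val (hb'f a _ ⟨u, hu, rfl⟩))
  choose s hs using restrictHom_surjective M
  let β : Gal(M/k) → Mˣ := fun a => Units.mk0 ⟨_, hval (AlgEquiv.restrictNormalHom N₂ (s a))⟩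
    fun h => (unitIncl N₂ (b' (AlgEquiv.restrictNormalHom N₂ (s a)))).ne_zero
      (congrArg Subtype.val h)
  have hβ : ∀ g, unitIncl M (β (AlgEquiv.restrictNormalHom M g))
      = unitIncl N₂ (b' (AlgEquiv.restrictNormalHom N₂ g)) := fun g => by
    have hm : g⁻¹ * s (AlgEquiv.restrictNormalHom M g) ∈ M.fixingSubgroup := by
      rw [← restrict_eq_one_iff, map_mul, map_inv, hs, inv_mul_cancel]
    have := hb'r (AlgEquiv.restrictNormalHom N₂ g) _ ⟨_, hm, rfl⟩
    rw [← map_mul, mul_inv_cancel_left] at this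
    rw [← this]
    ext
    rfl
  refine (cls_eq_one_iff f).2 ⟨fun a => β a * c, funext fun p => ?_⟩
  obtain ⟨a, a'⟩ := p
  apply unitIncl_injective M
  rw [← hs a, ← hs a']
  have h0 := hd₀ (s a) (s a')
  rw [← hb'] at h0
  simp only [delta1_apply, map_mul (unitIncl N₂), map_div (unitIncl N₂), unitIncl_smul, ← hβ,
    ← map_mul (AlgEquiv.restrictNormalHom N₂), ← map_mul (AlgEquiv.restrictNormalHom M), f₀,
    map_mul (unitIncl M), map_div (unitIncl M), smul_mul'] at h0 ⊢
  apply Additive.ofMul.injective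
  have h3 := congrArg Additive.ofMul h0
  simp only [ofMul_mul, ofMul_div] at h3 ⊢
  linear_combination (norm := abel) h3

end

end Fermat.Agent.CFT.Local
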