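import Mathlib.Analysis.Normed.Field.Ultra
import Mathlib.Analysis.Normed.Module.Basic
import Mathlib.RingTheory.Valuation.ValuationSubring
import Mathlib.FieldTheory.Finite.Basic
import Fermat.Agent.CFT.Local.Basic

/-!
Residue fields of ultrametric normed fields, phrased with norms.
-/

set_option autoImplicit false

namespace Fermat.Agent.CFT.Local

open Metric IsLocalRing Polynomial

variable (K : Type*) [NontriviallyNormedField K] [IsUltrametricDist K]

/-- The closed unit ball as a valuation subring. -/
def intRing : ValuationSubring K where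
  carrier := {x | ‖x‖ ≤ 1}
  one_mem' := norm_one.le
  zero_mem' := by simp
  mul_mem' {a b} ha hb := by
    simpa using mul_le_one₀ ha (norm_nonneg b) hb
  add_mem' {a b} ha hb := (IsUltrametricDist.norm_add_le_max a b).trans (max_le ha hb)
  neg_mem' {a} ha := by simpa using ha
  mem_or_inv_mem' x := by
    rcases le_or_gt ‖x‖ 1 with h | h
    · exact Or.inl h
    · exact Or.inr (by simpa using (inv_lt_one_of_one_lt₀ h).le)

variable {K}

lemma mem_intRing {x : K} : x ∈ intRing K ↔ ‖x‖ ≤ 1 := Iff.rfl

lemma intRing_isUnit_iff (x : intRing K) : IsUnit x ↔ ‖(x : K)‖ = 1 := by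
  constructor
  · rintro ⟨u, rfl⟩
    have h1 : ‖((u : intRing K) : K)‖ ≤ 1 := (u : intRing K).2
    have h2 : ‖((↑u⁻¹ : intRing K) : K)‖ ≤ 1 := (↑u⁻¹ : intRing K).2
    have h3 : ‖((u : intRing K) : K)‖ * ‖((↑u⁻¹ : intRing K) : K)‖ = 1 := by
      rw [← norm_mul, ← MulMemClass.coe_mul, Units.mul_inv, OneMemClass.coe_one, norm_one]
    exact le_antisymm h1 (h3.ge.trans (mul_le_of_le_one_right (norm_nonneg _) h2))
  · intro h
    have h0 : (x : K) ≠ 0 := fun h0 => by simp [h0] at h
    exact ⟨⟨x, ⟨(x : K)⁻¹, by rw [mem_intRing, norm_inv, h, inv_one]⟩,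
      Subtype.ext (mul_inv_cancel₀ h0), Subtype.ext (inv_mul_cancel₀ h0)⟩, rfl⟩

lemma residue_intRing_eq_zero_iff (x : intRing K) :
    residue (intRing K) x = 0 ↔ ‖(x : K)‖ < 1 := by
  rw [residue_eq_zero_iff, mem_maximalIdeal, mem_nonunits_iff, intRing_isUnit_iff]
  exact ⟨fun h => lt_of_le_of_ne x.2 h, fun h => h.ne⟩

lemma residue_intRing_eq_iff (x y : intRing K) :
    residue (intRing K) x = residue (intRing K) y ↔ ‖(x : K) - y‖ < 1 := by
  rw [← sub_eq_zero, ← map_sub, residue_intRing_eq_zero_iff]
  rfl

instance [ProperSpace K] : Finite (ResidueField (intRing K)) := by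
  obtain ⟨t, hts, htf, hcov⟩ :=
    finite_approx_of_totallyBounded (isCompact_closedBall (0 : K) 1).totallyBounded 1 one_pos
  have := htf.to_subtype
  refine Finite.of_surjective
    (fun c : t => residue (intRing K) ⟨c, mem_closedBall_zero_iff.1 (hts c.2)⟩) fun q => ?_
  obtain ⟨x, rfl⟩ := residue_surjective q
  have := hcov (mem_closedBall_zero_iff.2 x.2)
  simp only [Set.mem_iUnion, mem_ball, dist_eq_norm] at this
  obtain ⟨c, hc, hlt⟩ := this
  exact ⟨⟨c, hc⟩, ((residue_intRing_eq_iff _ _).2 hlt).symm⟩

variable (K)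

/-- The order of the residue field. -/
noncomputable def resCard : ℕ := Nat.card (ResidueField (intRing K))

lemma one_lt_resCard [ProperSpace K] : 1 < resCard K := Finite.one_lt_card

lemma natCast_resCard_eq_zero [ProperSpace K] :
    (resCard K : ResidueField (intRing K)) = 0 := by
  let := Fintype.ofFinite (ResidueField (intRing K))
  rw [resCard, Nat.card_eq_fintype_card, FiniteField.cast_card_eq_zero]

/-- `Q ^ n - 1`. -/
noncomputable def rootOrder (n : ℕ) : ℕ := resCard K ^ n - 1

lemma rootOrder_pos [ProperSpace K] {n : ℕ} (hn : n ≠ 0) : 0 < rootOrder K n :=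
  Nat.sub_pos_of_lt (Nat.one_lt_pow hn (one_lt_resCard K))

variable (Ω : Type*) [NontriviallyNormedField Ω] [IsUltrametricDist Ω] [NormedAlgebra K Ω]

/-- The inclusion of unit balls. -/
noncomputable def intMap : intRing K →+* intRing Ω :=
  ((algebraMap K Ω).comp (intRing K).toSubring.subtype).codRestrict (intRing Ω).toSubring
    fun x => by
      show ‖algebraMap K Ω (x : K)‖ ≤ 1
      rw [norm_algebraMap']
      exact x.2

@[simp] lemma coe_intMap (x : intRing K) : (intMap K Ω x : Ω) = algebraMap K Ω x := rfl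

instance : IsLocalHom (intMap K Ω) := ⟨fun x h => by
  rw [intRing_isUnit_iff] at h ⊢
  rwa [coe_intMap, norm_algebraMap'] at h⟩

/-- The inclusion of residue fields. -/
noncomputable def resMap : ResidueField (intRing K) →+* ResidueField (intRing Ω) :=
  ResidueField.map (intMap K Ω)

variable [ProperSpace K]

lemma exists_resMap_eq {y : ResidueField (intRing Ω)} (hy : y ^ resCard K = y) :
    ∃ x, resMap K Ω x = y := by
  classical
  let := Fintype.ofFinite (ResidueField (intRing K))
  by_contra hne
  push Not at hne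
  set s := insert y ((Finset.univ : Finset (ResidueField (intRing K))).image (resMap K Ω))
  have hP : (X ^ resCard K - X : (ResidueField (intRing Ω))[X]) ≠ 0 :=
    FiniteField.X_pow_card_sub_X_ne_zero _ (one_lt_resCard K)
  have hsub : s.val ⊆ (X ^ resCard K - X : (ResidueField (intRing Ω))[X]).roots := by
    intro z hz
    rw [mem_roots hP, IsRoot.def, eval_sub, eval_pow, eval_X, sub_eq_zero]
    rcases Finset.mem_insert.1 hz with rfl | hz
    · exact hy
    · obtain ⟨x, -, rfl⟩ := Finset.mem_image.1 hz
      rw [← map_pow, resCard, Nat.card_eq_fintype_card, FiniteField.pow_card]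
  have h1 := (Finset.card_le_card (t := (X ^ resCard K - X :
      (ResidueField (intRing Ω))[X]).roots.toFinset) fun z hz => Multiset.mem_toFinset.2 (hsub hz)).trans
    ((Multiset.toFinset_card_le _).trans (card_roots' _))
  rw [Finset.card_insert_of_notMem (by simpa using hne),
    Finset.card_image_of_injective _ (resMap K Ω).injective, Finset.card_univ,
    FiniteField.X_pow_card_sub_X_natDegree_eq _ (one_lt_resCard K)] at h1
  rw [resCard, Nat.card_eq_fintype_card] at h1
  omega

lemma eval₂_resMap_pow_resCard (P : (ResidueField (intRing K))[X]) (z : ResidueField (intRing Ω)) :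
    P.eval₂ (resMap K Ω) (z ^ resCard K) = P.eval₂ (resMap K Ω) z ^ resCard K := by
  let := Fintype.ofFinite (ResidueField (intRing K))
  obtain ⟨p, hp⟩ := CharP.exists (ResidueField (intRing K))
  obtain ⟨b, hprime, hb⟩ := FiniteField.card (ResidueField (intRing K)) p
  have := Fact.mk hprime
  have : CharP (ResidueField (intRing Ω)) p :=
    (RingHom.charP_iff (resMap K Ω) (resMap K Ω).injective p).1 hp
  set F := iterateFrobenius (ResidueField (intRing Ω)) p b
  have hF : ∀ w : ResidueField (intRing Ω), F w = w ^ resCard K := fun w => by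
    simp [F, iterateFrobenius_def, resCard, hb]
  have hfix : F.comp (resMap K Ω) = resMap K Ω := by
    ext x
    rw [RingHom.comp_apply, hF, ← map_pow, resCard, Nat.card_eq_fintype_card, FiniteField.pow_card]
  rw [← hF, ← hF, hom_eval₂, hfix]

lemma exists_map_eq_of_coeff_fixed (P : (ResidueField (intRing Ω))[X])
    (h : ∀ i, P.coeff i ^ resCard K = P.coeff i) :
    ∃ P₀ : (intRing K)[X], P₀.map ((resMap K Ω).comp (residue (intRing K))) = P := by
  obtain ⟨P₀, hP₀⟩ := (lifts_iff_coeff_lifts (f := (resMap K Ω).comp (residue (intRing K))) P).2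
    fun i => by
      obtain ⟨x, hx⟩ := exists_resMap_eq K Ω (h i)
      obtain ⟨x₀, rfl⟩ := residue_surjective x
      exact ⟨x₀, hx⟩
  exact ⟨P₀, hP₀⟩

end Fermat.Agent.CFT.Local
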