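import Mathlib.FieldTheory.IsAlgClosed.Basic
import Mathlib.FieldTheory.Galois.Basic
import Mathlib.RingTheory.RootsOfUnity.AlgebraicallyClosed
import Mathlib.RingTheory.RootsOfUnity.PrimitiveRoots
import Mathlib.Analysis.Normed.Module.FiniteDimension
import Mathlib.Analysis.Normed.Algebra.Basic
import Fermat.Agent.CFT.Local.CyclicNorm
import Fermat.Agent.CFT.Local.Residue

/-!
The unramified extension of degree `n` of a local field, generated by the roots of unity of order
`Q ^ n - 1`, with its Frobenius.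
-/

set_option autoImplicit false
set_option linter.unusedSectionVars false

namespace Fermat.Agent.CFT.Local

open IsLocalRing Polynomial IntermediateField

variable (K Ω : Type) [NontriviallyNormedField K] [IsUltrametricDist K] [ProperSpace K]
  [NontriviallyNormedField Ω] [IsUltrametricDist Ω] [NormedAlgebra K Ω]

/-- The unramified extension of degree `n`. -/
noncomputable def unrField (n : ℕ) : IntermediateField K Ω :=
  adjoin K {x : Ω | x ^ rootOrder K n = 1}

variable {K Ω}

lemma mem_unrField {n : ℕ} {x : Ω} (hx : x ^ rootOrder K n = 1) : x ∈ unrField K Ω n :=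
  subset_adjoin K _ hx

lemma rootOrder_dvd {n m : ℕ} (h : n ∣ m) : rootOrder K n ∣ rootOrder K m :=
  Nat.pow_sub_one_dvd_pow_sub_one _ h

lemma unrField_mono {n m : ℕ} (h : n ∣ m) : unrField K Ω n ≤ unrField K Ω m :=
  adjoin_le_iff.2 fun x (hx : x ^ rootOrder K n = 1) =>
    mem_unrField (by obtain ⟨c, hc⟩ := rootOrder_dvd (K := K) h; rw [hc, pow_mul, hx, one_pow])

variable (K Ω)

lemma resNatCast_rootOrder (n : ℕ) (hn : n ≠ 0) :
    (rootOrder K n : ResidueField (intRing Ω)) = -1 := by
  have h : (resCard K : ResidueField (intRing Ω)) = 0 := by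
    rw [← map_natCast (resMap K Ω), natCast_resCard_eq_zero, map_zero]
  rw [rootOrder, Nat.cast_sub (Nat.one_le_pow _ _ (zero_lt_one.trans (one_lt_resCard K))),
    Nat.cast_pow, h, zero_pow hn, Nat.cast_one, zero_sub]

lemma neZero_rootOrder (n : ℕ) (hn : n ≠ 0) : NeZero (rootOrder K n : Ω) := ⟨fun h => by
  have h' : (rootOrder K n : intRing Ω) = 0 := Subtype.ext (by simpa using h)
  have := congrArg (residue (intRing Ω)) h'
  rw [map_natCast, map_zero, resNatCast_rootOrder K Ω n hn] at this
  exact one_ne_zero (neg_eq_zero.1 this)⟩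

variable {K Ω}

lemma norm_eq_one_of_root {n : ℕ} (hn : n ≠ 0) {x : Ω} (hx : x ^ rootOrder K n = 1) : ‖x‖ = 1 :=
  (pow_eq_one_iff_of_nonneg (norm_nonneg _) (rootOrder_pos K hn).ne').1
    (by rw [← norm_pow, hx, norm_one])

/-- A root of unity of order dividing `Q ^ n - 1`, as an element of the unit ball. -/
def rootInt {n : ℕ} (hn : n ≠ 0) {x : Ω} (hx : x ^ rootOrder K n = 1) : intRing Ω :=
  ⟨x, (norm_eq_one_of_root hn hx).le⟩

/-- Roots of unity of order prime to the residue characteristic are separated by reduction. -/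
lemma eq_of_residue_eq {n : ℕ} (hn : n ≠ 0) {x y : Ω} (hx : x ^ rootOrder K n = 1)
    (hy : y ^ rootOrder K n = 1)
    (h : residue (intRing Ω) (rootInt hn hx) = residue (intRing Ω) (rootInt hn hy)) : x = y := by
  by_contra hne
  have hy0 : ‖y‖ = 1 := norm_eq_one_of_root hn hy
  have hy0' : y ≠ 0 := fun h0 => by simp [h0] at hy0
  set u : intRing Ω := ⟨x / y, by rw [mem_intRing, norm_div, hy0, div_one, norm_eq_one_of_root hn hx]⟩
  have hu1 : residue (intRing Ω) u = 1 := by
    rw [← map_one (residue (intRing Ω)), residue_intRing_eq_iff]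
    rw [residue_intRing_eq_iff] at h
    have : (u : Ω) - ((1 : intRing Ω) : Ω) = (x - y) / y := by
      show x / y - 1 = _
      rw [sub_div, div_self hy0']
    rw [this, norm_div, hy0, div_one]
    exact h
  have hsum : (∑ i ∈ Finset.range (rootOrder K n), u ^ i) = 0 := by
    apply Subtype.ext
    push_cast
    show ∑ i ∈ Finset.range (rootOrder K n), (x / y) ^ i = 0
    rw [geom_sum_eq (fun h1 => hne ((div_eq_one_iff_eq hy0').1 h1)), div_pow, hx, hy, div_one,
      sub_self, zero_div]
  have := congrArg (residue (intRing Ω)) hsum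
  simp [hu1, resNatCast_rootOrder K Ω n hn] at this

variable [IsAlgClosed Ω]

lemma exists_root (n : ℕ) (hn : n ≠ 0) : ∃ ζ : Ω, IsPrimitiveRoot ζ (rootOrder K n) := by
  have := neZero_rootOrder K Ω n hn
  exact HasEnoughRootsOfUnity.exists_primitiveRoot Ω _

lemma unrField_eq_adjoin_simple {n : ℕ} (hn : n ≠ 0) {ζ : Ω}
    (hζ : IsPrimitiveRoot ζ (rootOrder K n)) : unrField K Ω n = K⟮ζ⟯ := by
  refine le_antisymm (adjoin_le_iff.2 fun x (hx : x ^ rootOrder K n = 1) => ?_)
    (adjoin_simple_le_iff.2 (mem_unrField hζ.pow_eq_one))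
  have : NeZero (rootOrder K n) := ⟨(rootOrder_pos K hn).ne'⟩
  obtain ⟨i, -, rfl⟩ := hζ.eq_pow_of_pow_eq_one hx
  exact pow_mem (mem_adjoin_simple_self K ζ) i

variable {n : ℕ} (hn : n ≠ 0)

include hn in
theorem unrField_isGalois : FiniteDimensional K (unrField K Ω n) ∧ IsGalois K (unrField K Ω n) := by
  have := neZero_rootOrder K Ω n hn
  have hm0 : (rootOrder K n : K) ≠ 0 := fun h =>
    this.out (by rw [← map_natCast (algebraMap K Ω), h, map_zero])
  set p : K[X] := X ^ rootOrder K n - 1 with hp
  have hp0 : p ≠ 0 := X_pow_sub_C_ne_zero (rootOrder_pos K hn) 1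
  have hsep : p.Separable := separable_X_pow_sub_C _ hm0 one_ne_zero
  have hset : p.rootSet Ω = {x : Ω | x ^ rootOrder K n = 1} := by
    ext x
    rw [mem_rootSet_of_ne hp0]
    simp [hp, sub_eq_zero]
  have : p.IsSplittingField K (unrField K Ω n) := by
    rw [unrField, ← hset]
    exact adjoin_rootSet_isSplittingField (IsAlgClosed.splits _)
  exact ⟨IsSplittingField.finiteDimensional _ p, IsGalois.of_separable_splitting_field hsep⟩

variable [FiniteDimensional K (unrField K Ω n)] [IsGalois K (unrField K Ω n)]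

lemma galois_root_pow (τ : Gal((unrField K Ω n)/K)) {x : unrField K Ω n}
    (hx : (x : Ω) ^ rootOrder K n = 1) : ((τ x : unrField K Ω n) : Ω) ^ rootOrder K n = 1 := by
  have : x ^ rootOrder K n = 1 := Subtype.ext (by simpa using hx)
  rw [← SubmonoidClass.coe_pow, ← map_pow, this, map_one, OneMemClass.coe_one]

include hn in
/-- The conjugates of `x` are `x ^ (Q ^ i)`; the first one occurs. -/
theorem exists_galois_eq_pow (x : unrField K Ω n) (hx : (x : Ω) ^ rootOrder K n = 1) :
    (∃ τ : Gal((unrField K Ω n)/K), τ x = x ^ resCard K) ∧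
      ∀ τ : Gal((unrField K Ω n)/K), ∃ i < n, τ x = x ^ resCard K ^ i := by
  classical
  set k := ResidueField (intRing Ω)
  set Q := resCard K with hQ
  set ψ := (resMap K Ω).comp (residue (intRing K)) with hψ
  have hψ' : ψ = (residue (intRing Ω)).comp (intMap K Ω) := by
    refine RingHom.ext fun a => ?_
    rfl
  set z := residue (intRing Ω) (rootInt hn hx) with hz
  have hzm : z ^ rootOrder K n = 1 := by
    rw [hz, ← map_pow, show rootInt hn hx ^ rootOrder K n = 1 from Subtype.ext hx,
      map_one]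
  have hzn : z ^ Q ^ n = z := by
    conv_lhs => rw [show Q ^ n = rootOrder K n + 1 from
      (Nat.sub_add_cancel (Nat.one_le_pow _ _ (zero_lt_one.trans (one_lt_resCard K)))).symm]
    rw [pow_succ, hzm, one_mul]
  -- compatibility of evaluation with reduction
  have heval : ∀ (P : (intRing K)[X]) (w : intRing Ω),
      residue (intRing Ω) (P.eval₂ (intMap K Ω) w) = (P.map ψ).eval (residue (intRing Ω) w) := by
    intro P w
    rw [hom_eval₂, ← hψ', eval_map]
  have hequiv : ∀ (P : (intRing K)[X]) (τ : Gal((unrField K Ω n)/K)) (w : (unrField K Ω n)) (hw : ‖(w : Ω)‖ ≤ 1),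
      ((P.eval₂ (intMap K Ω) ⟨_, hw⟩ : intRing Ω) : Ω)
        = ((aeval w (P.map (intRing K).toSubring.subtype) : (unrField K Ω n)) : Ω) := by
    intro P τ w hw
    show _ = (unrField K Ω n).val (aeval w (P.map (intRing K).toSubring.subtype))
    rw [← aeval_algHom_apply (unrField K Ω n).val, aeval_def, eval₂_map]
    exact (hom_eval₂ P (intMap K Ω) (intRing Ω).toSubring.subtype ⟨_, hw⟩).trans rfl
  have hnorm : ∀ τ : Gal((unrField K Ω n)/K), ‖((τ x : (unrField K Ω n)) : Ω)‖ ≤ 1 := fun τ =>
    (norm_eq_one_of_root hn (galois_root_pow τ hx)).le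
  -- reductions of conjugates
  let r : Gal((unrField K Ω n)/K) → intRing Ω := fun τ => ⟨_, hnorm τ⟩
  have hroot : ∀ (P : (intRing K)[X]) (τ : Gal((unrField K Ω n)/K)),
      (P.map ψ).eval z = 0 → (P.map ψ).eval (residue (intRing Ω) (r τ)) = 0 := by
    intro P τ h
    rw [← heval, residue_intRing_eq_zero_iff] at h ⊢
    show ‖((P.eval₂ (intMap K Ω) ⟨_, hnorm τ⟩ : intRing Ω) : Ω)‖ < 1
    rw [hequiv P τ _ (hnorm τ), aeval_algHom_apply]
    rw [show ((P.eval₂ (intMap K Ω) (rootInt hn hx) : intRing Ω) : Ω) = _ from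
      hequiv P τ x (norm_eq_one_of_root hn hx).le] at h
    refine lt_of_eq_of_lt ?_ h
    have := FiniteDimensional.proper K (unrField K Ω n)
    exact norm_galois K (unrField K Ω n) τ _
  refine ⟨?_, fun τ => ?_⟩
  · -- the minimal polynomial has integral coefficients
    set G : (intRing Ω)[X] := ∏ τ : Gal((unrField K Ω n)/K), (X - C (r τ))
    have hfix : ∀ i, ∃ a : intRing K, intMap K Ω a = G.coeff i := by
      intro i
      set g : (unrField K Ω n)[X] := ∏ τ : Gal((unrField K Ω n)/K), (X - C (τ x))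
      have hg : G.map (intRing Ω).toSubring.subtype = g.map ((unrField K Ω n).val : (unrField K Ω n) →+* Ω) := by
        simp only [G, g, Polynomial.map_prod, Polynomial.map_sub, map_X, map_C]
        rfl
      obtain ⟨c, hc⟩ := IntermediateField.mem_bot.1 ((IsGalois.mem_bot_iff_fixed (g.coeff i)).2 (by
        intro σ
        have : g.map (σ : (unrField K Ω n) →+* (unrField K Ω n)) = g := by
          simp only [g, Polynomial.map_prod, Polynomial.map_sub, map_X, map_C]
          exact Fintype.prod_equiv (Equiv.mulLeft σ) _ _ fun τ => rfl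
        conv_rhs => rw [← this, coeff_map]
        rfl))
      have hci : algebraMap K Ω c = (G.coeff i : Ω) := by
        have h2 := congrArg (fun P => coeff P i) hg
        simp only [coeff_map] at h2
        refine Eq.trans ?_ h2.symm
        rw [← hc]
        rfl
      refine ⟨⟨c, ?_⟩, Subtype.ext hci⟩
      rw [mem_intRing, ← norm_algebraMap' Ω, hci]
      exact (G.coeff i).2
    obtain ⟨G₀, hG₀⟩ : ∃ G₀ : (intRing K)[X], G₀.map (intMap K Ω) = G :=
      (lifts_iff_coeff_lifts (f := intMap K Ω) G).2 hfix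
    have hred : G₀.map ψ = ∏ τ : Gal((unrField K Ω n)/K), (X - C (residue (intRing Ω) (r τ))) := by
      rw [hψ', ← Polynomial.map_map, hG₀]
      simp [G, Polynomial.map_prod]
    have h1 : (G₀.map ψ).eval z = 0 := by
      rw [hred, eval_prod]
      exact Finset.prod_eq_zero (Finset.mem_univ (1 : Gal((unrField K Ω n)/K))) (by simp [r, hz, rootInt])
    have h2 : (G₀.map ψ).eval (z ^ Q) = 0 := by
      rw [hψ, ← Polynomial.map_map, eval_map, hQ, eval₂_resMap_pow_resCard, ← eval_map,
        Polynomial.map_map, ← hψ, h1, zero_pow (zero_lt_one.trans (one_lt_resCard K)).ne']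
    rw [hred, eval_prod, Finset.prod_eq_zero_iff] at h2
    obtain ⟨τ, -, hτ⟩ := h2
    rw [eval_sub, eval_X, eval_C, sub_eq_zero] at hτ
    refine ⟨τ, Subtype.ext ?_⟩
    have hxQ : ((x : Ω) ^ Q) ^ rootOrder K n = 1 := by rw [pow_right_comm, hx, one_pow]
    rw [SubmonoidClass.coe_pow]
    refine eq_of_residue_eq hn (galois_root_pow τ hx) hxQ ?_
    rw [show rootInt hn hxQ = rootInt hn hx ^ Q from Subtype.ext (by simp [rootInt]), map_pow, ← hz,
      hτ]
    rfl
  · -- the orbit polynomial of `z` has coefficients in the residue field of `K`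
    set h : k[X] := ∏ i ∈ Finset.range n, (X - C (z ^ Q ^ i)) with hh
    have hcoeff : ∀ i, h.coeff i ^ Q = h.coeff i := by
      intro i
      obtain ⟨p, hp⟩ := CharP.exists (ResidueField (intRing K))
      have := hp
      let := Fintype.ofFinite (ResidueField (intRing K))
      obtain ⟨b, hprime, hb⟩ := FiniteField.card (ResidueField (intRing K)) p
      have := Fact.mk hprime
      have : CharP k p := (RingHom.charP_iff (resMap K Ω) (resMap K Ω).injective p).1 hp
      set F := iterateFrobenius k p b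
      have hF : ∀ w : k, F w = w ^ Q := fun w => by
        simp [F, iterateFrobenius_def, hQ, resCard, hb]
      have hmap : h.map F = h := by
        obtain ⟨n', rfl⟩ := Nat.exists_eq_succ_of_ne_zero hn
        simp only [hh, Polynomial.map_prod, Polynomial.map_sub, map_X, map_C, hF, ← pow_mul,
          ← pow_succ]
        conv_lhs => rw [Finset.prod_range_succ, hzn]
        conv_rhs => rw [Finset.prod_range_succ', pow_zero, pow_one]
      conv_rhs => rw [← hmap, coeff_map, hF]
    obtain ⟨H, hH⟩ := exists_map_eq_of_coeff_fixed K Ω h hcoeff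
    have h1 : (H.map ψ).eval z = 0 := by
      rw [hψ, hH, hh, eval_prod]
      exact Finset.prod_eq_zero (Finset.mem_range.2 (Nat.pos_of_ne_zero hn)) (by simp)
    have h2 := hroot H τ h1
    rw [hψ, hH, hh, eval_prod, Finset.prod_eq_zero_iff] at h2
    obtain ⟨i, hi, hτ⟩ := h2
    rw [eval_sub, eval_X, eval_C, sub_eq_zero] at hτ
    refine ⟨i, Finset.mem_range.1 hi, Subtype.ext ?_⟩
    have hxQ : ((x : Ω) ^ Q ^ i) ^ rootOrder K n = 1 := by rw [pow_right_comm, hx, one_pow]
    rw [SubmonoidClass.coe_pow]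
    refine eq_of_residue_eq hn (galois_root_pow τ hx) hxQ ?_
    rw [show rootInt hn hxQ = rootInt hn hx ^ Q ^ i from Subtype.ext (by simp [rootInt]), map_pow,
      ← hz, ← hτ]
    rfl

end Fermat.Agent.CFT.Local
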