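import Mathlib.FieldTheory.IntermediateField.Adjoin.Basic
import Fermat.Agent.CFT.Local.Unramified

/-!
Frobenius of the unramified extensions of a local field: cyclic of degree `n`, ramification index
one, compatibility in towers.
-/

set_option autoImplicit false
set_option linter.unusedSectionVars false

namespace Fermat.Agent.CFT.Local

open IsLocalRing Polynomial IntermediateField

variable {K Ω : Type} [NontriviallyNormedField K] [IsUltrametricDist K] [ProperSpace K]
  [NontriviallyNormedField Ω] [IsUltrametricDist Ω] [NormedAlgebra K Ω] [IsAlgClosed Ω] {n : ℕ}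

instance instFiniteUnrField [NeZero n] : FiniteDimensional K (unrField K Ω n) :=
  (unrField_isGalois (NeZero.ne n)).1

instance instGaloisUnrField [NeZero n] : IsGalois K (unrField K Ω n) :=
  (unrField_isGalois (NeZero.ne n)).2

instance instProperUnrField [NeZero n] : ProperSpace (unrField K Ω n) :=
  FiniteDimensional.proper K _

variable [NeZero n]

lemma unr_ext {σ τ : Gal((unrField K Ω n)/K)}
    (h : ∀ x : unrField K Ω n, (x : Ω) ^ rootOrder K n = 1 → σ x = τ x) : σ = τ := by
  obtain ⟨ζ, hζ⟩ := exists_root (K := K) (Ω := Ω) n (NeZero.ne n)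
  refine AlgEquiv.ext fun x => ?_
  have hx : (x : Ω) ∈ K⟮ζ⟯ := by rw [← unrField_eq_adjoin_simple (NeZero.ne n) hζ]; exact x.2
  have key : ∀ y ∈ K⟮ζ⟯, ∀ hy : y ∈ unrField K Ω n, σ ⟨y, hy⟩ = τ ⟨y, hy⟩ := by
    intro y hy
    induction hy using IntermediateField.adjoin_induction with
    | mem y hy =>
      intro hy'
      obtain rfl := Set.mem_singleton_iff.1 hy
      exact h _ hζ.pow_eq_one
    | algebraMap a =>
      intro _
      exact (σ.commutes a).trans (τ.commutes a).symm
    | add y z hy hz ihy ihz =>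
      intro h'
      have hy' : y ∈ unrField K Ω n := (unrField_eq_adjoin_simple (NeZero.ne n) hζ).symm ▸ hy
      have hz' : z ∈ unrField K Ω n := (unrField_eq_adjoin_simple (NeZero.ne n) hζ).symm ▸ hz
      rw [show (⟨y + z, h'⟩ : unrField K Ω n) = ⟨y, hy'⟩ + ⟨z, hz'⟩ from rfl, map_add, map_add,
        ihy hy', ihz hz']
    | inv y hy ihy =>
      intro h'
      have hy' : y ∈ unrField K Ω n := (unrField_eq_adjoin_simple (NeZero.ne n) hζ).symm ▸ hy
      rw [show (⟨y⁻¹, h'⟩ : unrField K Ω n) = (⟨y, hy'⟩ : unrField K Ω n)⁻¹ from rfl, map_inv₀,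
        map_inv₀, ihy hy']
    | mul y z hy hz ihy ihz =>
      intro h'
      have hy' : y ∈ unrField K Ω n := (unrField_eq_adjoin_simple (NeZero.ne n) hζ).symm ▸ hy
      have hz' : z ∈ unrField K Ω n := (unrField_eq_adjoin_simple (NeZero.ne n) hζ).symm ▸ hz
      rw [show (⟨y * z, h'⟩ : unrField K Ω n) = ⟨y, hy'⟩ * ⟨z, hz'⟩ from rfl, map_mul, map_mul,
        ihy hy', ihz hz']
  exact key x hx x.2

variable (K Ω n)

theorem exists_frob : ∃ φ : Gal((unrField K Ω n)/K),
    ∀ x : unrField K Ω n, (x : Ω) ^ rootOrder K n = 1 → φ x = x ^ resCard K := by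
  obtain ⟨ζ, hζ⟩ := exists_root (K := K) (Ω := Ω) n (NeZero.ne n)
  set ζ' : unrField K Ω n := ⟨ζ, mem_unrField hζ.pow_eq_one⟩
  obtain ⟨φ, hφ⟩ := (exists_galois_eq_pow (NeZero.ne n) ζ' hζ.pow_eq_one).1
  refine ⟨φ, fun x hx => ?_⟩
  have : NeZero (rootOrder K n) := ⟨(rootOrder_pos K (NeZero.ne n)).ne'⟩
  obtain ⟨i, -, hi⟩ := hζ.eq_pow_of_pow_eq_one hx
  have : x = ζ' ^ i := Subtype.ext (by simpa [ζ'] using hi.symm)
  rw [this, map_pow, hφ, pow_right_comm]

/-- The Frobenius of the unramified extension of degree `n`. -/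
noncomputable def unrFrob : Gal((unrField K Ω n)/K) := (exists_frob K Ω n).choose

variable {K Ω n}

lemma unrFrob_root {x : unrField K Ω n} (hx : (x : Ω) ^ rootOrder K n = 1) :
    unrFrob K Ω n x = x ^ resCard K :=
  (exists_frob K Ω n).choose_spec x hx

lemma unrFrob_pow_root {x : unrField K Ω n} (hx : (x : Ω) ^ rootOrder K n = 1) (i : ℕ) :
    (unrFrob K Ω n ^ i) x = x ^ resCard K ^ i := by
  induction i with
  | zero => simp
  | succ i ih =>
    rw [pow_succ' (unrFrob K Ω n), AlgEquiv.mul_apply, ih, map_pow, unrFrob_root hx, ← pow_mul,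
      ← pow_succ']

theorem exists_eq_unrFrob_pow (τ : Gal((unrField K Ω n)/K)) : ∃ i < n, τ = unrFrob K Ω n ^ i := by
  obtain ⟨ζ, hζ⟩ := exists_root (K := K) (Ω := Ω) n (NeZero.ne n)
  set ζ' : unrField K Ω n := ⟨ζ, mem_unrField hζ.pow_eq_one⟩
  obtain ⟨i, hi, h⟩ := (exists_galois_eq_pow (NeZero.ne n) ζ' hζ.pow_eq_one).2 τ
  refine ⟨i, hi, unr_ext fun x hx => ?_⟩
  have : NeZero (rootOrder K n) := ⟨(rootOrder_pos K (NeZero.ne n)).ne'⟩
  obtain ⟨j, -, hj⟩ := hζ.eq_pow_of_pow_eq_one hx
  have : x = ζ' ^ j := Subtype.ext (by simpa [ζ'] using hj.symm)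
  rw [this, map_pow, map_pow, h, unrFrob_pow_root hζ.pow_eq_one]

theorem mem_zpowers_unrFrob (τ : Gal((unrField K Ω n)/K)) :
    τ ∈ Subgroup.zpowers (unrFrob K Ω n) := by
  obtain ⟨i, -, rfl⟩ := exists_eq_unrFrob_pow τ
  exact Subgroup.npow_mem_zpowers _ _

lemma dvd_of_pow_resCard_pow {i : ℕ} {ζ : Ω} (hζ : IsPrimitiveRoot ζ (rootOrder K n))
    (h : ζ ^ resCard K ^ i = ζ) : n ∣ i := by
  have hz : ζ ≠ 0 := hζ.ne_zero (rootOrder_pos K (NeZero.ne n)).ne'
  have h1 : 1 ≤ resCard K ^ i := Nat.one_le_pow _ _ (zero_lt_one.trans (one_lt_resCard K))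
  have : ζ ^ (resCard K ^ i - 1) = 1 := mul_right_cancel₀ hz (by
    rw [← pow_succ, Nat.sub_add_cancel h1, h, one_mul])
  have hd := hζ.dvd_of_pow_eq_one _ this
  by_contra hni
  have hlt : i % n < n := Nat.mod_lt _ (NeZero.pos n)
  have h0 : 0 < i % n := Nat.pos_of_ne_zero fun h0 => hni (Nat.dvd_of_mod_eq_zero h0)
  have hd' : rootOrder K n ∣ resCard K ^ (i % n) - 1 := by
    have h2 : rootOrder K n ∣ resCard K ^ (n * (i / n)) - 1 :=
      Nat.pow_sub_one_dvd_pow_sub_one _ (dvd_mul_right n _)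
    have e : resCard K ^ i - 1 = resCard K ^ (i % n) * (resCard K ^ (n * (i / n)) - 1)
        + (resCard K ^ (i % n) - 1) := by
      have ha : 1 ≤ resCard K ^ (i % n) := Nat.one_le_pow _ _ (zero_lt_one.trans (one_lt_resCard K))
      have hb : 1 ≤ resCard K ^ (n * (i / n)) :=
        Nat.one_le_pow _ _ (zero_lt_one.trans (one_lt_resCard K))
      conv_lhs => rw [← Nat.mod_add_div i n, pow_add]
      rw [Nat.mul_sub, mul_one]
      have : resCard K ^ (i % n) ≤ resCard K ^ (i % n) * resCard K ^ (n * (i / n)) :=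
        Nat.le_mul_of_pos_right _ hb
      omega
    rw [e] at hd
    exact (Nat.dvd_add_right (h2.mul_left _)).1 hd
  have hle := Nat.le_of_dvd (Nat.sub_pos_of_lt (Nat.one_lt_pow h0.ne' (one_lt_resCard K))) hd'
  have : resCard K ^ (i % n) < resCard K ^ n := Nat.pow_lt_pow_right (one_lt_resCard K) hlt
  have ha : 1 ≤ resCard K ^ (i % n) := Nat.one_le_pow _ _ (zero_lt_one.trans (one_lt_resCard K))
  unfold rootOrder at hle
  omega

theorem orderOf_unrFrob : orderOf (unrFrob K Ω n) = n := by
  obtain ⟨ζ, hζ⟩ := exists_root (K := K) (Ω := Ω) n (NeZero.ne n)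
  refine Nat.dvd_antisymm (orderOf_dvd_of_pow_eq_one (unr_ext fun x hx => ?_)) ?_
  · rw [unrFrob_pow_root hx, AlgEquiv.one_apply]
    apply Subtype.ext
    rw [SubmonoidClass.coe_pow]
    have h1 : resCard K ^ n = rootOrder K n + 1 :=
      (Nat.sub_add_cancel (Nat.one_le_pow _ _ (zero_lt_one.trans (one_lt_resCard K)))).symm
    rw [h1, pow_succ, hx, one_mul]
  · refine dvd_of_pow_resCard_pow hζ ?_
    have := congrArg Subtype.val
      ((unrFrob_pow_root (x := (⟨ζ, mem_unrField hζ.pow_eq_one⟩ : unrField K Ω n)) hζ.pow_eq_one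
        (orderOf (unrFrob K Ω n))).symm)
    rw [pow_orderOf_eq_one] at this
    simpa using this

theorem finrank_unrField : Module.finrank K (unrField K Ω n) = n := by
  rw [← IsGalois.card_aut_eq_finrank]
  exact (orderOf_eq_card_of_forall_mem_zpowers mem_zpowers_unrFrob).symm.trans orderOf_unrFrob

/-- Every norm in the unramified extension is the norm of an element of the base. -/
theorem exists_norm_eq_base {x : unrField K Ω n} (hx : x ≠ 0) : ∃ c : K, c ≠ 0 ∧ ‖x‖ = ‖c‖ := by
  classical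
  have hn := NeZero.ne n
  obtain ⟨ζ, hζ⟩ := exists_root (K := K) (Ω := Ω) n hn
  have hint : IsIntegral K ζ := by
    refine IsIntegral.of_pow (rootOrder_pos K hn) ?_
    rw [hζ.pow_eq_one]; exact isIntegral_one
  have hdeg : (minpoly K ζ).natDegree = n := by
    rw [← IntermediateField.adjoin.finrank hint, ← unrField_eq_adjoin_simple hn hζ, finrank_unrField]
  obtain ⟨P, hP⟩ : ∃ P : K[X], aeval ζ P = (x : Ω) := by
    have h2 : (x : Ω) ∈ (K⟮ζ⟯).toSubalgebra := by
      rw [IntermediateField.mem_toSubalgebra, ← unrField_eq_adjoin_simple hn hζ]; exact x.2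
    rw [IntermediateField.adjoin_simple_toSubalgebra_of_isAlgebraic hint.isAlgebraic,
      Algebra.adjoin_singleton_eq_range_aeval] at h2
    exact h2
  set R := P %ₘ minpoly K ζ with hR
  have hRx : aeval ζ R = (x : Ω) := by
    rw [hR, ← hP, aeval_modByMonic_eq_self_of_root (minpoly.aeval K ζ)]
  have hR0 : R ≠ 0 := fun h => hx (Subtype.ext (by rw [← hRx, h, map_zero]; rfl))
  have hRdeg : R.natDegree < n := hdeg ▸ natDegree_modByMonic_lt P (minpoly.monic hint)
    (fun h => by rw [h, natDegree_one] at hdeg; exact hn hdeg.symm)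
  obtain ⟨j, hj, hmax⟩ := R.support.exists_max_image (fun i => ‖R.coeff i‖)
    (Polynomial.support_nonempty.2 hR0)
  set c := R.coeff j
  have hc0 : c ≠ 0 := mem_support_iff.1 hj
  have hle : ∀ i, ‖(C c⁻¹ * R).coeff i‖ ≤ 1 := fun i => by
    rw [coeff_C_mul, norm_mul, norm_inv, inv_mul_le_one₀ (norm_pos_iff.2 hc0)]
    by_cases hi : i ∈ R.support
    · exact hmax i hi
    · simp [notMem_support_iff.1 hi]
  refine ⟨c, hc0, ?_⟩
  obtain ⟨P₀, hP₀, hP₀deg⟩ : ∃ P₀ : (intRing K)[X],
      P₀.map (intRing K).toSubring.subtype = C c⁻¹ * R ∧ P₀.natDegree < n := by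
    obtain ⟨P₀, hP₀⟩ := (lifts_iff_coeff_lifts (f := (intRing K).toSubring.subtype) (C c⁻¹ * R)).2
      fun i => ⟨⟨_, hle i⟩, rfl⟩
    refine ⟨P₀, hP₀, ?_⟩
    rw [← natDegree_map_eq_of_injective (f := (intRing K).toSubring.subtype) Subtype.val_injective P₀,
      (show P₀.map (intRing K).toSubring.subtype = C c⁻¹ * R from hP₀)]
    exact (natDegree_C_mul_le _ _).trans_lt hRdeg
  set Q := P₀.map ((resMap K Ω).comp (residue (intRing K))) with hQ
  have hQ0 : Q ≠ 0 := fun h => by
    have h1 := congrArg (fun p => Polynomial.coeff p j) h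
    simp only [hQ, coeff_map, coeff_zero, RingHom.comp_apply] at h1
    have h2 : ((P₀.coeff j : intRing K) : K) = 1 := by
      have := congrArg (fun p => Polynomial.coeff p j) hP₀
      simp only [coeff_map, coeff_C_mul] at this
      exact this.trans (inv_mul_cancel₀ hc0)
    have h3 : P₀.coeff j = 1 := Subtype.ext h2
    simp [h3] at h1
  set z := residue (intRing Ω) (rootInt hn hζ.pow_eq_one)
  have hev : Q.eval z = residue (intRing Ω) (P₀.eval₂ (intMap K Ω) (rootInt hn hζ.pow_eq_one)) := by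
    rw [hom_eval₂, hQ, eval_map]
    rfl
  have hne : Q.eval z ≠ 0 := by
    intro h0
    have hr : ∀ i, Q.eval (z ^ resCard K ^ i) = 0 := fun i => by
      induction i with
      | zero => simpa using h0
      | succ i ih =>
        rw [pow_succ, pow_mul, hQ, ← Polynomial.map_map, eval_map, eval₂_resMap_pow_resCard,
          ← eval_map, Polynomial.map_map, ← hQ, ih,
          zero_pow (zero_lt_one.trans (one_lt_resCard K)).ne']
    have hinj : Set.InjOn (fun i => z ^ resCard K ^ i) (Finset.range n : Set ℕ) := by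
      have key : ∀ a b, a ≤ b → b < n → z ^ resCard K ^ a = z ^ resCard K ^ b → a = b := by
        intro a b hab hb h
        have hpow : ∀ k, (ζ ^ k) ^ rootOrder K n = 1 := fun k => by
          rw [pow_right_comm, hζ.pow_eq_one, one_pow]
        have h' : ζ ^ resCard K ^ a = ζ ^ resCard K ^ b := by
          refine eq_of_residue_eq hn (hpow _) (hpow _) ?_
          rw [show rootInt hn (hpow (resCard K ^ a)) = rootInt hn hζ.pow_eq_one ^ resCard K ^ a from
              Subtype.ext (by simp [rootInt]),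
            show rootInt hn (hpow (resCard K ^ b)) = rootInt hn hζ.pow_eq_one ^ resCard K ^ b from
              Subtype.ext (by simp [rootInt]), map_pow, map_pow]
          exact h
        have hz : ζ ^ resCard K ^ (b - a + (n - b)) * 1 = ζ ^ resCard K ^ (b - a + (n - b)) := mul_one _
        have h'' : ζ ^ resCard K ^ (a + (n - b)) = ζ := by
          have hn' : ζ ^ resCard K ^ n = ζ := by
            have h1 : resCard K ^ n = rootOrder K n + 1 := (Nat.sub_add_cancel
              (Nat.one_le_pow _ _ (zero_lt_one.trans (one_lt_resCard K)))).symm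
            rw [h1, pow_succ, hζ.pow_eq_one, one_mul]
          rw [pow_add, pow_mul, h', ← pow_mul, ← pow_add, Nat.add_sub_cancel' hb.le, hn']
        obtain ⟨k, hk⟩ := dvd_of_pow_resCard_pow hζ h''
        rcases k with _ | _ | k
        · omega
        · omega
        · have : n * 2 ≤ n * (k + 1 + 1) := Nat.mul_le_mul_left n (by omega)
          omega
      intro a ha b hb h
      simp only [Finset.coe_range, Set.mem_Iio] at ha hb
      rcases le_total a b with hab | hab
      · exact key a b hab hb h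
      · exact (key b a hab ha h.symm).symm
    have hsub : ((Finset.range n).image fun i => z ^ resCard K ^ i).val ⊆ Q.roots := fun w hw => by
      obtain ⟨i, -, rfl⟩ := Finset.mem_image.1 (Finset.mem_def.2 hw)
      exact (mem_roots hQ0).2 (hr i)
    have := Polynomial.card_le_degree_of_subset_roots hsub
    rw [Finset.card_image_of_injOn hinj, Finset.card_range] at this
    exact absurd (this.trans (natDegree_map_le)) (not_le.2 hP₀deg)
  rw [hev, Ne, residue_intRing_eq_zero_iff] at hne
  have h1 : ‖((P₀.eval₂ (intMap K Ω) (rootInt hn hζ.pow_eq_one) : intRing Ω) : Ω)‖ = 1 :=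
    le_antisymm (P₀.eval₂ (intMap K Ω) (rootInt hn hζ.pow_eq_one) : intRing Ω).2 (not_lt.1 hne)
  have h2 : ((P₀.eval₂ (intMap K Ω) (rootInt hn hζ.pow_eq_one) : intRing Ω) : Ω)
      = aeval ζ (C c⁻¹ * R) := by
    rw [← hP₀, aeval_def, eval₂_map]
    exact hom_eval₂ P₀ (intMap K Ω) (intRing Ω).toSubring.subtype _
  rw [h2, map_mul, aeval_C, hRx, norm_mul, norm_algebraMap', norm_inv] at h1
  show ‖(x : Ω)‖ = ‖c‖
  field_simp at h1
  linarith

theorem ramIdx_unrField : ramIdx K (unrField K Ω n) = 1 := by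
  have h := unif_ne_zero (unrField K Ω n)
  obtain ⟨c, hc, hxc⟩ := exists_norm_eq_base h
  rw [← norm_algebraMap' (unrField K Ω n) c] at hxc
  have h1 : ord (algebraMap K (unrField K Ω n) c) = 1 :=
    ord_eq_of_norm (by rw [zpow_one]; exact hxc.symm)
  rw [ord_algebraMap _ _ hc] at h1
  have := Int.eq_one_of_mul_eq_one_right (Int.natCast_nonneg _) h1
  exact_mod_cast this

theorem resDeg_unrField : resDeg K (unrField K Ω n) = n := by
  have := ramIdx_mul_resDeg K (unrField K Ω n)
  rwa [ramIdx_unrField, one_mul, finrank_unrField] at this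

/-- In the unramified extension every unit is a norm. -/
theorem exists_unit_norm_unrField {x : K} (hx : ‖x‖ = 1) :
    ∃ y : unrField K Ω n, ‖y‖ = 1 ∧ Algebra.norm K y = x :=
  unit_norm_of_unramified K (unrField K Ω n) (unrFrob K Ω n) mem_zpowers_unrFrob ramIdx_unrField hx

theorem ord_norm_unrField {x : unrField K Ω n} (hx : x ≠ 0) :
    (n : ℤ) ∣ ord (Algebra.norm K x) := by
  rw [ord_norm K _ hx, resDeg_unrField]
  exact dvd_mul_right _ _

end Fermat.Agent.CFT.Local
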