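import Mathlib.FieldTheory.IsAlgClosed.AlgebraicClosure
import Mathlib.GroupTheory.SpecificGroups.Cyclic
import Fermat.Agent.CFT.Local.Br
import Fermat.Agent.CFT.Local.Frobenius

/-!
The unramified classes `(a, χ_n)` in the Brauer group of a local field: they depend only on
`ord a` modulo `n` and have exact order `n`.
-/

set_option autoImplicit false
set_option linter.unusedSectionVars false

noncomputable section

namespace Fermat.Agent.CFT.Local

open Fermat.Agent.CFT.Class

section General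

variable {G A : Type} [Group G] [CommGroup A] [MulDistribMulAction G A] {m n : ℕ} [NeZero m]
  [NeZero n]

/-- Changing the character of a carry cocycle by a multiple. -/
lemma carry_change (χ : G →* Multiplicative (ZMod m)) (χ' : G →* Multiplicative (ZMod n)) (f d : ℕ)
    (hmd : m * f = n * d) (h : ∀ g, cval χ' g = (f * cval χ g) % n) (a : fixedSubgroup G A) :
    (carryZ2 χ' a : G × G → A) = (carryZ2 χ (a ^ d) : G × G → A)
      * delta1 G A (fun g => ((a : A) ^ (f * cval χ g / n))⁻¹) := by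
  funext p
  obtain ⟨g, g'⟩ := p
  have ex : ∀ g, f * cval χ g = cval χ' g + n * (f * cval χ g / n) := fun g => by
    rw [h]; exact (Nat.mod_add_div _ _).symm
  have e1 := congrArg (f * ·) (Nat.mod_add_div (cval χ g + cval χ g') m)
  simp only [mul_add, ← cval_mul] at e1
  replace e1 := e1.trans (congrArg₂ (· + ·) (ex g) (ex g'))
  rw [ex (g * g'), show f * (m * ((cval χ g + cval χ g') / m)) = n * d * ((cval χ g + cval χ g') / m)
    by rw [← hmd]; ring] at e1
  have e2 := Nat.mod_add_div (cval χ' g + cval χ' g') n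
  rw [← cval_mul] at e2
  change cval χ' (g * g') + n * carry χ' g g' = _ at e2
  change _ + n * d * carry χ g g' = _ at e1
  have key : carry χ' g g' + (f * cval χ g / n) + (f * cval χ g' / n)
      = d * carry χ g g' + (f * cval χ (g * g') / n) := by
    have h0 : n * (carry χ' g g' + f * cval χ g / n + f * cval χ g' / n)
        = n * (d * carry χ g g' + f * cval χ (g * g') / n) := by
      linear_combination e2 - e1
    exact Nat.eq_of_mul_eq_mul_left (NeZero.pos n) h0
  have ha : ∀ k : ℕ, g • (a : A) ^ k = (a : A) ^ k := fun k => by rw [smul_pow', a.2 g]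
  simp only [carryZ2_apply, Pi.mul_apply, delta1_apply, smul_inv', ha, SubgroupClass.coe_pow,
    ← pow_mul]
  have key' := congrArg (fun k : ℕ => Additive.ofMul ((a : A) ^ k)) key
  simp only [pow_add, ofMul_mul] at key'
  apply Additive.ofMul.injective
  simp only [ofMul_mul, ofMul_div, ofMul_inv]
  linear_combination (norm := abel) key'

lemma delta_prod_translates (χ : G →* Multiplicative (ZMod n)) {σ : G}
    (hσ : χ σ = Multiplicative.ofAdd 1) {y : A} (hy : ∀ k ∈ χ.ker, k • y = y)
    (a : fixedSubgroup G A) (ha : normPow σ n y = a) :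
    delta1 G A (fun g => ∏ i ∈ Finset.range (cval χ g), σ ^ i • y) = (carryZ2 χ a : G × G → A) := by
  funext p
  obtain ⟨g, h⟩ := p
  simp only [delta1_apply, Finset.smul_prod', smul_pow_smul hσ hy, carryZ2_apply, ← ha]
  rw [div_mul_eq_mul_div, div_eq_iff_eq_mul, mul_comm, ← Finset.prod_range_add, cval_mul, carry,
    ← prod_range_eq hσ hy, Nat.div_add_mod]

end General

variable (K Ω : Type) [NontriviallyNormedField K] [IsUltrametricDist K] [ProperSpace K]
  [NontriviallyNormedField Ω] [IsUltrametricDist Ω] [NormedAlgebra K Ω] [IsAlgClosed Ω]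
  (n : ℕ) [NeZero n]

lemma card_galUnr : Nat.card Gal((unrField K Ω n)/K) = n :=
  (IsGalois.card_aut_eq_finrank K (unrField K Ω n)).trans finrank_unrField

/-- The character of the unramified extension of degree `n` on its Galois group. -/
def unrCharFin : Gal((unrField K Ω n)/K) →* Multiplicative (ZMod n) :=
  monoidHomOfForallMemZpowers (g' := Multiplicative.ofAdd (1 : ZMod n))
    (mem_zpowers_unrFrob (K := K) (Ω := Ω) (n := n)) (by
      rw [orderOf_unrFrob, orderOf_ofAdd_eq_addOrderOf, ZMod.addOrderOf_one])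

lemma unrCharFin_frob : unrCharFin K Ω n (unrFrob K Ω n) = Multiplicative.ofAdd 1 :=
  monoidHomOfForallMemZpowers_apply_gen _ _

lemma unrCharFin_injective : Function.Injective (unrCharFin K Ω n) := by
  rw [injective_iff_map_eq_one]
  intro τ hτ
  obtain ⟨i, hi, rfl⟩ := exists_eq_unrFrob_pow τ
  rw [map_pow, unrCharFin_frob, ← ofAdd_nsmul, nsmul_one] at hτ
  have : (i : ZMod n) = 0 := hτ
  rw [ZMod.natCast_eq_zero_iff] at this
  rw [Nat.eq_zero_of_dvd_of_lt this hi, pow_zero]

lemma eq_unrFrob_pow_cval (τ : Gal((unrField K Ω n)/K)) :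
    τ = unrFrob K Ω n ^ cval (unrCharFin K Ω n) τ := by
  apply unrCharFin_injective K Ω n
  rw [map_pow, unrCharFin_frob, ← ofAdd_nsmul, nsmul_one, cval, ZMod.natCast_zmod_val]
  rfl

variable [IsGalois K Ω]

/-- The unramified character of level `n` on the absolute Galois group. -/
def unrChar : Gal(Ω/K) →* Multiplicative (ZMod n) :=
  (unrCharFin K Ω n).comp (AlgEquiv.restrictNormalHom (unrField K Ω n))

variable {K Ω n}

lemma apply_root_of_unrChar (g : Gal(Ω/K)) {x : Ω} (hx : x ^ rootOrder K n = 1) :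
    g x = x ^ resCard K ^ cval (unrChar K Ω n) g := by
  have h := coe_restrict (unrField K Ω n) g ⟨x, mem_unrField hx⟩
  rw [eq_unrFrob_pow_cval K Ω n (AlgEquiv.restrictNormalHom (unrField K Ω n) g),
    unrFrob_pow_root (by exact hx)] at h
  rw [← h]
  rfl

lemma cval_unrChar_unique (g : Gal(Ω/K)) {i : ℕ}
    (h : ∀ x : Ω, x ^ rootOrder K n = 1 → g x = x ^ resCard K ^ i) :
    cval (unrChar K Ω n) g = i % n := by
  have hpow : AlgEquiv.restrictNormalHom (unrField K Ω n) g = unrFrob K Ω n ^ i := by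
    refine unr_ext fun x hx => Subtype.ext ?_
    rw [unrFrob_pow_root hx, coe_restrict, h _ hx, SubmonoidClass.coe_pow]
  rw [unrChar, cval, MonoidHom.comp_apply, hpow]
  exact cval_pow (unrCharFin K Ω n) (unrCharFin_frob K Ω n) i

lemma exists_unrChar_eq_one :
    ∃ σ : Gal(Ω/K), AlgEquiv.restrictNormalHom (unrField K Ω n) σ = unrFrob K Ω n ∧
      unrChar K Ω n σ = Multiplicative.ofAdd 1 := by
  obtain ⟨σ, hσ⟩ := restrictHom_surjective (unrField K Ω n) (unrFrob K Ω n)
  exact ⟨σ, hσ, by rw [unrChar, MonoidHom.comp_apply, hσ, unrCharFin_frob]⟩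

lemma isSm1_of_restrict {X : Type} (φ : Gal((unrField K Ω n)/K) → X) :
    IsSm1 K Ω (fun g => φ (AlgEquiv.restrictNormalHom (unrField K Ω n) g)) :=
  ⟨unrField K Ω n, inferInstance, fun g s hs => by simp only [restrict_mul_of_mem _ g hs]⟩

variable (K Ω) in
/-- Base units as invariant elements. -/
def baseUnit : Kˣ →* fixedSubgroup Gal(Ω/K) Ωˣ :=
  (Units.map (algebraMap K Ω : K →* Ω)).codRestrict _ fun a g => Units.ext (g.commutes a)

@[simp] lemma coe_baseUnit (a : Kˣ) :
    (((baseUnit K Ω a : fixedSubgroup Gal(Ω/K) Ωˣ) : Ωˣ) : Ω) = algebraMap K Ω a := rfl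

variable (K Ω n) in
/-- The cocycle of `(a, χ_n)`. -/
def unrSm : Kˣ →* smZ2 K Ω :=
  ((carryZ2 (unrChar K Ω n)).comp (baseUnit K Ω)).codRestrict _ fun a =>
    ⟨unrField K Ω n, inferInstance, fun g h s hs t ht => by
      simp only [MonoidHom.comp_apply, carryZ2_apply, carry, cval, unrChar,
        restrict_mul_of_mem _ _ hs, restrict_mul_of_mem _ _ ht]⟩

variable (K Ω n) in
/-- The class `(a, χ_n)`. -/
def unrBr : Kˣ →* Br K Ω := (QuotientGroup.mk' (smB2 K Ω)).comp (unrSm K Ω n)

lemma unrBr_apply (a : Kˣ) : unrBr K Ω n a = brCls (unrSm K Ω n a) := rfl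

lemma norm_eq_prod_frob (y : unrField K Ω n) :
    algebraMap K (unrField K Ω n) (Algebra.norm K y)
      = ∏ i ∈ Finset.range n, (unrFrob K Ω n ^ i) y := by
  rw [Algebra.norm_eq_prod_automorphisms]
  symm
  refine Finset.prod_bij (fun i _ => unrFrob K Ω n ^ i) (fun _ _ => Finset.mem_univ _) ?_ ?_
    (fun _ _ => rfl)
  · intro a ha b hb hab
    refine pow_injOn_Iio_orderOf ?_ ?_ hab <;> rw [orderOf_unrFrob]
    · simpa using ha
    · simpa using hb
  · intro τ _
    obtain ⟨i, hi, rfl⟩ := exists_eq_unrFrob_pow τ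
    exact ⟨i, Finset.mem_range.2 hi, rfl⟩

lemma exists_norm_of_dvd_ord {a : Kˣ} (h : (n : ℤ) ∣ ord (a : K)) :
    ∃ y : (unrField K Ω n)ˣ, Algebra.norm K (y : unrField K Ω n) = a := by
  obtain ⟨m, hm⟩ := h
  have hu : ‖(a : K) / unif K ^ (ord (a : K))‖ = 1 := by
    rw [norm_div, norm_zpow, ← norm_eq_zpow_ord a.ne_zero, div_self (norm_ne_zero_iff.2 a.ne_zero)]
  obtain ⟨y, hy, hyn⟩ := exists_unit_norm_unrField (Ω := Ω) (n := n) hu
  have hy0 : y ≠ 0 := fun h0 => by simp [h0] at hy
  refine ⟨Units.mk0 y hy0 * Units.map (algebraMap K (unrField K Ω n) : K →* unrField K Ω n)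
    (Units.mk0 (unif K) (unif_ne_zero K) ^ m), ?_⟩
  simp only [Units.val_mul, Units.val_mk0, map_mul, hyn, Units.coe_map, MonoidHom.coe_coe,
    Algebra.norm_algebraMap, finrank_unrField, Units.val_zpow_eq_zpow_val]
  rw [← zpow_natCast, ← zpow_mul, mul_comm m, ← hm,
    div_mul_cancel₀ _ (zpow_ne_zero _ (unif_ne_zero K))]

theorem unrBr_eq_one_of_dvd {a : Kˣ} (h : (n : ℤ) ∣ ord (a : K)) : unrBr K Ω n a = 1 := by
  obtain ⟨y, hy⟩ := exists_norm_of_dvd_ord (Ω := Ω) h
  obtain ⟨σ, hσr, hσ⟩ := exists_unrChar_eq_one (K := K) (Ω := Ω) (n := n)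
  set Y := unitIncl (unrField K Ω n) y
  have hY : ∀ g : Gal(Ω/K), g • Y =
      unitIncl (unrField K Ω n) (AlgEquiv.restrictNormalHom (unrField K Ω n) g • y) :=
    fun g => (unitIncl_smul _ g y).symm
  have hfix : ∀ g ∈ (unrChar K Ω n).ker, g • Y = Y := fun g hg => by
    rw [hY, unrCharFin_injective K Ω n ((show unrCharFin K Ω n _ = 1 from hg).trans
      (map_one (unrCharFin K Ω n)).symm), one_smul]
  have hN : normPow σ n Y = (baseUnit K Ω a : Ωˣ) := by
    ext
    rw [normPow, coe_baseUnit, IsScalarTower.algebraMap_apply K (unrField K Ω n) Ω, ← hy,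
      norm_eq_prod_frob, map_prod, Units.coe_prod]
    refine Finset.prod_congr rfl fun i _ => ?_
    rw [hY, map_pow, hσr]
    rfl
  refine (brCls_eq_one_iff _).2 ⟨fun g => ∏ i ∈ Finset.range (cval (unrChar K Ω n) g), σ ^ i • Y,
    ?_, delta_prod_translates _ hσ hfix _ hN⟩
  exact isSm1_of_restrict fun τ => ∏ i ∈ Finset.range (cval (unrCharFin K Ω n) τ), σ ^ i • Y

/-- Exactly order `n`: the class vanishes only on multiples of `n`. -/
theorem dvd_ord_of_unrBr_eq_one {a : Kˣ} (h : unrBr K Ω n a = 1) : (n : ℤ) ∣ ord (a : K) := by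
  let a₀ : fixedSubgroup Gal((unrField K Ω n)/K) (unrField K Ω n)ˣ :=
    ⟨Units.map (algebraMap K (unrField K Ω n) : K →* unrField K Ω n) a,
      fun g => Units.ext (g.commutes _)⟩
  have hinfl : inflBr (unrField K Ω n) (cls (carryZ2 (unrCharFin K Ω n) a₀)) = unrBr K Ω n a := by
    refine congrArg brCls (Subtype.ext (Subtype.ext (funext fun p => Units.ext ?_)))
    obtain ⟨g, g'⟩ := p
    rw [inflSm_apply, carryZ2_apply, map_pow]
    rfl
  have h1 : carryH2 (unrCharFin K Ω n) a₀ = 1 :=
    inflBr_injective (unrField K Ω n) (by rw [carryH2_eq, hinfl, h, map_one])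
  obtain ⟨y, -, hy⟩ := exists_norm_of_carryH2_eq_one (unrCharFin_frob K Ω n)
    (h1Triv_subgroup (k := K) (L := unrField K Ω n) _).kill a₀ h1
  have hN : algebraMap K (unrField K Ω n) (Algebra.norm K (y : unrField K Ω n))
      = algebraMap K (unrField K Ω n) a := by
    have := congrArg Units.val hy
    rw [pow_one, normPow, Units.coe_prod] at this
    rw [norm_eq_prod_frob]
    exact this
  rw [← (algebraMap K (unrField K Ω n)).injective hN]
  exact ord_norm_unrField y.ne_zero

/-- Compatibility in `n`. -/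
theorem unrBr_mul (d : ℕ) [NeZero (n * d)] (a : Kˣ) :
    unrBr K Ω n a = unrBr K Ω (n * d) (a ^ d) := by
  rw [unrBr_apply, unrBr_apply, brCls_eq_iff]
  refine ⟨fun g => ((baseUnit K Ω a : Ωˣ) ^ (1 * cval (unrChar K Ω (n * d)) g / n))⁻¹,
    isSm1_of_restrict fun τ => ((baseUnit K Ω a : Ωˣ) ^ (1 * cval (unrCharFin K Ω (n * d)) τ / n))⁻¹,
    fun g h => ?_⟩
  have := congrFun (carry_change (unrChar K Ω (n * d)) (unrChar K Ω n) 1 d (mul_one _)
    (fun g => by
      rw [one_mul]
      refine cval_unrChar_unique g fun x hx => ?_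
      refine apply_root_of_unrChar g ?_
      obtain ⟨c, hc⟩ := rootOrder_dvd (K := K) (dvd_mul_right n d)
      rw [hc, pow_mul, hx, one_pow]) (baseUnit K Ω a)) (g, h)
  rw [← map_pow] at this
  exact this

end Fermat.Agent.CFT.Local
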