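import Mathlib.Analysis.Normed.Algebra.Basic
import Fermat.Agent.CFT.Class.Devissage
import Fermat.Agent.CFT.Local.Br
import Fermat.Agent.CFT.Local.UnrClass

/-!
The local multiplicative groups satisfy the class formation axioms for steps of prime order:
vanishing of `H¹` and norm index equal to the degree.
-/

set_option autoImplicit false
set_option linter.unusedSectionVars false

noncomputable section

namespace Fermat.Agent.CFT.Local

open groupCohomology Fermat.Agent.CFT.Class Finset

instance intFieldNormedAlgebra {K E : Type} [NontriviallyNormedField K] [NormedField E]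
    [NormedAlgebra K E] (F : IntermediateField K E) : NormedAlgebra F E :=
  { F.instAlgebraSubtypeMem with
    norm_smul_le := fun r x => by
      show ‖(r : E) * x‖ ≤ ‖(r : E)‖ * ‖x‖
      exact norm_mul_le _ _ }

variable {K E : Type} [NontriviallyNormedField K] [IsUltrametricDist K] [ProperSpace K]
  [NontriviallyNormedField E] [IsUltrametricDist E] [NormedAlgebra K E] [FiniteDimensional K E]
  [IsGalois K E] {p : ℕ} [hp : Fact p.Prime]

/-- The fixed units of a subgroup are the units of the fixed field. -/
def fixedUnitsEquiv (U : Subgroup Gal(E/K)) :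
    (IntermediateField.fixedField U)ˣ →* fixedSubgroup U Eˣ :=
  (Units.map ((IntermediateField.fixedField U).val : IntermediateField.fixedField U →* E)).codRestrict _ fun x u =>
    Units.ext (show (u : Gal(E/K)) ((x : IntermediateField.fixedField U) : E) = _ from
      (IntermediateField.mem_fixedField_iff U _).1 (x : IntermediateField.fixedField U).2 u u.2)

lemma fixedUnitsEquiv_bijective (U : Subgroup Gal(E/K)) :
    Function.Bijective (fixedUnitsEquiv U) := by
  refine ⟨fun a b h => Units.ext (Subtype.ext (congrArg
    (fun t : fixedSubgroup U Eˣ => ((t : Eˣ) : E)) h)), fun z => ?_⟩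
  have hz : ((z : Eˣ) : E) ∈ IntermediateField.fixedField U :=
    (IntermediateField.mem_fixedField_iff U _).2 fun u hu =>
      congrArg Units.val (z.2 ⟨u, hu⟩)
  exact ⟨Units.mk0 ⟨_, hz⟩ fun h => (z : Eˣ).ne_zero (congrArg Subtype.val h),
    Subtype.ext (Units.ext rfl)⟩

theorem normSubgroup_index (U : Subgroup Gal(E/K)) (χ : U →* Multiplicative (ZMod p)) (σ : U)
    (hσ : χ σ = Multiplicative.ofAdd 1) : (normSubgroup (A := Eˣ) χ σ).index = p := by
  classical
  set F := IntermediateField.fixedField U
  have := FiniteDimensional.proper K F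
  have := FiniteDimensional.proper K E
  let e : U ≃* Gal(E/F) := IntermediateField.subgroupEquivAlgEquiv U
  have he : ∀ (u : U) (x : E), e u x = (u : Gal(E/K)) x := fun u x => rfl
  set N : Subgroup Gal(E/F) := χ.ker.map e.toMonoidHom
  have : N.Normal := (MonoidHom.normal_ker χ).map _ e.surjective
  set F' := IntermediateField.fixedField N
  have := FiniteDimensional.proper F F'
  have hfix : F'.fixingSubgroup = N := IntermediateField.fixingSubgroup_fixedField N
  set τ : Gal(F'/F) := AlgEquiv.restrictNormalHom F' (e σ)
  have hcoe : ∀ (g : Gal(E/F)) (x : F'), ((AlgEquiv.restrictNormalHom F' g x : F') : E) = g x :=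
    fun g x => AlgEquiv.restrictNormal_commutes g F' x
  have hker : ∀ u : U, AlgEquiv.restrictNormalHom F' (e u) = 1 ↔ u ∈ χ.ker := fun u => by
    rw [← MonoidHom.mem_ker, IntermediateField.restrictNormalHom_ker, hfix]
    exact Subgroup.mem_map_iff_mem e.injective
  have hgen : ∀ t : Gal(F'/F), t ∈ Subgroup.zpowers τ := by
    intro t
    obtain ⟨g, rfl⟩ := restrictHom_surjective (k := F) (Ω := E) F' t
    obtain ⟨u, rfl⟩ := e.surjective g
    obtain ⟨k, hk, hu⟩ := exists_eq_pow_mul hσ u
    rw [hu, map_mul, map_mul, (hker k).2 hk, mul_one, map_pow, map_pow]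
    exact Subgroup.npow_mem_zpowers _ _
  have hcard : Nat.card Gal(F'/F) = p := by
    rw [← orderOf_eq_card_of_forall_mem_zpowers hgen]
    refine orderOf_eq_prime ?_ ?_
    · rw [← map_pow, ← map_pow, hker]
      exact pow_card_mem_ker hσ
    · intro h
      have h' := (hker σ).1 h
      rw [MonoidHom.mem_ker, hσ] at h'
      exact (one_ne_zero : (1 : ZMod p) ≠ 0) h'
  have hfin : Module.finrank F F' = p := by rw [← IsGalois.card_aut_eq_finrank, hcard]
  have hprod : ∀ y : F', ((algebraMap F F' (Algebra.norm F y) : F') : E)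
      = ∏ i ∈ range p, ((σ : Gal(E/K)) ^ i) y := by
    intro y
    rw [Algebra.norm_eq_prod_automorphisms, ← IntermediateField.coe_val, map_prod]
    symm
    refine Finset.prod_bij (fun i _ => τ ^ i) (fun _ _ => Finset.mem_univ _) ?_ ?_ ?_
    · intro a ha b hb hab
      have hord : orderOf τ = p := (orderOf_eq_card_of_forall_mem_zpowers hgen).trans hcard
      refine pow_injOn_Iio_orderOf ?_ ?_ hab <;> rw [hord]
      · simpa using ha
      · simpa using hb
    · intro t _
      obtain ⟨i, hi, hit⟩ := Finset.mem_image.1
        ((isOfFinOrder_of_finite τ).mem_zpowers_iff_mem_range_orderOf.1 (hgen t))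
      rw [(orderOf_eq_card_of_forall_mem_zpowers hgen).trans hcard] at hi
      exact ⟨i, hi, hit⟩
    · intro i _
      rw [IntermediateField.coe_val, ← map_pow, hcoe, ← map_pow, he]
      rfl
  have hidx : (normGroup F F').index = p := by
    rw [normGroup_index F F' τ hgen, hfin]
  have hmap : (normGroup F F').map (fixedUnitsEquiv U) = normSubgroup (A := Eˣ) χ σ := by
    ext z
    constructor
    · rintro ⟨_, ⟨y, rfl⟩, rfl⟩
      refine ⟨Units.map (F'.val : F' →* E) y, fun k hk => Units.ext ?_, Units.ext ?_⟩
      · exact (IntermediateField.mem_fixedField_iff N _).1 (y : F').2 (e k)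
          (Subgroup.mem_map_of_mem _ hk)
      · rw [normPow, Units.coe_prod]
        exact (hprod y).symm
    · rintro ⟨a, ha, hz⟩
      have ha' : (a : E) ∈ F' := (IntermediateField.mem_fixedField_iff N _).2 (by
        rintro _ ⟨k, hk, rfl⟩
        exact congrArg Units.val (ha k hk))
      refine ⟨_, ⟨Units.mk0 (⟨a, ha'⟩ : F') fun h => a.ne_zero (congrArg Subtype.val h), rfl⟩,
        Subtype.ext (Units.ext ?_)⟩
      rw [← hz, normPow, Units.coe_prod]
      exact hprod _
  rw [← hmap, Subgroup.index_map_of_bijective (fixedUnitsEquiv_bijective U), hidx]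

lemma isMulCocycle₁_prod_translates {G A : Type} [Group G] [CommGroup A] [MulDistribMulAction G A]
    {n : ℕ} [NeZero n] (χ : G →* Multiplicative (ZMod n)) {σ : G}
    (hσ : χ σ = Multiplicative.ofAdd 1) {y : A} (hy : ∀ k ∈ χ.ker, k • y = y)
    (hN : normPow σ n y = 1) : IsMulCocycle₁ fun g => ∏ i ∈ range (cval χ g), σ ^ i • y := by
  intro g h
  have := congrFun (delta_prod_translates χ hσ hy 1 hN) (g, h)
  simp only [delta1_apply, carryZ2_apply, OneMemClass.coe_one, one_pow] at this
  rw [div_mul_eq_mul_div, div_eq_one] at this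
  exact this.symm

/-- The class formation axioms for steps of prime order. -/
theorem primeSteps : PrimeSteps p Gal(E/K) Eˣ where
  h1 U χ σ hσ y hy hN := by
    let b : U → Eˣ := fun g => ∏ i ∈ range (cval χ g), σ ^ i • y
    have hδ : IsMulCocycle₁ b := isMulCocycle₁_prod_translates χ hσ hy hN
    obtain ⟨z, hz⟩ := h1Triv_subgroup (k := K) U b hδ
    refine ⟨z, fun k hk => ?_, ?_⟩
    · have := hz k
      rw [show b k = 1 by simp [b, (cval_eq_zero_iff χ k).2 hk], div_eq_one] at this
      exact this
    · rw [hz σ]
      have h1 : cval χ σ = 1 := by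
        simpa using cval_pow_lt χ hσ (i := 1) hp.out.one_lt
      simp [b, h1]
  index U χ σ hσ := (normSubgroup_index U χ σ hσ).dvd

end Fermat.Agent.CFT.Local
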