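import Fermat.Agent.CFT.Local.Tower

/-!
The Brauer group of a local field: every class is unramified, the `n`-torsion is cyclic of order
`n`, restriction to a finite extension `L/K` is surjective with kernel the `[L : K]`-torsion.
-/

set_option autoImplicit false
set_option linter.unusedSectionVars false

noncomputable section

namespace Fermat.Agent.CFT.Local

lemma grp_zpow_zpow {G : Type} [Group G] (a : G) (m n : ℤ) : (a ^ m) ^ n = a ^ (m * n) :=
  (zpow_mul a m n).symm

open Fermat.Agent.CFT.Class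

variable (K Ω : Type) [NontriviallyNormedField K] [IsUltrametricDist K] [ProperSpace K]
  [NontriviallyNormedField Ω] [IsUltrametricDist Ω] [NormedAlgebra K Ω] [IsAlgClosed Ω]
  [IsGalois K Ω]

/-- The unramified class of invariant `1/n`. -/
def unrGen (n : ℕ) [NeZero n] : Br K Ω :=
  unrBr K Ω n (Units.mk0 (unif K) (unif_ne_zero K))

lemma ord_zpow_unifUnit (j : ℤ) :
    ord ((Units.mk0 (unif K) (unif_ne_zero K) ^ j : Kˣ) : K) = j := by
  rw [Units.val_zpow_eq_zpow_val, Units.val_mk0, ord_zpow_unif]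

lemma unrGen_zpow (n : ℕ) [NeZero n] (j : ℤ) :
    unrGen K Ω n ^ j = unrBr K Ω n (Units.mk0 (unif K) (unif_ne_zero K) ^ j) :=
  (map_zpow (unrBr K Ω n) _ j).symm

lemma unrBr_eq_zpow (n : ℕ) [NeZero n] (a : Kˣ) :
    unrBr K Ω n a = unrGen K Ω n ^ ord (a : K) := by
  rw [unrGen_zpow, ← div_eq_one]
  refine (map_div (unrBr K Ω n) _ _).symm.trans (unrBr_eq_one_of_dvd ?_)
  have : ordHom K (a / Units.mk0 (unif K) (unif_ne_zero K) ^ ord (a : K)) = 1 := by
    rw [map_div, div_eq_one]
    show Multiplicative.ofAdd (ord (a : K)) = Multiplicative.ofAdd (ord _)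
    rw [ord_zpow_unifUnit]
  rw [show ord ((a / Units.mk0 (unif K) (unif_ne_zero K) ^ ord (a : K) : Kˣ) : K) = 0 from this]
  exact dvd_zero _

lemma unrGen_zpow_eq_one_iff (n : ℕ) [NeZero n] (j : ℤ) : unrGen K Ω n ^ j = 1 ↔ (n : ℤ) ∣ j := by
  rw [unrGen_zpow]
  conv_rhs => rw [← ord_zpow_unifUnit K j]
  exact ⟨dvd_ord_of_unrBr_eq_one, unrBr_eq_one_of_dvd⟩

lemma orderOf_unrGen (n : ℕ) [NeZero n] : orderOf (unrGen K Ω n) = n := by
  refine (orderOf_eq_iff (NeZero.pos n)).2 ⟨?_, fun m hm hm0 h => ?_⟩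
  · rw [← zpow_natCast, unrGen_zpow_eq_one_iff]
  · rw [← zpow_natCast, unrGen_zpow_eq_one_iff, Int.natCast_dvd_natCast] at h
    exact absurd (Nat.le_of_dvd hm0 h) (not_le.2 hm)

lemma unrGen_eq_pow (n d : ℕ) [NeZero n] [NeZero (n * d)] :
    unrGen K Ω n = unrGen K Ω (n * d) ^ d := by
  rw [unrGen, unrBr_mul d, map_pow]
  rfl

variable (E : IntermediateField K Ω) [FiniteDimensional K E]

instance instProperIntField : ProperSpace E := FiniteDimensional.proper K E

variable [IsGalois K E]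

lemma resBr_inflBr (y : H2M Gal(E/K) Eˣ) : resBr K Ω E (inflBr E y) = 1 := by
  induction y using QuotientGroup.induction_on with | H f => ?_
  rw [show (QuotientGroup.mk f : H2M _ _) = cls f from rfl, inflBr_cls, resBr_brCls, brCls_eq_one_iff]
  set c := unitIncl E ((f : Gal(E/K) × Gal(E/K) → Eˣ) (1, 1))
  refine ⟨fun _ => c, isSm1_const _, funext fun p => ?_⟩
  obtain ⟨g, h⟩ := p
  have hr : ∀ u : Gal(Ω/E), AlgEquiv.restrictNormalHom E (galRes K Ω E u) = 1 := fun u =>
    (restrict_eq_one_iff E _).2 ((IntermediateField.mem_fixingSubgroup_iff _ _).2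
      fun x hx => u.commutes ⟨x, hx⟩)
  show g • c / c * c = unitIncl E ((f : Gal(E/K) × Gal(E/K) → Eˣ)
    (AlgEquiv.restrictNormalHom E (galRes K Ω E g), AlgEquiv.restrictNormalHom E (galRes K Ω E h)))
  rw [div_mul_cancel, hr, hr]
  exact Units.ext (g.commutes (((f : Gal(E/K) × Gal(E/K) → Eˣ) (1, 1) : Eˣ) : E))

set_option maxHeartbeats 400000 in
/-- A class killed by `E` is inflated from `E`. -/
theorem exists_inflBr_of_resBr {x : Br K Ω} (hx : resBr K Ω E x = 1) : ∃ y, inflBr E y = x := by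
  induction x using QuotientGroup.induction_on with | H f => ?_
  rw [show (QuotientGroup.mk f : Br K Ω) = brCls f from rfl, resBr_brCls, brCls_eq_one_iff] at hx
  obtain ⟨b, ⟨N', hN', hNc⟩, hb⟩ := hx
  have : FiniteDimensional K (N'.restrictScalars K) := Module.Finite.trans (R := K) E N'
  obtain ⟨N₁, hN₁, hN₁n, hle₁, -⟩ := exists_level (E ⊔ N'.restrictScalars K) ∅ Set.finite_empty
  let e := IntermediateField.fixingSubgroupEquiv E
  have hb' : ∀ u v : Gal(Ω/E),
      AlgEquiv.restrictNormalHom N₁ (galRes K Ω E u) = AlgEquiv.restrictNormalHom N₁ (galRes K Ω E v) →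
        b u = b v := by
    intro u v h
    have : galRes K Ω E (u⁻¹ * v) ∈ N₁.fixingSubgroup := by
      rw [← restrict_eq_one_iff, map_mul, map_mul, map_inv, map_inv, h, inv_mul_cancel]
    have h2 : u⁻¹ * v ∈ N'.fixingSubgroup := by
      rw [IntermediateField.mem_fixingSubgroup_iff] at this ⊢
      intro z hz
      exact this z (le_sup_right.trans hle₁ (show z ∈ N'.restrictScalars K from hz))
    have := hNc u _ h2
    rw [mul_inv_cancel_left] at this
    exact this.symm
  classical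
  choose s₁ hs₁ using restrictHom_surjective N₁
  let t : Gal(N₁/K) → Gal(Ω/E) := fun a =>
    if h : s₁ a ∈ E.fixingSubgroup then e ⟨s₁ a, h⟩ else 1
  set S := Set.range fun a => ((b (t a) : Ωˣ) : Ω)
  have hval : ∀ u : Gal(Ω/E), ((b u : Ωˣ) : Ω) ∈ S := fun u => by
    refine ⟨AlgEquiv.restrictNormalHom N₁ (galRes K Ω E u), congrArg Units.val (hb' _ _ ?_)⟩
    have hmem : s₁ (AlgEquiv.restrictNormalHom N₁ (galRes K Ω E u)) ∈ E.fixingSubgroup := by
      rw [IntermediateField.mem_fixingSubgroup_iff]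
      intro z hz
      have h1 := coe_restrict N₁ (s₁ (AlgEquiv.restrictNormalHom N₁ (galRes K Ω E u)))
        ⟨z, le_sup_left.trans hle₁ hz⟩
      rw [hs₁, coe_restrict, galRes_apply] at h1
      exact h1.symm.trans (u.commutes ⟨z, hz⟩)
    simp only [t, dif_pos hmem]
    exact hs₁ _
  obtain ⟨N₂, hN₂, hN₂n, hle₂, hSN⟩ := exists_level N₁ S (Set.finite_range _)
  obtain ⟨M, hM, hMn, hle, f', hf'⟩ := exists_inflated_eq f N₂
  have hEM : E ≤ M := le_sup_left.trans (hle₁.trans (hle₂.trans hle))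
  set U : Subgroup Gal(M/K) := E.fixingSubgroup.map (AlgEquiv.restrictNormalHom M)
  have hEn : E.fixingSubgroup.Normal := by
    rw [← IntermediateField.restrictNormalHom_ker]; exact MonoidHom.normal_ker _
  have : U.Normal := hEn.map _ (restrictHom_surjective M)
  have hlift : ∀ u : U, ∃ g : Gal(Ω/E), AlgEquiv.restrictNormalHom M (galRes K Ω E g) = u := fun u => by
    obtain ⟨g, hg, hgu⟩ := u.2
    exact ⟨e ⟨g, hg⟩, hgu⟩
  choose l hl using hlift
  let β : U → Mˣ := fun u => Units.mk0 ⟨_, hle (hSN (hval (l u)))⟩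
    fun h => (b (l u)).ne_zero (congrArg Subtype.val h)
  have hres : resH2 U (cls f') = 1 := by
    refine (cls_eq_one_iff _).2 ⟨β, funext fun p => unitIncl_injective M ?_⟩
    obtain ⟨u, v⟩ := p
    have hmul : b (l (u * v)) = b (l u * l v) := hb' _ _ (by
      have h1 : AlgEquiv.restrictNormalHom M (galRes K Ω E (l (u * v)))
          = AlgEquiv.restrictNormalHom M (galRes K Ω E (l u * l v)) := by
        rw [map_mul, map_mul, hl, hl, hl]; rfl
      refine AlgEquiv.ext fun z => Subtype.ext ?_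
      have := congrArg (fun σ : Gal(M/K) => (σ ⟨z, hle (hle₂ z.2)⟩ : Ω)) h1
      simp only [coe_restrict] at this ⊢
      exact this)
    have h2 := congrFun hb (l u, l v)
    rw [← hf'] at h2
    simp only [delta1_apply] at h2
    have hk : ∀ w, unitIncl M (β w) = b (l w) := fun w => Units.ext rfl
    simp only [delta1_apply, map_mul, map_div, hk]
    have hs : unitIncl M (u • β v) = l u • b (l v) := by
      show unitIncl M ((u : Gal(M/K)) • β v) = _
      rw [← hl u, unitIncl_smul, hk]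
      rfl
    rw [hs, hmul]
    convert h2.trans ?_ using 2
    show unitIncl M ((f' : Gal(M/K) × Gal(M/K) → Mˣ) (AlgEquiv.restrictNormalHom M (galRes K Ω E (l u)),
      AlgEquiv.restrictNormalHom M (galRes K Ω E (l v)))) = _
    rw [hl, hl]
    rfl
  obtain ⟨d, hd, hdI, -, -⟩ := exists_inflated (h1Triv_subgroup (k := K) U).kill (cls f') hres
  rw [pow_one] at hd
  obtain ⟨d', hd'⟩ := exists_deflate E (inflSm M d : Z2 Gal(Ω/K) Ωˣ)
    (fun g h s hs t ht => by
      rw [inflSm_apply, inflSm_apply, map_mul, map_mul,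
        hdI.left _ _ _ ⟨s, hs, rfl⟩, hdI.right _ _ _ ⟨t, ht, rfl⟩])
    (fun g h => by
      rw [← InfiniteGalois.fixedField_fixingSubgroup (k := K) (K := Ω) E,
        IntermediateField.mem_fixedField_iff]
      intro u hu
      rw [inflSm_apply, coe_unitIncl, ← coe_restrict M u]
      exact congrArg (fun z : Mˣ => ((z : M) : Ω)) (hdI.fixed _ _ _ ⟨u, hu, rfl⟩))
  refine ⟨cls d', ?_⟩
  rw [inflBr_cls, show inflSm E d' = inflSm M d from Subtype.ext hd', ← inflBr_cls, hd, inflBr_cls, hf']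

lemma pow_card_eq_one (y : H2M Gal(E/K) Eˣ) : y ^ Module.finrank K E = 1 := by
  rw [← IsGalois.card_aut_eq_finrank, ← Subgroup.index_bot]
  refine pow_index_eq_one ⊥ y ?_
  induction y using QuotientGroup.induction_on with | H f => ?_
  refine (cls_eq_one_iff _).2 ⟨fun _ => (f : Gal(E/K) × Gal(E/K) → Eˣ) (1, 1), funext fun p => ?_⟩
  obtain ⟨u, v⟩ := p
  rw [Subsingleton.elim u 1, Subsingleton.elim v 1]
  simp only [delta1_apply, one_smul, div_mul_cancel]
  rfl

lemma resBr_unrGen_finrank [NeZero (Module.finrank K E)] :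
    resBr K Ω E (unrGen K Ω (Module.finrank K E)) = 1 := by
  have h := resBr_unrBr_unif K Ω E (n := Module.finrank K E) 1
  rw [zpow_one, mul_one] at h
  rw [unrGen, h]
  exact unrBr_eq_one_of_dvd (by rw [ord_zpow_unifUnit])

/-- The classes killed by `E` form the cyclic group of the class of invariant `1/[E : K]`. -/
theorem mem_zpowers_of_resBr {x : Br K Ω} [NeZero (Module.finrank K E)] (hx : resBr K Ω E x = 1) :
    x ∈ Subgroup.zpowers (unrGen K Ω (Module.finrank K E)) := by
  classical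
  set n := Module.finrank K E
  obtain ⟨y, rfl⟩ := exists_inflBr_of_resBr K Ω E hx
  obtain ⟨u, hu⟩ := exists_inflBr_of_resBr K Ω E (resBr_unrGen_finrank K Ω E)
  rw [← hu]
  suffices h : y ∈ Subgroup.zpowers u by
    obtain ⟨i, rfl⟩ := h
    exact ⟨i, (map_zpow (inflBr E) u i).symm⟩
  have hord : orderOf u = n := by
    rw [← orderOf_injective _ (inflBr_injective E) u, hu, orderOf_unrGen]
  have hpp : ∀ p, p.Prime → y ^ (n / p ^ n.factorization p) ∈ Subgroup.zpowers u := by
    intro p hp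
    have := Fact.mk hp
    have hcard : Nat.card (pPart p (H2M Gal(E/K) Eˣ)) ∣ p ^ n.factorization p := by
      have := (primeSteps (K := K) (E := E) (p := p)).card_pPart_dvd
      rwa [IsGalois.card_aut_eq_finrank] at this
    have : Finite (pPart p (H2M Gal(E/K) Eˣ)) := Nat.finite_of_card_ne_zero fun h0 => by
      rw [h0] at hcard
      exact pow_ne_zero _ hp.ne_zero (Nat.eq_zero_of_zero_dvd hcard)
    have hdvd : p ^ n.factorization p ∣ n := Nat.ordProj_dvd n p
    set m := n / p ^ n.factorization p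
    have hm : m * p ^ n.factorization p = n := Nat.div_mul_cancel hdvd
    have hyP : y ^ m ∈ pPart p (H2M Gal(E/K) Eˣ) :=
      ⟨n.factorization p, by rw [← pow_mul, hm]; exact pow_card_eq_one K Ω E y⟩
    have huP : u ^ m ∈ pPart p (H2M Gal(E/K) Eˣ) :=
      ⟨n.factorization p, by rw [← pow_mul, hm]; exact pow_card_eq_one K Ω E u⟩
    have horder : orderOf (⟨u ^ m, huP⟩ : pPart p (H2M Gal(E/K) Eˣ)) = p ^ n.factorization p := by
      rw [← Subgroup.orderOf_coe, orderOf_pow' u (fun h => by rw [h, zero_mul] at hm; exact NeZero.ne n hm.symm),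
        hord, Nat.gcd_eq_right (Dvd.intro _ hm)]
      exact Nat.div_eq_of_eq_mul_right (Nat.pos_of_ne_zero fun h => by
        rw [h, zero_mul] at hm; exact NeZero.ne n hm.symm) hm.symm
    have hle : Nat.card (pPart p (H2M Gal(E/K) Eˣ))
        ≤ Nat.card (Subgroup.zpowers (⟨u ^ m, huP⟩ : pPart p (H2M Gal(E/K) Eˣ))) := by
      rw [Nat.card_zpowers, horder]
      exact Nat.le_of_dvd (pow_pos hp.pos _) hcard
    have htop := Subgroup.eq_top_of_le_card _ hle
    obtain ⟨i, hi⟩ := Subgroup.mem_zpowers_iff.1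
      (htop.ge (Subgroup.mem_top (⟨y ^ m, hyP⟩ : pPart p (H2M Gal(E/K) Eˣ))))
    refine ⟨(m : ℤ) * i, ?_⟩
    have := congrArg Subtype.val hi
    simp only [SubgroupClass.coe_zpow] at this
    show u ^ ((m : ℤ) * i) = y ^ m
    exact (zpow_mul u (m : ℤ) i).trans ((congrArg (· ^ i) (zpow_natCast u m)).trans this)
  -- the exponents sending `y` into the subgroup
  let I : AddSubgroup ℤ :=
    { carrier := {k | y ^ k ∈ Subgroup.zpowers u}
      zero_mem' := by simp
      add_mem' := fun {a b} ha hb => by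
        show y ^ (a + b) ∈ Subgroup.zpowers u
        rw [zpow_add]; exact mul_mem ha hb
      neg_mem' := fun {a} ha => by
        show y ^ (-a) ∈ Subgroup.zpowers u
        exact (congrArg (· ∈ Subgroup.zpowers u) (zpow_neg y a)).mpr (inv_mem ha) }
  obtain ⟨d, hd⟩ := Int.subgroup_cyclic I
  have hmem : ∀ k : ℤ, k ∈ I ↔ d ∣ k := fun k => by
    rw [hd, ← AddSubgroup.zmultiples_eq_closure, Int.mem_zmultiples_iff]
  have hn : (n : ℤ) ∈ I := show y ^ (n : ℤ) ∈ Subgroup.zpowers u by
    rw [zpow_natCast, pow_card_eq_one K Ω E y]; exact one_mem _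
  have hd1 : d.natAbs = 1 := by
    by_contra h1
    obtain ⟨p, hp, hpd⟩ := Nat.exists_prime_and_dvd h1
    have h2 : ((n / p ^ n.factorization p : ℕ) : ℤ) ∈ I :=
      show y ^ ((n / p ^ n.factorization p : ℕ) : ℤ) ∈ Subgroup.zpowers u by
      rw [zpow_natCast]; exact hpp p hp
    rw [hmem] at h2
    exact Nat.not_dvd_ordCompl hp (NeZero.ne n) (hpd.trans (Int.natAbs_dvd_natAbs.2 h2 |>.trans
      (by rw [Int.natAbs_natCast])))
  have : (1 : ℤ) ∈ I := (hmem 1).2 (Int.natAbs_dvd_natAbs.1 (by simp [hd1]))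
  simpa [I] using this

/-- Every class is a power of an unramified one. -/
theorem exists_eq_unrGen_zpow (x : Br K Ω) :
    ∃ (n : ℕ) (_ : NeZero n) (j : ℤ), x = unrGen K Ω n ^ j := by
  obtain ⟨M, hM, hMn, -, y, rfl⟩ := exists_inflBr_eq x (⊥ : IntermediateField K Ω)
  have : IsGalois K M := IsGalois.mk
  have : NeZero (Module.finrank K M) := ⟨Module.finrank_pos.ne'⟩
  obtain ⟨j, hj⟩ := mem_zpowers_of_resBr K Ω M (resBr_inflBr K Ω M y)
  exact ⟨_, this, j, hj.symm⟩

/-- The `n`-torsion of the Brauer group is cyclic, generated by the class of invariant `1/n`. -/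
theorem mem_zpowers_of_pow_eq_one {n : ℕ} [NeZero n] {x : Br K Ω} (hx : x ^ n = 1) :
    x ∈ Subgroup.zpowers (unrGen K Ω n) := by
  obtain ⟨N, hN, j, rfl⟩ := exists_eq_unrGen_zpow K Ω x
  rw [← zpow_natCast, grp_zpow_zpow] at hx
  rw [unrGen_zpow_eq_one_iff] at hx
  obtain ⟨i, hi⟩ := hx
  have : NeZero (N * n) := ⟨mul_ne_zero (NeZero.ne N) (NeZero.ne n)⟩
  have : NeZero (n * N) := ⟨mul_ne_zero (NeZero.ne n) (NeZero.ne N)⟩
  refine ⟨i, ?_⟩
  show unrGen K Ω n ^ i = _
  rw [unrGen_eq_pow K Ω n N, unrGen_eq_pow K Ω N n, ← zpow_natCast, ← zpow_natCast]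
  rw [grp_zpow_zpow, grp_zpow_zpow]
  rw [mul_comm ((n : ℤ)) j, hi]
  congr 2
  exact mul_comm n N

variable (L : Type) [NontriviallyNormedField L] [IsUltrametricDist L] [ProperSpace L]
  [NormedAlgebra K L] [FiniteDimensional K L] [NormedAlgebra L Ω] [IsScalarTower K L Ω]
  [IsGalois L Ω]

/-- Restriction multiplies the invariant by the degree. -/
theorem resBr_unrGen_zpow (n : ℕ) [NeZero n] (j : ℤ) :
    resBr K Ω L (unrGen K Ω n ^ j) = unrGen L Ω n ^ ((Module.finrank K L : ℤ) * j) := by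
  rw [unrGen_zpow, resBr_unrBr_unif, unrGen_zpow]

/-- Restriction kills exactly the `[L : K]`-torsion. -/
theorem resBr_eq_one_iff (x : Br K Ω) : resBr K Ω L x = 1 ↔ x ^ Module.finrank K L = 1 := by
  obtain ⟨n, hn, j, rfl⟩ := exists_eq_unrGen_zpow K Ω x
  rw [resBr_unrGen_zpow, unrGen_zpow_eq_one_iff, ← zpow_natCast,
    grp_zpow_zpow, unrGen_zpow_eq_one_iff, mul_comm]

/-- Restriction is surjective. -/
theorem resBr_surjective : Function.Surjective (resBr K Ω L) := by
  intro x
  obtain ⟨n, hn, j, rfl⟩ := exists_eq_unrGen_zpow L Ω x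
  have : NeZero (n * Module.finrank K L) := ⟨mul_ne_zero (NeZero.ne n) Module.finrank_pos.ne'⟩
  refine ⟨unrGen K Ω (n * Module.finrank K L) ^ j, ?_⟩
  rw [resBr_unrGen_zpow, unrGen_eq_pow L Ω n (Module.finrank K L), ← zpow_natCast]
  rw [grp_zpow_zpow]

end Fermat.Agent.CFT.Local
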