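import Mathlib.Analysis.Normed.Module.FiniteDimension
import Mathlib.LinearAlgebra.Dimension.Free
import Mathlib.RingTheory.Finiteness.Cardinality
import Mathlib.Topology.MetricSpace.Ultra.Pi
import Fermat.Agent.CFT.Local.CyclicNorm
import Fermat.Agent.CFT.Local.Residue

/-!
`e f = [L : K]` for an arbitrary finite extension of local fields, `f` being read off the orders
of the residue fields.
-/

set_option autoImplicit false
set_option linter.unusedSectionVars false

namespace Fermat.Agent.CFT.Local

open IsLocalRing Metric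

variable (K : Type) [NontriviallyNormedField K] [IsUltrametricDist K] [ProperSpace K]

/-- The closed unit ball as an additive subgroup. -/
def ballGrp : AddSubgroup K where
  carrier := {x | ‖x‖ ≤ 1}
  zero_mem' := by simp
  add_mem' {a b} ha hb := (IsUltrametricDist.norm_add_le_max a b).trans (max_le ha hb)
  neg_mem' {a} ha := by simpa using ha

variable {K}

omit [ProperSpace K] in
lemma mem_ballGrp {x : K} : x ∈ ballGrp K ↔ ‖x‖ ≤ 1 := Iff.rfl

omit [ProperSpace K] in
lemma mem_map_mulLeft {M : AddSubgroup K} {c x : K} (hc : c ≠ 0) :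
    x ∈ M.map (AddMonoidHom.mulLeft c) ↔ c⁻¹ * x ∈ M := by
  constructor
  · rintro ⟨y, hy, rfl⟩
    simpa [← mul_assoc, inv_mul_cancel₀ hc] using hy
  · intro h
    exact ⟨_, h, by simp [← mul_assoc, mul_inv_cancel₀ hc]⟩

omit [IsUltrametricDist K] [ProperSpace K] in
lemma mulLeft_injective' {c : K} (hc : c ≠ 0) : Function.Injective (AddMonoidHom.mulLeft c) :=
  fun _ _ h => mul_left_cancel₀ hc h

variable (K)

lemma relIndex_unif_ballGrp :
    ((ballGrp K).map (AddMonoidHom.mulLeft (unif K))).relIndex (ballGrp K) = resCard K := by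
  let φ : ballGrp K →+ ResidueField (intRing K) :=
    { toFun := fun x => residue (intRing K) ⟨(x : K), x.2⟩
      map_zero' := map_zero (residue (intRing K))
      map_add' := fun x y => map_add (residue (intRing K)) ⟨(x : K), x.2⟩ ⟨(y : K), y.2⟩ }
  have hsurj : Function.Surjective φ := fun q => by
    obtain ⟨y, rfl⟩ := residue_surjective q
    exact ⟨⟨y, y.2⟩, rfl⟩
  have hker : φ.ker = (AddMonoidHom.mulLeft (unif K) |> (ballGrp K).map).addSubgroupOf (ballGrp K) := by
    ext x
    rw [AddMonoidHom.mem_ker, AddSubgroup.mem_addSubgroupOf, mem_map_mulLeft (unif_ne_zero K)]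
    refine (residue_intRing_eq_zero_iff _).trans ?_
    rw [mem_ballGrp, norm_mul, norm_inv, inv_mul_le_one₀ (norm_unif_pos K)]
    exact ⟨fun h => norm_le_unif h, fun h => h.trans_lt (norm_unif_lt_one K)⟩
  rw [AddSubgroup.relIndex, ← hker, AddSubgroup.index_ker,
    AddMonoidHom.range_eq_top.2 hsurj]
  exact Nat.card_congr (AddSubgroup.topEquiv (G := ResidueField (intRing K))).toEquiv

lemma relIndex_pow_unif_ballGrp (j : ℕ) :
    ((ballGrp K).map (AddMonoidHom.mulLeft (unif K ^ j))).relIndex (ballGrp K) = resCard K ^ j := by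
  induction j with
  | zero =>
    rw [pow_zero, show AddMonoidHom.mulLeft (1 : K) = AddMonoidHom.id K by ext; simp,
      AddSubgroup.map_id, AddSubgroup.relIndex_self, pow_zero]
  | succ j ih =>
    have hmul : AddMonoidHom.mulLeft (unif K ^ (j + 1))
        = (AddMonoidHom.mulLeft (unif K)).comp (AddMonoidHom.mulLeft (unif K ^ j)) := by
      ext x; simp [pow_succ', mul_assoc]
    have hle1 : ∀ {c : K}, ‖c‖ ≤ 1 → (ballGrp K).map (AddMonoidHom.mulLeft c) ≤ ballGrp K := by
      rintro c hc _ ⟨y, hy, rfl⟩
      exact (norm_mul_le _ _).trans (mul_le_one₀ hc (norm_nonneg _) hy)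
    rw [hmul, ← AddSubgroup.map_map, ← AddSubgroup.relIndex_mul_relIndex _ _ _
      (AddSubgroup.map_mono (hle1 (by rw [norm_pow]; exact pow_le_one₀ (norm_nonneg _) (norm_unif_lt_one K).le)))
      (hle1 (norm_unif_lt_one K).le),
      AddSubgroup.relIndex_map_map_of_injective _ _ (mulLeft_injective' (unif_ne_zero K)), ih,
      relIndex_unif_ballGrp, pow_succ]

variable (L : Type) [NontriviallyNormedField L] [IsUltrametricDist L] [ProperSpace L]
  [NormedAlgebra K L] [FiniteDimensional K L]

/-- The residue degree, defined by the residue fields. -/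
theorem exists_resCard_eq_pow : ∃ f : ℕ, 0 < f ∧ resCard L = resCard K ^ f := by
  let := (resMap K L).toAlgebra
  have : Module.Finite (ResidueField (intRing K)) (ResidueField (intRing L)) :=
    Module.Finite.of_finite
  exact ⟨_, Module.finrank_pos, Module.natCard_eq_pow_finrank⟩

/-- The residue degree. -/
noncomputable def inertiaDeg : ℕ := (exists_resCard_eq_pow K L).choose

lemma inertiaDeg_pos : 0 < inertiaDeg K L := (exists_resCard_eq_pow K L).choose_spec.1

lemma resCard_eq_pow : resCard L = resCard K ^ inertiaDeg K L :=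
  (exists_resCard_eq_pow K L).choose_spec.2

/-- `e f = [L : K]`. -/
theorem ramIdx_mul_inertiaDeg : ramIdx K L * inertiaDeg K L = Module.finrank K L := by
  classical
  set n := Module.finrank K L
  let b : L ≃L[K] (Fin n → K) := (Module.finBasis K L).equivFun.toContinuousLinearEquiv
  -- a lattice inside the unit ball of `L`
  obtain ⟨t, ht0, ht⟩ : ∃ t : K, t ≠ 0 ∧ ∀ y : Fin n → K, ‖y‖ ≤ 1 → ‖b.symm (t • y)‖ ≤ 1 := by
    set B := ‖(b.symm : (Fin n → K) →L[K] L)‖
    obtain ⟨k, hk⟩ := exists_pow_lt_of_lt_one (inv_pos.2 (by positivity : (0 : ℝ) < B + 1))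
      (norm_unif_lt_one K)
    refine ⟨unif K ^ k, pow_ne_zero _ (unif_ne_zero K), fun y hy => ?_⟩
    refine ((b.symm : (Fin n → K) →L[K] L).le_opNorm _).trans ?_
    calc B * ‖unif K ^ k • y‖ ≤ B * ‖unif K ^ k‖ := by
          rw [norm_smul]
          exact mul_le_mul_of_nonneg_left (mul_le_of_le_one_right (norm_nonneg _) hy) (norm_nonneg _)
      _ ≤ (B + 1) * (B + 1)⁻¹ := mul_le_mul (le_add_of_nonneg_right zero_le_one)
          (by rw [norm_pow]; exact hk.le) (norm_nonneg _) (by positivity)
      _ = 1 := mul_inv_cancel₀ (by positivity)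
  let g : L →+ (Fin n → K) :=
    { toFun := fun x => t⁻¹ • b x
      map_zero' := by simp
      map_add' := fun x y => by simp }
  let M : AddSubgroup L :=
    { carrier := {x | ‖g x‖ ≤ 1}
      zero_mem' := by simp
      add_mem' := fun {x y} hx hy => by
        show ‖g (x + y)‖ ≤ 1
        rw [map_add]; exact (IsUltrametricDist.norm_add_le_max _ _).trans (max_le hx hy)
      neg_mem' := fun {x} hx => by
        show ‖g (-x)‖ ≤ 1
        rw [map_neg, norm_neg]; exact hx }
  have hMle : M ≤ ballGrp L := fun x hx => by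
    have := ht (g x) hx
    rw [mem_ballGrp]
    simpa [g, smul_smul, mul_inv_cancel₀ ht0] using this
  set π := algebraMap K L (unif K) with hπ
  have hπ0 : π ≠ 0 := by simpa [hπ] using unif_ne_zero K
  have hπn : ‖π‖ < 1 := by rw [hπ, norm_algebraMap']; exact norm_unif_lt_one K
  have hgπ : ∀ x, g (π * x) = unif K • g x := fun x => by
    show t⁻¹ • b (π * x) = unif K • t⁻¹ • b x
    rw [hπ, ← Algebra.smul_def, map_smul, smul_comm]
  have hgπ' : ∀ x, g (π⁻¹ * x) = (unif K)⁻¹ • g x := fun x => by
    have := hgπ (π⁻¹ * x)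
    rw [← mul_assoc, mul_inv_cancel₀ hπ0, one_mul] at this
    rw [this, smul_smul, inv_mul_cancel₀ (unif_ne_zero K), one_smul]
  have hM0 : M.relIndex (ballGrp L) ≠ 0 := by
    obtain ⟨δ, hδ, hball⟩ : ∃ δ > 0, ∀ z : L, ‖z‖ < δ → z ∈ M := by
      obtain ⟨δ, hδ, h⟩ := Metric.continuousAt_iff.1
        ((b.continuous.const_smul t⁻¹).continuousAt (x := 0)) 1 one_pos
      refine ⟨δ, hδ, fun z hz => ?_⟩
      have := h (x := z) (by simpa using hz)
      show ‖g z‖ ≤ 1
      refine le_of_lt ?_
      simpa [g, dist_zero_right] using this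
    obtain ⟨s, hs, hsf, hcov⟩ :=
      finite_approx_of_totallyBounded (isCompact_closedBall (0 : L) 1).totallyBounded δ hδ
    have := hsf.to_subtype
    have : Finite (ballGrp L ⧸ M.addSubgroupOf (ballGrp L)) := Finite.of_surjective
      (fun c : s => QuotientAddGroup.mk (⟨c, mem_closedBall_zero_iff.1 (hs c.2)⟩ : ballGrp L))
      fun q => by
        induction q using QuotientAddGroup.induction_on with
        | H u =>
          have := hcov (mem_closedBall_zero_iff.2 u.2)
          simp only [Set.mem_iUnion, mem_ball, dist_eq_norm] at this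
          obtain ⟨c, hc, hlt⟩ := this
          refine ⟨⟨c, hc⟩, QuotientAddGroup.eq.2 ?_⟩
          rw [AddSubgroup.mem_addSubgroupOf]
          refine hball _ ?_
          simpa [neg_add_eq_sub, norm_sub_rev] using hlt
    exact AddSubgroup.finiteIndex_of_finite_quotient.index_ne_zero
  -- two computations of `[ballGrp : π M]`
  set μ := AddMonoidHom.mulLeft π
  have hμ : Function.Injective μ := mulLeft_injective' hπ0
  have hμB : (ballGrp L).map μ ≤ ballGrp L := by
    rintro _ ⟨y, hy, rfl⟩
    exact (norm_mul_le _ _).trans (mul_le_one₀ hπn.le (norm_nonneg _) hy)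
  have hμM : M.map μ ≤ M := by
    rintro _ ⟨y, hy, rfl⟩
    show ‖g (π * y)‖ ≤ 1
    rw [hgπ, norm_smul]
    exact mul_le_one₀ (norm_unif_lt_one K).le (norm_nonneg _) hy
  have h1 : (M.map μ).relIndex (ballGrp L)
      = M.relIndex (ballGrp L) * ((ballGrp L).map μ).relIndex (ballGrp L) := by
    rw [← AddSubgroup.relIndex_mul_relIndex _ _ _ (AddSubgroup.map_mono hMle) hμB,
      AddSubgroup.relIndex_map_map_of_injective _ _ hμ]
  have h2 : (M.map μ).relIndex (ballGrp L) = (M.map μ).relIndex M * M.relIndex (ballGrp L) :=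
    (AddSubgroup.relIndex_mul_relIndex _ _ _ hμM hMle).symm
  have hM : (M.map μ).relIndex M = resCard K ^ n := by
    let φ : M →+ (Fin n → ResidueField (intRing K)) :=
      { toFun := fun x i => residue (intRing K) ⟨g x i, (norm_le_pi_norm _ i).trans x.2⟩
        map_zero' := funext fun i => by
          refine (residue_intRing_eq_zero_iff _).2 ?_
          simp
        map_add' := fun x y => funext fun i => by
          refine Eq.trans ?_ (map_add (residue (intRing K)) _ _)
          congr 1
          exact Subtype.ext (by simp) }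
    have hsurj : Function.Surjective φ := fun q => by
      choose y hy using fun i => residue_surjective (q i)
      have hgy : g (b.symm (t • fun i => (y i : K))) = fun i => (y i : K) := by
        simp [g, smul_smul, inv_mul_cancel₀ ht0]
      refine ⟨⟨b.symm (t • fun i => (y i : K)), ?_⟩, funext fun i => ?_⟩
      · show ‖g _‖ ≤ 1
        rw [hgy]
        exact (pi_norm_le_iff_of_nonneg zero_le_one).2 fun i => (y i).2
      · refine Eq.trans ?_ (hy i)
        show residue (intRing K) _ = _
        congr 1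
        exact Subtype.ext (congrFun hgy i)
    have hker : φ.ker = (M.map μ).addSubgroupOf M := by
      ext x
      rw [AddMonoidHom.mem_ker, AddSubgroup.mem_addSubgroupOf, mem_map_mulLeft hπ0, funext_iff]
      show (∀ i, residue (intRing K) _ = 0) ↔ ‖g (π⁻¹ * (x : L))‖ ≤ 1
      rw [hgπ', norm_smul, norm_inv, inv_mul_le_one₀ (norm_unif_pos K),
        pi_norm_le_iff_of_nonneg (norm_nonneg _)]
      refine forall_congr' fun i => (residue_intRing_eq_zero_iff _).trans ?_
      exact ⟨fun h => norm_le_unif h, fun h => h.trans_lt (norm_unif_lt_one K)⟩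
    rw [AddSubgroup.relIndex, ← hker, AddSubgroup.index_ker, AddMonoidHom.range_eq_top.2 hsurj,
      Nat.card_congr (AddSubgroup.topEquiv (G := Fin n → ResidueField (intRing K))).toEquiv,
      Nat.card_fun, Nat.card_fin, resCard]
  have hB : ((ballGrp L).map μ).relIndex (ballGrp L) = resCard L ^ ramIdx K L := by
    have hpe : ‖π‖ = ‖unif L ^ ramIdx K L‖ := by
      rw [norm_pow, norm_eq_zpow_ord hπ0, hπ, ramIdx, ← zpow_natCast,
        Int.natAbs_of_nonneg (ord_algebraMap_unif_pos K L).le]
    rw [← relIndex_pow_unif_ballGrp L (ramIdx K L)]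
    congr 1
    ext x
    rw [mem_map_mulLeft hπ0, mem_map_mulLeft (pow_ne_zero _ (unif_ne_zero L)), mem_ballGrp,
      mem_ballGrp, norm_mul, norm_mul, norm_inv, norm_inv, hpe]
  rw [h1, hB, hM, resCard_eq_pow K L, ← pow_mul, mul_comm (resCard K ^ n)] at h2
  have := Nat.pow_right_injective (one_lt_resCard K) (Nat.eq_of_mul_eq_mul_left
    (Nat.pos_of_ne_zero hM0) h2)
  rw [mul_comm, this]

theorem inertiaDeg_eq_resDeg [IsGalois K L] : inertiaDeg K L = resDeg K L :=
  Nat.eq_of_mul_eq_mul_left (ramIdx_pos K L)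
    ((ramIdx_mul_inertiaDeg K L).trans (ramIdx_mul_resDeg K L).symm)

end Fermat.Agent.CFT.Local
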