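import Fermat.Agent.CFT.Local.Br

/-!
Hilbert 90 for smooth 1-cocycles of the absolute Galois group, and smoothness of orbit maps.
-/

set_option autoImplicit false
set_option linter.unusedSectionVars false

noncomputable section

namespace Fermat.Agent.CFT.Local

open groupCohomology Fermat.Agent.CFT.Class

variable {k Ω : Type} [Field k] [Field Ω] [Algebra k Ω] [IsGalois k Ω]

lemma isSm1_smul (γ : Ωˣ) : IsSm1 k Ω (fun g => g • γ) := by
  refine ⟨IntermediateField.adjoin k {(γ : Ω)},
    IntermediateField.adjoin.finiteDimensional (Algebra.IsIntegral.isIntegral _), fun g s hs => ?_⟩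
  show (g * s) • γ = g • γ
  rw [mul_smul]
  congr 1
  exact Units.ext ((IntermediateField.mem_fixingSubgroup_iff _ _).1 hs _
    (IntermediateField.mem_adjoin_simple_self k (γ : Ω)))

/-- Hilbert 90 for smooth cocycles. -/
theorem exists_smul_div_eq {B : Gal(Ω/k) → Ωˣ} (hB : IsSm1 k Ω B) (hc : IsMulCocycle₁ B) :
    ∃ β : Ωˣ, ∀ g : Gal(Ω/k), g • β / β = B g := by
  obtain ⟨L, hL, hLc⟩ := hB
  obtain ⟨L₁, hL₁, hL₁n, hle₁, -⟩ := exists_level L ∅ Set.finite_empty
  choose s₁ hs₁ using restrictHom_surjective L₁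
  obtain ⟨N, hN, hNn, hleN, hSN⟩ :=
    exists_level L₁ (Set.range fun a => ((B (s₁ a) : Ωˣ) : Ω)) (Set.finite_range _)
  choose s hs using restrictHom_surjective N
  have hcs : ∀ g h, AlgEquiv.restrictNormalHom N g = AlgEquiv.restrictNormalHom N h → B g = B h := by
    intro g h e
    have hm : g⁻¹ * h ∈ L.fixingSubgroup :=
      IntermediateField.fixingSubgroup_antitone (hle₁.trans hleN)
        (by rw [← restrict_eq_one_iff, map_mul, map_inv, e, inv_mul_cancel])
    have := hLc g _ hm
    rw [mul_inv_cancel_left] at this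
    exact this.symm
  have hv : ∀ g, ((B g : Ωˣ) : Ω) ∈ N := fun g => by
    have hm : g⁻¹ * s₁ (AlgEquiv.restrictNormalHom L₁ g) ∈ L.fixingSubgroup :=
      IntermediateField.fixingSubgroup_antitone hle₁
        (by rw [← restrict_eq_one_iff, map_mul, map_inv, hs₁, inv_mul_cancel])
    have := hLc g _ hm
    rw [mul_inv_cancel_left] at this
    rw [← this]
    exact hSN ⟨_, rfl⟩
  let B' : Gal(N/k) → Nˣ := fun a =>
    Units.mk0 ⟨_, hv (s a)⟩ fun h => (B (s a)).ne_zero (congrArg Subtype.val h)
  have hB' : ∀ g, unitIncl N (B' (AlgEquiv.restrictNormalHom N g)) = B g := fun g => by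
    rw [← hcs (s (AlgEquiv.restrictNormalHom N g)) g (hs _)]
    exact Units.ext rfl
  have hco : IsMulCocycle₁ B' := fun a b => by
    apply unitIncl_injective N
    rw [← hs a, ← hs b, map_mul (unitIncl N), unitIncl_smul, ← map_mul, hB', hB', hB']
    exact hc _ _
  obtain ⟨β, hβ⟩ := isMulCoboundary₁_of_isMulCocycle₁_of_aut_to_units B' hco
  exact ⟨unitIncl N β, fun g => by rw [← unitIncl_smul, ← map_div, hβ, hB']⟩

end Fermat.Agent.CFT.Local
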