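import Fermat.Agent.CFT.Local.RamDegree
import Fermat.Agent.CFT.Local.CyclicStep

/-!
Restriction in the Brauer group along a finite extension `L/K`: it multiplies the invariant by
`[L : K]`; every class is unramified.
-/

set_option autoImplicit false
set_option linter.unusedSectionVars false

noncomputable section

namespace Fermat.Agent.CFT.Local

open Fermat.Agent.CFT.Class

variable (K Ω : Type) [NontriviallyNormedField K] [IsUltrametricDist K] [ProperSpace K]
  [NontriviallyNormedField Ω] [IsUltrametricDist Ω] [NormedAlgebra K Ω] [IsAlgClosed Ω]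
  [IsGalois K Ω]
variable (L : Type) [NontriviallyNormedField L] [IsUltrametricDist L] [ProperSpace L]
  [NormedAlgebra K L] [FiniteDimensional K L] [NormedAlgebra L Ω] [IsScalarTower K L Ω]

/-- Restriction of Galois groups along `L/K`. -/
def galRes : Gal(Ω/L) →* Gal(Ω/K) :=
  MonoidHom.mk' (fun g => g.restrictScalars K) (fun _ _ => rfl)

@[simp] lemma galRes_apply (g : Gal(Ω/L)) (x : Ω) : galRes K Ω L g x = g x := rfl

lemma exists_fin_level (M : IntermediateField K Ω) [FiniteDimensional K M] :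
    ∃ M' : IntermediateField L Ω, FiniteDimensional L M' ∧
      ∀ g ∈ M'.fixingSubgroup, galRes K Ω L g ∈ M.fixingSubgroup := by
  let b := Module.finBasis K M
  have hfin : (Set.range fun i => ((b i : M) : Ω)).Finite := Set.finite_range _
  have : Finite (Set.range fun i => ((b i : M) : Ω)) := hfin
  refine ⟨IntermediateField.adjoin L (Set.range fun i => ((b i : M) : Ω)),
    IntermediateField.finiteDimensional_adjoin fun x _ =>
      (Algebra.IsIntegral.isIntegral (R := K) x).tower_top, fun g hg => ?_⟩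
  rw [IntermediateField.mem_fixingSubgroup_iff] at hg ⊢
  intro x hx
  rw [galRes_apply]
  have key : ∀ y : M, g (y : Ω) = (y : Ω) := fun y => by
    rw [← b.sum_repr y]
    simp only [IntermediateField.coe_sum, IntermediateField.coe_smul, map_sum]
    refine Finset.sum_congr rfl fun i _ => ?_
    rw [Algebra.smul_def, map_mul, IsScalarTower.algebraMap_apply K L Ω, g.commutes,
      hg _ (IntermediateField.subset_adjoin L _ ⟨i, rfl⟩)]
  exact key ⟨x, hx⟩

/-- Restriction of smooth cocycles. -/
def resSm : smZ2 K Ω →* smZ2 L Ω :=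
  ((Class.mapZ2 (galRes K Ω L) (MonoidHom.id Ωˣ) (fun _ _ => rfl)).comp
    (smZ2 K Ω).subtype).codRestrict _ fun f => by
      obtain ⟨M, hM, hc⟩ := f.2
      obtain ⟨M', hM', hM''⟩ := exists_fin_level K Ω L M
      refine ⟨M', hM', fun g h s hs t ht => ?_⟩
      have := hc (galRes K Ω L g) (galRes K Ω L h) _ (hM'' s hs) _ (hM'' t ht)
      show ((f : Z2 Gal(Ω/K) Ωˣ) : Gal(Ω/K) × Gal(Ω/K) → Ωˣ) (galRes K Ω L (g * s), galRes K Ω L (h * t))
        = ((f : Z2 Gal(Ω/K) Ωˣ) : Gal(Ω/K) × Gal(Ω/K) → Ωˣ) (galRes K Ω L g, galRes K Ω L h)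
      rw [map_mul, map_mul]
      exact this

/-- Restriction in the Brauer group. -/
def resBr : Br K Ω →* Br L Ω :=
  QuotientGroup.map _ _ (resSm K Ω L) fun f hf => by
    obtain ⟨x, ⟨M, hM, hc⟩, hx⟩ := hf
    obtain ⟨M', hM', hM''⟩ := exists_fin_level K Ω L M
    refine ⟨fun g => x (galRes K Ω L g), ⟨M', hM', fun g s hs => ?_⟩, funext fun p => ?_⟩
    · simp only [map_mul]
      exact hc _ _ (hM'' s hs)
    · obtain ⟨g, h⟩ := p
      have := congrFun hx (galRes K Ω L g, galRes K Ω L h)
      simp only [delta1_apply, map_mul] at this ⊢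
      exact this

lemma resBr_brCls (f : smZ2 K Ω) : resBr K Ω L (brCls f) = brCls (resSm K Ω L f) := rfl

variable [IsGalois L Ω] {n : ℕ} [NeZero n]

/-- The restriction of an unramified class. -/
theorem resBr_unrBr (a : Kˣ) :
    resBr K Ω L (unrBr K Ω n a)
      = unrBr L Ω n (Units.map (algebraMap K L : K →* L) a ^ inertiaDeg K L) := by
  set f := inertiaDeg K L
  set b : fixedSubgroup Gal(Ω/L) Ωˣ := baseUnit L Ω (Units.map (algebraMap K L : K →* L) a)
  have hb : (b : Ωˣ) = baseUnit K Ω a := Units.ext (by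
    rw [coe_baseUnit, coe_baseUnit, Units.coe_map, MonoidHom.coe_coe,
      ← IsScalarTower.algebraMap_apply])
  have hroot : ∀ x : Ω, x ^ rootOrder K n = 1 → x ^ rootOrder L n = 1 := fun x hx => by
    have : rootOrder K n ∣ rootOrder L n := by
      rw [rootOrder, rootOrder, resCard_eq_pow K L, ← pow_mul]
      exact Nat.pow_sub_one_dvd_pow_sub_one _ (dvd_mul_left n _)
    obtain ⟨c, hc⟩ := this
    rw [hc, pow_mul, hx, one_pow]
  rw [unrBr_apply, resBr_brCls, unrBr_apply, brCls_eq_iff]
  refine ⟨fun g => ((b : Ωˣ) ^ (f * cval (unrChar L Ω n) g / n))⁻¹,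
    isSm1_of_restrict fun τ => ((b : Ωˣ) ^ (f * cval (unrCharFin L Ω n) τ / n))⁻¹, fun g h => ?_⟩
  have key := congrFun (carry_change (unrChar L Ω n) ((unrChar K Ω n).comp (galRes K Ω L)) f f rfl
    (fun g => cval_unrChar_unique (galRes K Ω L g) fun x hx => by
      rw [galRes_apply, apply_root_of_unrChar g (hroot x hx), resCard_eq_pow K L, ← pow_mul]) b) (g, h)
  refine Eq.trans ?_ (key.trans ?_)
  · show (baseUnit K Ω a : Ωˣ) ^ carry (unrChar K Ω n) (galRes K Ω L g) (galRes K Ω L h) = _
    rw [← hb, carryZ2_apply]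
    rfl
  · rw [← map_pow]
    rfl

/-- Restriction multiplies by the degree. -/
theorem resBr_unrBr_unif (j : ℤ) :
    resBr K Ω L (unrBr K Ω n (Units.mk0 (unif K) (unif_ne_zero K) ^ j))
      = unrBr L Ω n (Units.mk0 (unif L) (unif_ne_zero L) ^ (Module.finrank K L * j)) := by
  rw [resBr_unrBr, ← div_eq_one]
  refine (map_div (unrBr L Ω n) _ _).symm.trans ?_
  refine unrBr_eq_one_of_dvd ?_
  set a := Units.map (algebraMap K L : K →* L) (Units.mk0 (unif K) (unif_ne_zero K) ^ j) ^ inertiaDeg K L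
    / Units.mk0 (unif L) (unif_ne_zero L) ^ ((Module.finrank K L : ℤ) * j)
  have : ordHom L a = 1 := by
    have h1 : ordHom L (Units.map (algebraMap K L : K →* L) (Units.mk0 (unif K) (unif_ne_zero K)))
        = Multiplicative.ofAdd (ramIdx K L : ℤ) := by
      show Multiplicative.ofAdd (ord (algebraMap K L (unif K))) = _
      rw [ord_algebraMap K L (unif_ne_zero K), ord_unif, mul_one]
    have h2 : ordHom L (Units.mk0 (unif L) (unif_ne_zero L)) = Multiplicative.ofAdd 1 := by
      show Multiplicative.ofAdd (ord (unif L)) = _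
      rw [ord_unif]
    simp only [a, map_div, map_pow, map_zpow, h1, h2]
    rw [← ramIdx_mul_inertiaDeg K L, div_eq_one, ← ofAdd_zsmul, ← ofAdd_zsmul, ← ofAdd_nsmul]
    congr 1
    simp only [nsmul_eq_mul, smul_eq_mul, Nat.cast_mul]
    ring
  have h0 : ord (a : L) = 0 := this
  rw [h0]
  exact dvd_zero _

end Fermat.Agent.CFT.Local
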